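import Mathlib
import Fermat.Agent.S56G.TateIface

/-!
# S56, block BA (Brauer–Artin squeeze): frozen leaves (helper10)

Target: `H47BrauerArtin` (`S56G/TateIface.lean`).

Route (`k = 𝔽_p`, `Φ` additive, `N` a finite dimensional representation of `G`):

1. squeeze: `Φ(Ind_C τ) = 0` for `C` cyclic of order prime to `p`;
2. `Φ(Ind_B Res_B N) = 0` for every cyclic `B` (nilpotent operator on `Ind_Q Res_Q N`);
3. `H10Artin`: two finite `G`-sets `X₁`, `X₂` with the same fixed point counts, `X₂` with cyclic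
   stabilisers, `X₁` with cyclic stabilisers or fixed points, and at least one fixed point;
4. `H10Char0`: rational representations with the same character are isomorphic;
5. `H10Lattice`: a `ℚ`-isomorphism of permutation modules gives `Ψ(𝔽_p[X₁]) = Ψ(𝔽_p[X₂])`
   for every additive `Ψ`;
6. `Ψ_N(M) = Φ(Hom(M, N))`, `Hom(𝔽_p[G/B], N) = Ind_B Res_B N`, orbit decomposition.

Nothing is assumed in this file.
-/

set_option autoImplicit false

noncomputable section

namespace Fermat.Agent.S56G

/-- The permutation representation on the functions `X → k`: `(g f)(x) = f(g⁻¹ x)`. -/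
def h10b_perm (k : Type) [CommRing k] (G : Type) [Group G] (X : Type) [MulAction G X] :
    Representation k G (X → k) where
  toFun g := LinearMap.funLeft k k (fun x : X => g⁻¹ • x)
  map_one' := by
    ext f x
    simp [LinearMap.funLeft_apply]
  map_mul' g h := by
    ext f x
    simp [LinearMap.funLeft_apply, mul_smul]

@[simp] lemma h10b_perm_apply (k : Type) [CommRing k] (G : Type) [Group G] (X : Type)
    [MulAction G X] (g : G) (f : X → k) (x : X) :
    h10b_perm k G X g f x = f (g⁻¹ • x) := rfl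

/-- **BA-5 (Artin's induction theorem, `G`-set form).**  For every finite group `G` there are
finite `G`-sets `X₁`, `X₂` with the same number of fixed points for every `g : G`, such that all
stabilisers of `X₂` are cyclic, all stabilisers of `X₁` are cyclic or the whole group, and `X₁`
has a fixed point.  (`X₁ = |G| · pt ⊔ ⊔_{a_B < 0} |a_B| · G/B`,
`X₂ = ⊔_{a_B > 0} a_B · G/B` for Artin's coefficients `a_B`.) -/
def H10Artin : Prop :=
  ∀ (G : Type) [Group G] [Finite G],
    ∃ (X₁ X₂ : Type) (_ : Finite X₁) (_ : Finite X₂) (_ : MulAction G X₁) (_ : MulAction G X₂),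
      (∀ x : X₂, IsCyclic ↥(MulAction.stabilizer G x)) ∧
      (∀ x : X₁, MulAction.stabilizer G x = ⊤ ∨ IsCyclic ↥(MulAction.stabilizer G x)) ∧
      (∃ x : X₁, MulAction.stabilizer G x = ⊤) ∧
      ∀ g : G, Nat.card {x : X₁ // g • x = x} = Nat.card {x : X₂ // g • x = x}

/-- **BA-6 (characters in characteristic zero).**  Two finite dimensional rational representations
of a finite group with the same character are isomorphic. -/
def H10Char0 : Prop :=
  ∀ (G : Type) [Group G] [Finite G] (V W : Type) [AddCommGroup V] [Module ℚ V]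
    [FiniteDimensional ℚ V] [AddCommGroup W] [Module ℚ W] [FiniteDimensional ℚ W]
    (ρ : Representation ℚ G V) (σ : Representation ℚ G W),
    (∀ g : G, LinearMap.trace ℚ V (ρ g) = LinearMap.trace ℚ W (σ g)) →
    ∃ e : V ≃ₗ[ℚ] W, ∀ (g : G) (v : V), e (ρ g v) = σ g (e v)

/-- **BA-7 (lattice lemma, permutation form).**  If the rational permutation modules of two finite
`G`-sets are isomorphic, every additive function takes the same value on their reductions
mod `p`. -/
def H10Lattice : Prop :=
  ∀ (p : ℕ) [Fact p.Prime] (G : Type) [Group G] [Finite G]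
    (Ψ : ∀ (V : Type) [AddCommGroup V] [Module (ZMod p) V], Representation (ZMod p) G V → ℤ),
    h47g_IsAdditive (ZMod p) G Ψ →
    ∀ (X₁ X₂ : Type) [Finite X₁] [Finite X₂] [MulAction G X₁] [MulAction G X₂]
      (e : (X₁ → ℚ) ≃ₗ[ℚ] (X₂ → ℚ)),
      (∀ (g : G) (f : X₁ → ℚ), e (h10b_perm ℚ G X₁ g f) = h10b_perm ℚ G X₂ g (e f)) →
      Ψ (X₁ → ZMod p) (h10b_perm (ZMod p) G X₁) = Ψ (X₂ → ZMod p) (h10b_perm (ZMod p) G X₂)

/-- **BA-67 (consequence of BA-6 and BA-7).**  Finite `G`-sets with the same fixed point counts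
have the same value of every additive function on their permutation modules mod `p`. -/
def H10PermEq : Prop :=
  ∀ (p : ℕ) [Fact p.Prime] (G : Type) [Group G] [Finite G]
    (Ψ : ∀ (V : Type) [AddCommGroup V] [Module (ZMod p) V], Representation (ZMod p) G V → ℤ),
    h47g_IsAdditive (ZMod p) G Ψ →
    ∀ (X₁ X₂ : Type) [Finite X₁] [Finite X₂] [MulAction G X₁] [MulAction G X₂],
      (∀ g : G, Nat.card {x : X₁ // g • x = x} = Nat.card {x : X₂ // g • x = x}) →
      Ψ (X₁ → ZMod p) (h10b_perm (ZMod p) G X₁) = Ψ (X₂ → ZMod p) (h10b_perm (ZMod p) G X₂)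

/-- **BA-12 (squeeze + cyclic step).**  Under the hypotheses of `H47BrauerArtin`,
`Φ(Ind_B^G Res_B N) = 0` for every cyclic subgroup `B` and every finite dimensional `N`. -/
def H10Cyclic : Prop :=
  ∀ (p : ℕ) [Fact p.Prime] (G : Type) [Group G] [Finite G]
    (Φ : ∀ (V : Type) [AddCommGroup V] [Module (ZMod p) V], Representation (ZMod p) G V → ℤ),
    h47g_IsAdditive (ZMod p) G Φ →
    Φ (G → ZMod p) (h47g_reg (ZMod p) G) = 0 →
    (∀ C : Subgroup G, IsCyclic ↥C → ¬ p ∣ Nat.card ↥C →
      ∀ (Y : Type) [AddCommGroup Y] [Module (ZMod p) Y] [FiniteDimensional (ZMod p) Y]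
        (τ : Representation (ZMod p) ↥C Y), 0 ≤ Φ ↥(h47g_indSpace C τ) (h47g_ind C τ)) →
    ∀ (B : Subgroup G), IsCyclic ↥B →
      ∀ (V : Type) [AddCommGroup V] [Module (ZMod p) V] [FiniteDimensional (ZMod p) V]
        (ρ : Representation (ZMod p) G V),
        Φ ↥(h47g_indSpace B (ρ.comp B.subtype)) (h47g_ind B (ρ.comp B.subtype)) = 0

/-- **BA-8 (orbits + projection formula).**  If `Φ(Ind_B^G Res_B N) = 0` for all cyclic `B`, then
for every finite `G`-set `X` whose stabilisers are cyclic or the whole group,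
`Φ(Hom(𝔽_p[X], N)) = #X^G · Φ(N)`. -/
def H10Orbit : Prop :=
  ∀ (p : ℕ) [Fact p.Prime] (G : Type) [Group G] [Finite G]
    (Φ : ∀ (V : Type) [AddCommGroup V] [Module (ZMod p) V], Representation (ZMod p) G V → ℤ),
    h47g_IsAdditive (ZMod p) G Φ →
    ∀ (V : Type) [AddCommGroup V] [Module (ZMod p) V] [FiniteDimensional (ZMod p) V]
      (ρ : Representation (ZMod p) G V),
      (∀ (B : Subgroup G), IsCyclic ↥B →
        Φ ↥(h47g_indSpace B (ρ.comp B.subtype)) (h47g_ind B (ρ.comp B.subtype)) = 0) →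
      ∀ (X : Type) [Finite X] [MulAction G X],
        (∀ x : X, MulAction.stabilizer G x = ⊤ ∨ IsCyclic ↥(MulAction.stabilizer G x)) →
        Φ ((X → ZMod p) →ₗ[ZMod p] V) (Representation.linHom (h10b_perm (ZMod p) G X) ρ) =
          (Nat.card {x : X // MulAction.stabilizer G x = ⊤} : ℤ) * Φ V ρ

/-- **BA-8' (Hom is exact).**  `M ↦ Φ(Hom(M, N))` is additive. -/
def H10HomAdd : Prop :=
  ∀ (p : ℕ) [Fact p.Prime] (G : Type) [Group G] [Finite G]
    (Φ : ∀ (V : Type) [AddCommGroup V] [Module (ZMod p) V], Representation (ZMod p) G V → ℤ),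
    h47g_IsAdditive (ZMod p) G Φ →
    ∀ (V : Type) [AddCommGroup V] [Module (ZMod p) V] [FiniteDimensional (ZMod p) V]
      (ρ : Representation (ZMod p) G V),
      h47g_IsAdditive (ZMod p) G
        (fun M _ _ σ => Φ (M →ₗ[ZMod p] V) (Representation.linHom σ ρ))

end Fermat.Agent.S56G
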