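import Mathlib
import Fermat.Agent.S56G.BA.H10Iface

/-!
# S56, block BA: toolkit for additive functions (helper10)
-/

set_option autoImplicit false
set_option linter.unusedSectionVars false
set_option linter.style.haveILetI false

noncomputable section

namespace Fermat.Agent.S56G

section Tool

variable {k : Type} [Field k] {G : Type} [Group G]

/-- The restriction of a representation to an invariant submodule. -/
def h10b_res {V : Type} [AddCommGroup V] [Module k V] (ρ : Representation k G V)
    (S : Submodule k V) (hS : ∀ g : G, ∀ v ∈ S, ρ g v ∈ S) : Representation k G ↥S where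
  toFun g := (ρ g).restrict (hS g)
  map_one' := by
    ext v
    simp
  map_mul' g h := by
    ext v
    simp

@[simp] lemma h10b_res_apply {V : Type} [AddCommGroup V] [Module k V] (ρ : Representation k G V)
    (S : Submodule k V) (hS : ∀ g : G, ∀ v ∈ S, ρ g v ∈ S) (g : G) (v : ↥S) :
    ((h10b_res ρ S hS g v : ↥S) : V) = ρ g (v : V) := rfl

variable {Φ : ∀ (V : Type) [AddCommGroup V] [Module k V], Representation k G V → ℤ}

/-- `Φ` vanishes on the zero representation. -/
theorem h10b_zero (hΦ : h47g_IsAdditive k G Φ) {V : Type} [AddCommGroup V] [Module k V]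
    [Subsingleton V] (ρ : Representation k G V) : Φ V ρ = 0 := by
  haveI : FiniteDimensional k V := Module.Finite.of_finite
  have h := hΦ V V V ρ ρ ρ 0 0 (fun g v => Subsingleton.elim _ _)
    (fun g v => Subsingleton.elim _ _) (fun a b _ => Subsingleton.elim a b)
    (fun b => ⟨b, Subsingleton.elim _ _⟩) (by
      ext v
      simp [Subsingleton.elim v 0])
  linarith

/-- `Φ` is invariant under isomorphisms. -/
theorem h10b_iso (hΦ : h47g_IsAdditive k G Φ) {V W : Type} [AddCommGroup V] [Module k V]
    [AddCommGroup W] [Module k W] [FiniteDimensional k V]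
    (ρ : Representation k G V) (σ : Representation k G W) (e : V →ₗ[k] W)
    (he : ∀ g v, e (ρ g v) = σ g (e v)) (hinj : Function.Injective e)
    (hsurj : Function.Surjective e) : Φ V ρ = Φ W σ := by
  have h := hΦ PUnit V W (1 : Representation k G PUnit) ρ σ 0 e
    (fun g v => by simp) he (fun a b _ => Subsingleton.elim a b) hsurj (by
      ext v
      simp only [LinearMap.mem_range, LinearMap.zero_apply, exists_const, LinearMap.mem_ker]
      constructor
      · intro h
        rw [← h, map_zero]
      · intro h
        exact (hinj (h.trans (map_zero e).symm)).symm)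
  rw [h, h10b_zero hΦ, zero_add]

/-- `Φ` is invariant under linear equivalences. -/
theorem h10b_equiv (hΦ : h47g_IsAdditive k G Φ) {V W : Type} [AddCommGroup V] [Module k V]
    [AddCommGroup W] [Module k W] [FiniteDimensional k V]
    (ρ : Representation k G V) (σ : Representation k G W) (e : V ≃ₗ[k] W)
    (he : ∀ g v, e (ρ g v) = σ g (e v)) : Φ V ρ = Φ W σ :=
  h10b_iso hΦ ρ σ e.toLinearMap he e.injective e.surjective

omit [Group G] in
lemma h10b_ker_inv [Monoid G] {V W : Type} [AddCommGroup V] [Module k V]
    [AddCommGroup W] [Module k W]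
    (ρ : Representation k G V) (σ : Representation k G W) (f : V →ₗ[k] W)
    (hf : ∀ g v, f (ρ g v) = σ g (f v)) :
    ∀ g : G, ∀ v ∈ LinearMap.ker f, ρ g v ∈ LinearMap.ker f := by
  intro g v hv
  rw [LinearMap.mem_ker] at hv ⊢
  rw [hf, hv, map_zero]

omit [Group G] in
lemma h10b_range_inv [Monoid G] {V W : Type} [AddCommGroup V] [Module k V]
    [AddCommGroup W] [Module k W]
    (ρ : Representation k G V) (σ : Representation k G W) (f : V →ₗ[k] W)
    (hf : ∀ g v, f (ρ g v) = σ g (f v)) :
    ∀ g : G, ∀ w ∈ LinearMap.range f, σ g w ∈ LinearMap.range f := by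
  intro g w hw
  obtain ⟨v, rfl⟩ := hw
  exact ⟨ρ g v, hf g v⟩

/-- `Φ(V) = Φ(ker f) + Φ(range f)`. -/
theorem h10b_ker_range (hΦ : h47g_IsAdditive k G Φ) {V W : Type} [AddCommGroup V] [Module k V]
    [AddCommGroup W] [Module k W] [FiniteDimensional k V]
    (ρ : Representation k G V) (σ : Representation k G W) (f : V →ₗ[k] W)
    (hf : ∀ g v, f (ρ g v) = σ g (f v)) :
    Φ V ρ = Φ ↥(LinearMap.ker f) (h10b_res ρ (LinearMap.ker f) (h10b_ker_inv ρ σ f hf))
      + Φ ↥(LinearMap.range f) (h10b_res σ (LinearMap.range f) (h10b_range_inv ρ σ f hf)) := by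
  refine hΦ _ V _ _ ρ _ (LinearMap.ker f).subtype f.rangeRestrict (fun g v => rfl)
    (fun g v => Subtype.ext (hf g v)) (Submodule.subtype_injective _)
    f.surjective_rangeRestrict ?_
  rw [Submodule.range_subtype, LinearMap.ker_rangeRestrict]

/-- `Φ` depends only on the submodule. -/
theorem h10b_res_congr {V : Type} [AddCommGroup V] [Module k V]
    (ρ : Representation k G V) (S S' : Submodule k V)
    (hS : ∀ g : G, ∀ v ∈ S, ρ g v ∈ S) (hS' : ∀ g : G, ∀ v ∈ S', ρ g v ∈ S') (h : S = S') :
    Φ ↥S (h10b_res ρ S hS) = Φ ↥S' (h10b_res ρ S' hS') := by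
  subst h
  rfl

/-- A two-periodic exact pair: `ker f = range g`, `ker g = range f` gives `Φ(V) = Φ(W)`. -/
theorem h10b_periodic (hΦ : h47g_IsAdditive k G Φ) {V W : Type} [AddCommGroup V] [Module k V]
    [AddCommGroup W] [Module k W] [FiniteDimensional k V] [FiniteDimensional k W]
    (ρ : Representation k G V) (σ : Representation k G W) (f : V →ₗ[k] W) (g : W →ₗ[k] V)
    (hf : ∀ x v, f (ρ x v) = σ x (f v)) (hg : ∀ x w, g (σ x w) = ρ x (g w))
    (h1 : LinearMap.ker f = LinearMap.range g) (h2 : LinearMap.ker g = LinearMap.range f) :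
    Φ V ρ = Φ W σ := by
  rw [h10b_ker_range hΦ ρ σ f hf, h10b_ker_range hΦ σ ρ g hg,
    h10b_res_congr (Φ := Φ) ρ _ _ (h10b_ker_inv ρ σ f hf) (h10b_range_inv σ ρ g hg) h1,
    h10b_res_congr (Φ := Φ) σ _ _ (h10b_ker_inv σ ρ g hg) (h10b_range_inv ρ σ f hf) h2]
  ring

/-- `Φ` is additive on products. -/
theorem h10b_prod (hΦ : h47g_IsAdditive k G Φ) {V W : Type} [AddCommGroup V] [Module k V]
    [AddCommGroup W] [Module k W] [FiniteDimensional k V] [FiniteDimensional k W]
    (ρ : Representation k G V) (σ : Representation k G W) :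
    Φ (V × W) (ρ.prod σ) = Φ V ρ + Φ W σ := by
  refine hΦ V (V × W) W ρ (ρ.prod σ) σ (LinearMap.inl k V W) (LinearMap.snd k V W)
    (fun g v => by simp) (fun g v => by simp) LinearMap.inl_injective
    LinearMap.snd_surjective ?_
  exact LinearMap.range_inl k V W

/-- The pointwise representation on `ι → V`. -/
def h10b_pi (ι : Type) {V : Type} [AddCommGroup V] [Module k V] (ρ : Representation k G V) :
    Representation k G (ι → V) where
  toFun g := LinearMap.pi (fun i => (ρ g).comp (LinearMap.proj i))
  map_one' := by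
    ext f i
    simp
  map_mul' g h := by
    ext f i
    simp

@[simp] lemma h10b_pi_apply (ι : Type) {V : Type} [AddCommGroup V] [Module k V]
    (ρ : Representation k G V) (g : G) (f : ι → V) (i : ι) :
    h10b_pi ι ρ g f i = ρ g (f i) := rfl

/-- `Φ(V^n) = n Φ(V)`. -/
theorem h10b_pi_fin (hΦ : h47g_IsAdditive k G Φ) {V : Type} [AddCommGroup V] [Module k V]
    [FiniteDimensional k V] (ρ : Representation k G V) (n : ℕ) :
    Φ (Fin n → V) (h10b_pi (Fin n) ρ) = n * Φ V ρ := by
  induction n with
  | zero =>
    rw [h10b_zero hΦ]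
    simp
  | succ n ih =>
    have h := hΦ V (Fin (n + 1) → V) (Fin n → V) ρ (h10b_pi (Fin (n + 1)) ρ) (h10b_pi (Fin n) ρ)
      (LinearMap.single k (fun _ : Fin (n + 1) => V) 0)
      (LinearMap.funLeft k V (Fin.succ : Fin n → Fin (n + 1)))
      (fun g v => by
        ext i
        simp only [h10b_pi_apply, LinearMap.coe_single]
        by_cases hi : i = 0
        · subst hi
          simp
        · simp [Pi.single_eq_of_ne hi])
      (fun g f => by
        ext i
        simp [LinearMap.funLeft_apply])
      (fun a b hab => by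
        have := congrFun hab 0
        simpa using this)
      (fun f => ⟨Fin.cons 0 f, by
        ext i
        simp [LinearMap.funLeft_apply]⟩)
      (by
        ext f
        simp only [LinearMap.mem_range, LinearMap.coe_single, LinearMap.mem_ker]
        constructor
        · rintro ⟨v, rfl⟩
          ext i
          simp [LinearMap.funLeft_apply, Pi.single_eq_of_ne (Fin.succ_ne_zero i)]
        · intro h
          refine ⟨f 0, ?_⟩
          ext i
          refine Fin.cases ?_ (fun j => ?_) i
          · simp
          · have := congrFun h j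
            simp only [LinearMap.funLeft_apply, Pi.zero_apply] at this
            rw [this, Pi.single_eq_of_ne (Fin.succ_ne_zero j)])
    rw [h, ih]
    push_cast
    ring

end Tool

end Fermat.Agent.S56G
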