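import Mathlib
import Fermat.Agent.S56G.BA.H10Tool

/-!
# S56, block BA: induction is exact; the squeeze (helper10)
-/

set_option autoImplicit false
set_option linter.unusedSectionVars false
set_option linter.style.haveILetI false

noncomputable section

namespace Fermat.Agent.S56G

section Ind

variable {k : Type} [Field k] {G : Type} [Group G] (H : Subgroup G)

/-- `d(g) = (representative of g H)⁻¹ g`. -/
def h10b_d (g : G) : G := ((g : G ⧸ H).out)⁻¹ * g

lemma h10b_d_mem (g : G) : h10b_d H g ∈ H := by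
  unfold h10b_d
  rw [← QuotientGroup.eq]
  exact QuotientGroup.out_eq' _

lemma h10b_d_mul (g : G) (h : G) (hh : h ∈ H) : h10b_d H (g * h) = h10b_d H g * h := by
  unfold h10b_d
  rw [QuotientGroup.mk_mul_of_mem g hh, mul_assoc]

lemma h10b_d_out (q : G ⧸ H) : h10b_d H q.out = 1 := by
  unfold h10b_d
  rw [QuotientGroup.out_eq']
  exact inv_mul_cancel _

lemma h10b_out_mul_d (g : G) : (g : G ⧸ H).out * h10b_d H g = g := by
  unfold h10b_d
  rw [mul_inv_cancel_left]

variable {H}
variable {Y : Type} [AddCommGroup Y] [Module k Y]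

lemma h10b_mem_indSpace (τ : Representation k ↥H Y) (f : G → Y) :
    f ∈ h47g_indSpace H τ ↔ ∀ (g : G) (c : ↥H), f (g * (c : G)) = τ c⁻¹ (f g) := Iff.rfl

/-- `Ind_H^G τ ≃ (G ⧸ H → Y)`. -/
def h10b_indEquiv (τ : Representation k ↥H Y) : ↥(h47g_indSpace H τ) ≃ₗ[k] (G ⧸ H → Y) where
  toFun f := fun q => (f : G → Y) q.out
  map_add' f f' := by
    ext q
    rfl
  map_smul' a f := by
    ext q
    rfl
  invFun φ := ⟨fun g => τ (⟨h10b_d H g, h10b_d_mem H g⟩ : ↥H)⁻¹ (φ (g : G ⧸ H)), by
    intro g c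
    have h1 : ((g * (c : G) : G) : G ⧸ H) = (g : G ⧸ H) := QuotientGroup.mk_mul_of_mem g c.2
    have h2 : (⟨h10b_d H (g * (c : G)), h10b_d_mem H _⟩ : ↥H)
        = ⟨h10b_d H g, h10b_d_mem H g⟩ * c := Subtype.ext (h10b_d_mul H g c c.2)
    simp only
    rw [h1, h2, mul_inv_rev, map_mul]
    rfl⟩
  left_inv f := by
    apply Subtype.ext
    funext g
    have hf := f.2 (g : G ⧸ H).out ⟨h10b_d H g, h10b_d_mem H g⟩
    simp only at hf ⊢
    rw [← hf, h10b_out_mul_d]
  right_inv φ := by
    funext q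
    have h2 : (⟨h10b_d H q.out, h10b_d_mem H _⟩ : ↥H) = 1 := Subtype.ext (h10b_d_out H q)
    simp only
    rw [h2, QuotientGroup.out_eq']
    simp

@[simp] lemma h10b_indEquiv_apply (τ : Representation k ↥H Y) (f : ↥(h47g_indSpace H τ))
    (q : G ⧸ H) : h10b_indEquiv τ f q = (f : G → Y) q.out := rfl

instance h10b_fd_ind [Finite G] [FiniteDimensional k Y] (τ : Representation k ↥H Y) :
    FiniteDimensional k ↥(h47g_indSpace H τ) := by
  haveI : Fintype G := Fintype.ofFinite G
  exact FiniteDimensional.finiteDimensional_submodule _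

theorem h10b_finrank_ind [Finite G] [FiniteDimensional k Y] (τ : Representation k ↥H Y) :
    Module.finrank k ↥(h47g_indSpace H τ) = H.index * Module.finrank k Y := by
  haveI : Fintype (G ⧸ H) := Fintype.ofFinite _
  rw [(h10b_indEquiv τ).finrank_eq, Module.finrank_pi_fintype, Finset.sum_const,
    Finset.card_univ, smul_eq_mul, Subgroup.index, Nat.card_eq_fintype_card]

variable {Y' : Type} [AddCommGroup Y'] [Module k Y']

/-- The map `Ind τ → Ind τ'` induced by an equivariant map. -/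
def h10b_indMap (τ : Representation k ↥H Y) (τ' : Representation k ↥H Y') (φ : Y →ₗ[k] Y')
    (hφ : ∀ c v, φ (τ c v) = τ' c (φ v)) :
    ↥(h47g_indSpace H τ) →ₗ[k] ↥(h47g_indSpace H τ') where
  toFun f := ⟨fun g => φ ((f : G → Y) g), by
    intro g c
    simp only
    rw [f.2 g c, hφ]⟩
  map_add' f f' := by
    apply Subtype.ext
    funext g
    simp
  map_smul' a f := by
    apply Subtype.ext
    funext g
    simp

@[simp] lemma h10b_indMap_apply (τ : Representation k ↥H Y) (τ' : Representation k ↥H Y')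
    (φ : Y →ₗ[k] Y') (hφ : ∀ c v, φ (τ c v) = τ' c (φ v)) (f : ↥(h47g_indSpace H τ)) (g : G) :
    ((h10b_indMap τ τ' φ hφ f : ↥(h47g_indSpace H τ')) : G → Y') g = φ ((f : G → Y) g) := rfl

lemma h10b_indMap_equivariant (τ : Representation k ↥H Y) (τ' : Representation k ↥H Y')
    (φ : Y →ₗ[k] Y') (hφ : ∀ c v, φ (τ c v) = τ' c (φ v)) (x : G) (f : ↥(h47g_indSpace H τ)) :
    h10b_indMap τ τ' φ hφ (h47g_ind H τ x f) = h47g_ind H τ' x (h10b_indMap τ τ' φ hφ f) := by
  apply Subtype.ext
  funext g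
  rfl

lemma h10b_indMap_injective (τ : Representation k ↥H Y) (τ' : Representation k ↥H Y')
    (φ : Y →ₗ[k] Y') (hφ : ∀ c v, φ (τ c v) = τ' c (φ v)) (hinj : Function.Injective φ) :
    Function.Injective (h10b_indMap τ τ' φ hφ) := by
  intro f f' hff
  apply Subtype.ext
  funext g
  have := congrFun (congrArg Subtype.val hff) g
  exact hinj this

lemma h10b_indMap_surjective (τ : Representation k ↥H Y) (τ' : Representation k ↥H Y')
    (φ : Y →ₗ[k] Y') (hφ : ∀ c v, φ (τ c v) = τ' c (φ v)) (hsurj : Function.Surjective φ) :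
    Function.Surjective (h10b_indMap τ τ' φ hφ) := by
  intro f'
  refine ⟨(h10b_indEquiv τ).symm (fun q => Function.surjInv hsurj (h10b_indEquiv τ' f' q)), ?_⟩
  apply (h10b_indEquiv τ').injective
  funext q
  have h := congrFun ((h10b_indEquiv τ).apply_symm_apply
    (fun q => Function.surjInv hsurj (h10b_indEquiv τ' f' q))) q
  rw [h10b_indEquiv_apply, h10b_indMap_apply, ← h10b_indEquiv_apply τ, h]
  exact Function.surjInv_eq hsurj _

lemma h10b_indMap_exact {Y'' : Type} [AddCommGroup Y''] [Module k Y'']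
    (τ : Representation k ↥H Y) (τ' : Representation k ↥H Y')
    (τ'' : Representation k ↥H Y'')
    (φ : Y →ₗ[k] Y') (hφ : ∀ c v, φ (τ c v) = τ' c (φ v))
    (ψ : Y' →ₗ[k] Y'') (hψ : ∀ c v, ψ (τ' c v) = τ'' c (ψ v))
    (hinj : Function.Injective φ) (hex : LinearMap.range φ = LinearMap.ker ψ) :
    LinearMap.range (h10b_indMap τ τ' φ hφ) = LinearMap.ker (h10b_indMap τ' τ'' ψ hψ) := by
  ext f
  simp only [LinearMap.mem_range, LinearMap.mem_ker]
  constructor
  · rintro ⟨f₁, rfl⟩
    apply Subtype.ext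
    funext g
    have : φ ((f₁ : G → Y) g) ∈ LinearMap.ker ψ := by
      rw [← hex]
      exact ⟨_, rfl⟩
    exact this
  · intro hf
    have hmem : ∀ g, (f : G → Y') g ∈ LinearMap.range φ := by
      intro g
      rw [hex]
      exact congrFun (congrArg Subtype.val hf) g
    choose f₁ hf₁ using hmem
    refine ⟨⟨f₁, ?_⟩, ?_⟩
    · intro g c
      apply hinj
      rw [hf₁, hφ, hf₁]
      exact f.2 g c
    · apply Subtype.ext
      funext g
      exact hf₁ g

/-- `Φ ∘ Ind_H^G` is additive. -/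
theorem h10b_ind_additive [Finite G]
    {Φ : ∀ (V : Type) [AddCommGroup V] [Module k V], Representation k G V → ℤ}
    (hΦ : h47g_IsAdditive k G Φ) :
    h47g_IsAdditive k ↥H (fun Y _ _ τ => Φ ↥(h47g_indSpace H τ) (h47g_ind H τ)) := by
  intro V₁ V₂ V₃ _ _ _ _ _ _ _ ρ₁ ρ₂ ρ₃ φ ψ hφ hψ hinj hsurj hex
  exact hΦ _ _ _ (h47g_ind H ρ₁) (h47g_ind H ρ₂) (h47g_ind H ρ₃)
    (h10b_indMap ρ₁ ρ₂ φ hφ) (h10b_indMap ρ₂ ρ₃ ψ hψ)
    (h10b_indMap_equivariant ρ₁ ρ₂ φ hφ) (h10b_indMap_equivariant ρ₂ ρ₃ ψ hψ)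
    (h10b_indMap_injective ρ₁ ρ₂ φ hφ hinj) (h10b_indMap_surjective ρ₂ ρ₃ ψ hψ hsurj)
    (h10b_indMap_exact ρ₁ ρ₂ ρ₃ φ hφ ψ hψ hinj hex)

/-- `Ind_H^G (regular representation of H) ≃ regular representation of G`. -/
def h10b_indReg : ↥(h47g_indSpace H (h47g_reg k ↥H)) ≃ₗ[k] (G → k) where
  toFun f := fun g => (f : G → (↥H → k)) g 1
  map_add' f f' := by
    ext g
    rfl
  map_smul' a f := by
    ext g
    rfl
  invFun φ := ⟨fun g c => φ (g * (c : G)), by
    intro g c
    funext c'
    simp only [h47g_reg_apply, inv_inv, Subgroup.coe_mul, mul_assoc]⟩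
  left_inv f := by
    apply Subtype.ext
    funext g c
    have hf := congrFun (f.2 g c) 1
    simp only [h47g_reg_apply, inv_inv, mul_one] at hf ⊢
    exact hf
  right_inv φ := by
    funext g
    simp

lemma h10b_indReg_equivariant (x : G) (f : ↥(h47g_indSpace H (h47g_reg k ↥H))) :
    h10b_indReg (h47g_ind H (h47g_reg k ↥H) x f) = h47g_reg k G x (h10b_indReg f) := by
  funext g
  rfl

end Ind

section Squeeze

variable {k : Type} [Field k] {H : Type} [Group H] [Finite H]

/-- The representation on `H → Y` by left translation. -/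
def h10b_regY (k : Type) [Field k] (H : Type) [Group H] (Y : Type) [AddCommGroup Y]
    [Module k Y] : Representation k H (H → Y) where
  toFun g := LinearMap.funLeft k Y (fun x : H => g⁻¹ * x)
  map_one' := by
    ext f x
    simp [LinearMap.funLeft_apply]
  map_mul' g h := by
    ext f x
    simp [LinearMap.funLeft_apply, mul_assoc]

@[simp] lemma h10b_regY_apply (Y : Type) [AddCommGroup Y] [Module k Y] (g : H) (f : H → Y)
    (x : H) : h10b_regY k H Y g f x = f (g⁻¹ * x) := rfl

/-- `(H → Y) ≃ (Fin d → H → k)`. -/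
def h10b_regYEquiv (Y : Type) [AddCommGroup Y] [Module k Y] [FiniteDimensional k Y] :
    (H → Y) ≃ₗ[k] (Fin (Module.finrank k Y) → (H → k)) where
  toFun f := fun i c => (Module.finBasis k Y).equivFun (f c) i
  map_add' f f' := by
    ext i c
    simp
  map_smul' a f := by
    ext i c
    simp
  invFun F := fun c => (Module.finBasis k Y).equivFun.symm (fun i => F i c)
  left_inv f := by
    funext c
    simp
  right_inv F := by
    funext i c
    exact congrFun ((Module.finBasis k Y).equivFun.apply_symm_apply (fun i => F i c)) i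

/-- **Squeeze.**  An additive function which is `≥ 0` and vanishes on the regular
representation is zero. -/
theorem h10b_squeeze
    {Ψ : ∀ (V : Type) [AddCommGroup V] [Module k V], Representation k H V → ℤ}
    (hΨ : h47g_IsAdditive k H Ψ) (hreg : Ψ (H → k) (h47g_reg k H) = 0)
    (hpos : ∀ (Y : Type) [AddCommGroup Y] [Module k Y] [FiniteDimensional k Y]
      (τ : Representation k H Y), 0 ≤ Ψ Y τ)
    (Y : Type) [AddCommGroup Y] [Module k Y] [FiniteDimensional k Y]
    (τ : Representation k H Y) : Ψ Y τ = 0 := by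
  haveI : Fintype H := Fintype.ofFinite H
  -- the value on `H → Y`
  have h0 : Ψ (H → Y) (h10b_regY k H Y) = 0 := by
    rw [h10b_equiv hΨ (h10b_regY k H Y) (h10b_pi (Fin (Module.finrank k Y)) (h47g_reg k H))
      (h10b_regYEquiv Y) (fun g f => by
        funext i c
        rfl), h10b_pi_fin hΨ, hreg, mul_zero]
  -- the summation map
  let s : (H → Y) →ₗ[k] Y :=
    { toFun := fun f => ∑ c : H, τ c (f c)
      map_add' := fun f f' => by simp [Finset.sum_add_distrib]
      map_smul' := fun a f => by simp [Finset.smul_sum] }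
  have hs : ∀ g f, s (h10b_regY k H Y g f) = τ g (s f) := by
    intro g f
    change ∑ c : H, τ c (f (g⁻¹ * c)) = τ g (∑ c : H, τ c (f c))
    rw [map_sum]
    refine Fintype.sum_equiv (Equiv.mulLeft g⁻¹) _ _ (fun c => ?_)
    simp only [Equiv.coe_mulLeft]
    rw [← Module.End.mul_apply, ← map_mul, mul_inv_cancel_left]
  have hsurj : Function.Surjective s := by
    intro y
    classical
    refine ⟨Pi.single 1 y, ?_⟩
    change ∑ c : H, τ c ((Pi.single 1 y : H → Y) c) = y
    rw [Finset.sum_eq_single 1]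
    · simp
    · intro c _ hc
      simp [Pi.single_eq_of_ne hc]
    · intro h
      exact absurd (Finset.mem_univ _) h
  have h1 := hΨ _ (H → Y) Y (h10b_res (h10b_regY k H Y) (LinearMap.ker s)
      (h10b_ker_inv (h10b_regY k H Y) τ s hs)) (h10b_regY k H Y) τ
    (LinearMap.ker s).subtype s (fun g v => rfl) hs (Submodule.subtype_injective _) hsurj
    (by rw [Submodule.range_subtype])
  have h2 := hpos _ (h10b_res (h10b_regY k H Y) (LinearMap.ker s)
      (h10b_ker_inv (h10b_regY k H Y) τ s hs))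
  have h3 := hpos Y τ
  linarith

end Squeeze

section Cor

variable {k : Type} [Field k] {G : Type} [Group G] [Finite G]

/-- **Step (1).**  `Φ(Ind_C^G τ) = 0` whenever `Φ(reg) = 0` and `Φ ∘ Ind_C ≥ 0`. -/
theorem h10b_ind_zero
    {Φ : ∀ (V : Type) [AddCommGroup V] [Module k V], Representation k G V → ℤ}
    (hΦ : h47g_IsAdditive k G Φ) (hreg : Φ (G → k) (h47g_reg k G) = 0)
    (C : Subgroup G)
    (hpos : ∀ (Y : Type) [AddCommGroup Y] [Module k Y] [FiniteDimensional k Y]
      (τ : Representation k ↥C Y), 0 ≤ Φ ↥(h47g_indSpace C τ) (h47g_ind C τ))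
    (Y : Type) [AddCommGroup Y] [Module k Y] [FiniteDimensional k Y]
    (τ : Representation k ↥C Y) : Φ ↥(h47g_indSpace C τ) (h47g_ind C τ) = 0 := by
  refine h10b_squeeze (H := ↥C)
    (Ψ := fun Y _ _ τ => Φ ↥(h47g_indSpace C τ) (h47g_ind C τ))
    (h10b_ind_additive hΦ) ?_ hpos Y τ
  rw [← hreg]
  exact h10b_equiv hΦ _ _ h10b_indReg h10b_indReg_equivariant

end Cor

end Fermat.Agent.S56G
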