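import Mathlib
import Fermat.Agent.S56G.BA.H10Tool

/-!
# S56, block BA: the nilpotent operator lemma (helper10)

If `T` is an equivariant endomorphism of a finite dimensional representation `V` with `T ^ n = 0`
and `dim V = n * dim ker T`, then `Φ(V) = n Φ(ker T)` for every additive `Φ`.
-/

set_option autoImplicit false
set_option linter.unusedSectionVars false
set_option linter.style.haveILetI false

noncomputable section

namespace Fermat.Agent.S56G

section Nilp

variable {k : Type} [Field k] {G : Type} [Group G]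
variable {Φ : ∀ (V : Type) [AddCommGroup V] [Module k V], Representation k G V → ℤ}
variable {V : Type} [AddCommGroup V] [Module k V]

omit [Group G] in
lemma h10b_pow_equivariant [Monoid G] (ρ : Representation k G V) (T : V →ₗ[k] V)
    (hT : ∀ g v, T (ρ g v) = ρ g (T v)) (j : ℕ) :
    ∀ g v, (T ^ j) (ρ g v) = ρ g ((T ^ j) v) := by
  induction j with
  | zero => intro g v; simp
  | succ j ih =>
    intro g v
    rw [pow_succ, Module.End.mul_apply, hT, ih, Module.End.mul_apply]

lemma h10b_K_le (T : V →ₗ[k] V) (j : ℕ) :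
    LinearMap.ker (T ^ j) ≤ LinearMap.ker (T ^ (j + 1)) := by
  intro v hv
  rw [LinearMap.mem_ker] at hv ⊢
  rw [pow_succ', Module.End.mul_apply, hv, map_zero]

/-- `T ^ j : ker T^(j+1) → ker T`. -/
def h10b_psi (T : V →ₗ[k] V) (j : ℕ) :
    ↥(LinearMap.ker (T ^ (j + 1))) →ₗ[k] ↥(LinearMap.ker T) :=
  LinearMap.codRestrict (LinearMap.ker T) ((T ^ j).comp (LinearMap.ker (T ^ (j + 1))).subtype)
    (fun v => by
      have hv : (T ^ (j + 1)) (v : V) = 0 := v.2
      have h2 : T ((T ^ j) (v : V)) = 0 := by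
        rw [← Module.End.mul_apply, ← pow_succ']
        exact hv
      exact h2)

@[simp] lemma h10b_psi_apply (T : V →ₗ[k] V) (j : ℕ) (v : ↥(LinearMap.ker (T ^ (j + 1)))) :
    ((h10b_psi T j v : ↥(LinearMap.ker T)) : V) = (T ^ j) (v : V) := rfl

lemma h10b_psi_exact (T : V →ₗ[k] V) (j : ℕ) :
    LinearMap.range (Submodule.inclusion (h10b_K_le T j)) = LinearMap.ker (h10b_psi T j) := by
  ext v
  simp only [LinearMap.mem_range, LinearMap.mem_ker]
  constructor
  · rintro ⟨w, rfl⟩
    apply Subtype.ext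
    have hw : (T ^ j) (w : V) = 0 := w.2
    exact hw
  · intro hv
    have h1 : (T ^ j) (v : V) = 0 := congrArg Subtype.val hv
    exact ⟨⟨(v : V), h1⟩, Subtype.ext rfl⟩

variable [FiniteDimensional k V]

lemma h10b_rank_step (T : V →ₗ[k] V) (j : ℕ) :
    Module.finrank k ↥(LinearMap.ker (T ^ (j + 1))) =
      Module.finrank k ↥(LinearMap.range (h10b_psi T j)) +
        Module.finrank k ↥(LinearMap.ker (T ^ j)) := by
  rw [← LinearMap.finrank_range_add_finrank_ker (h10b_psi T j), ← h10b_psi_exact T j,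
    LinearMap.finrank_range_of_inj (Submodule.inclusion_injective _)]

lemma h10b_rank_le (T : V →ₗ[k] V) (j : ℕ) :
    Module.finrank k ↥(LinearMap.ker (T ^ (j + 1))) ≤
      Module.finrank k ↥(LinearMap.ker (T ^ j)) + Module.finrank k ↥(LinearMap.ker T) := by
  rw [h10b_rank_step T j, add_comm]
  exact Nat.add_le_add_left (Submodule.finrank_le _) _

lemma h10b_rank_le_mul (T : V →ₗ[k] V) (j i : ℕ) :
    Module.finrank k ↥(LinearMap.ker (T ^ (j + i))) ≤
      Module.finrank k ↥(LinearMap.ker (T ^ j)) + i * Module.finrank k ↥(LinearMap.ker T) := by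
  induction i with
  | zero => simp
  | succ i ih =>
    have h := h10b_rank_le T (j + i)
    rw [← add_assoc]
    calc Module.finrank k ↥(LinearMap.ker (T ^ (j + i + 1)))
        ≤ Module.finrank k ↥(LinearMap.ker (T ^ (j + i)))
            + Module.finrank k ↥(LinearMap.ker T) := h
      _ ≤ Module.finrank k ↥(LinearMap.ker (T ^ j)) + i * Module.finrank k ↥(LinearMap.ker T)
            + Module.finrank k ↥(LinearMap.ker T) := Nat.add_le_add_right ih _
      _ = Module.finrank k ↥(LinearMap.ker (T ^ j))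
            + (i + 1) * Module.finrank k ↥(LinearMap.ker T) := by ring

lemma h10b_rank_eq (T : V →ₗ[k] V) (n : ℕ) (hn : T ^ n = 0)
    (hdim : Module.finrank k V = n * Module.finrank k ↥(LinearMap.ker T)) (j : ℕ) (hj : j ≤ n) :
    Module.finrank k ↥(LinearMap.ker (T ^ j)) = j * Module.finrank k ↥(LinearMap.ker T) := by
  have hup : Module.finrank k ↥(LinearMap.ker (T ^ j)) ≤
      j * Module.finrank k ↥(LinearMap.ker T) := by
    have h := h10b_rank_le_mul T 0 j
    rw [zero_add, pow_zero] at h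
    have h0 : Module.finrank k ↥(LinearMap.ker (1 : V →ₗ[k] V)) = 0 := by
      have : LinearMap.ker (1 : V →ₗ[k] V) = ⊥ := LinearMap.ker_id
      rw [this, finrank_bot]
    rw [h0, zero_add] at h
    exact h
  have hlow := h10b_rank_le_mul T j (n - j)
  rw [Nat.add_sub_cancel' hj, hn] at hlow
  have htop : Module.finrank k ↥(LinearMap.ker (0 : V →ₗ[k] V)) = Module.finrank k V := by
    rw [LinearMap.ker_zero, finrank_top]
  rw [htop, hdim] at hlow
  have hsplit : n * Module.finrank k ↥(LinearMap.ker T)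
      = j * Module.finrank k ↥(LinearMap.ker T)
        + (n - j) * Module.finrank k ↥(LinearMap.ker T) := by
    rw [← add_mul, Nat.add_sub_cancel' hj]
  rw [hsplit] at hlow
  omega

lemma h10b_psi_surjective (T : V →ₗ[k] V) (n : ℕ) (hn : T ^ n = 0)
    (hdim : Module.finrank k V = n * Module.finrank k ↥(LinearMap.ker T)) (j : ℕ) (hj : j < n) :
    Function.Surjective (h10b_psi T j) := by
  rw [← LinearMap.range_eq_top]
  apply Submodule.eq_top_of_finrank_eq
  have h1 := h10b_rank_step T j
  rw [h10b_rank_eq T n hn hdim j hj.le, h10b_rank_eq T n hn hdim (j + 1) hj] at h1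
  have : (j + 1) * Module.finrank k ↥(LinearMap.ker T)
      = j * Module.finrank k ↥(LinearMap.ker T) + Module.finrank k ↥(LinearMap.ker T) := by
    ring
  omega

/-- **Nilpotent operator lemma.** -/
theorem h10b_nilp (hΦ : h47g_IsAdditive k G Φ) (ρ : Representation k G V) (T : V →ₗ[k] V)
    (hT : ∀ g v, T (ρ g v) = ρ g (T v)) (n : ℕ) (hn : T ^ n = 0)
    (hdim : Module.finrank k V = n * Module.finrank k ↥(LinearMap.ker T)) :
    Φ V ρ = n * Φ ↥(LinearMap.ker T) (h10b_res ρ (LinearMap.ker T) (h10b_ker_inv ρ ρ T hT)) := by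
  have hinv : ∀ j, ∀ g : G, ∀ v ∈ LinearMap.ker (T ^ j), ρ g v ∈ LinearMap.ker (T ^ j) :=
    fun j => h10b_ker_inv ρ ρ (T ^ j) (h10b_pow_equivariant ρ T hT j)
  have hstep : ∀ j, j < n →
      Φ ↥(LinearMap.ker (T ^ (j + 1))) (h10b_res ρ _ (hinv (j + 1))) =
        Φ ↥(LinearMap.ker (T ^ j)) (h10b_res ρ _ (hinv j)) +
          Φ ↥(LinearMap.ker T) (h10b_res ρ (LinearMap.ker T) (h10b_ker_inv ρ ρ T hT)) := by
    intro j hj
    refine hΦ _ _ _ (h10b_res ρ _ (hinv j)) (h10b_res ρ _ (hinv (j + 1)))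
      (h10b_res ρ (LinearMap.ker T) (h10b_ker_inv ρ ρ T hT))
      (Submodule.inclusion (h10b_K_le T j)) (h10b_psi T j) (fun g v => rfl)
      (fun g v => ?_) (Submodule.inclusion_injective _)
      (h10b_psi_surjective T n hn hdim j hj) (h10b_psi_exact T j)
    apply Subtype.ext
    exact h10b_pow_equivariant ρ T hT j g (v : V)
  have hall : ∀ j, j ≤ n →
      Φ ↥(LinearMap.ker (T ^ j)) (h10b_res ρ _ (hinv j)) =
        j * Φ ↥(LinearMap.ker T) (h10b_res ρ (LinearMap.ker T) (h10b_ker_inv ρ ρ T hT)) := by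
    intro j
    induction j with
    | zero =>
      intro _
      haveI : Subsingleton ↥(LinearMap.ker (T ^ 0)) := by
        have : LinearMap.ker (T ^ 0) = ⊥ := by
          rw [pow_zero]
          exact LinearMap.ker_id
        rw [this]
        infer_instance
      rw [h10b_zero hΦ]
      simp
    | succ j ih =>
      intro hj
      rw [hstep j hj, ih (Nat.le_of_succ_le hj)]
      push_cast
      ring
  rw [← hall n le_rfl]
  symm
  refine h10b_iso hΦ _ ρ (LinearMap.ker (T ^ n)).subtype (fun g v => rfl)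
    (Submodule.subtype_injective _) ?_
  intro v
  refine ⟨⟨v, ?_⟩, rfl⟩
  rw [hn]
  simp

end Nilp

end Fermat.Agent.S56G
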