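import Mathlib
import Fermat.Agent.S56G.BA.H10Ind
import Fermat.Agent.S56G.BA.H10Nilp

/-!
# S56, block BA: the step `Φ(Ind_Q Res τ) = p^a Φ(Ind_B τ)` (helper10)

`Q ≤ B`, `π ∈ B` commuting with `Q`, `π ^ (p ^ a) = 1`, `B = ⟨π⟩ Q`, `[G : Q] = p ^ a [G : B]`.
The operator `(R f)(g) = τ(π) f(g π)` on `Ind_Q^G Res_Q τ` is equivariant, `(R - 1)^(p^a) = 0`
and `ker (R - 1) = Ind_B^G τ`.
-/

set_option autoImplicit false
set_option linter.unusedSectionVars false
set_option linter.style.haveILetI false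

noncomputable section

namespace Fermat.Agent.S56G

section Step

variable {k : Type} [Field k] {G : Type} [Group G]
variable {W : Type} [AddCommGroup W] [Module k W]
variable {Q B : Subgroup G} (hle : Q ≤ B) (τ : Representation k ↥B W) (π : ↥B)

lemma h10b_tau_comm (hcomm : ∀ c ∈ Q, (π : G) * c = c * (π : G)) (c : ↥Q) (w : W) :
    τ π (τ (Subgroup.inclusion hle c⁻¹) w) = τ (Subgroup.inclusion hle c⁻¹) (τ π w) := by
  rw [← Module.End.mul_apply, ← map_mul, ← Module.End.mul_apply, ← map_mul]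
  congr 2
  apply Subtype.ext
  exact hcomm _ (c⁻¹).2

/-- The operator `(R f)(g) = τ(π) f(g π)` on `Ind_Q^G Res_Q τ`. -/
def h10b_R (hcomm : ∀ c ∈ Q, (π : G) * c = c * (π : G)) :
    ↥(h47g_indSpace Q (τ.comp (Subgroup.inclusion hle))) →ₗ[k]
      ↥(h47g_indSpace Q (τ.comp (Subgroup.inclusion hle))) where
  toFun f := ⟨fun g => τ π ((f : G → W) (g * (π : G))), by
    intro g c
    have h1 : g * (c : G) * (π : G) = g * (π : G) * (c : G) := by
      rw [mul_assoc, ← hcomm c c.2, ← mul_assoc]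
    simp only
    rw [h1, f.2 (g * (π : G)) c]
    exact h10b_tau_comm hle τ π hcomm c _⟩
  map_add' f f' := by
    apply Subtype.ext
    funext g
    simp
  map_smul' a f := by
    apply Subtype.ext
    funext g
    simp

@[simp] lemma h10b_R_apply (hcomm : ∀ c ∈ Q, (π : G) * c = c * (π : G))
    (f : ↥(h47g_indSpace Q (τ.comp (Subgroup.inclusion hle)))) (g : G) :
    ((h10b_R hle τ π hcomm f : ↥(h47g_indSpace Q (τ.comp (Subgroup.inclusion hle)))) : G → W) g
      = τ π ((f : G → W) (g * (π : G))) := rfl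

lemma h10b_R_equivariant (hcomm : ∀ c ∈ Q, (π : G) * c = c * (π : G)) (x : G)
    (f : ↥(h47g_indSpace Q (τ.comp (Subgroup.inclusion hle)))) :
    h10b_R hle τ π hcomm (h47g_ind Q _ x f) = h47g_ind Q _ x (h10b_R hle τ π hcomm f) := by
  apply Subtype.ext
  funext g
  simp only [h10b_R_apply, h47g_ind_apply, mul_assoc]

lemma h10b_R_pow (hcomm : ∀ c ∈ Q, (π : G) * c = c * (π : G)) (i : ℕ)
    (f : ↥(h47g_indSpace Q (τ.comp (Subgroup.inclusion hle)))) (g : G) :
    (((h10b_R hle τ π hcomm ^ i) f : ↥(h47g_indSpace Q (τ.comp (Subgroup.inclusion hle)))) :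
        G → W) g = τ (π ^ i) ((f : G → W) (g * (π : G) ^ i)) := by
  induction i generalizing f g with
  | zero => simp
  | succ i ih =>
    rw [pow_succ, Module.End.mul_apply, ih, h10b_R_apply, ← Module.End.mul_apply, ← map_mul,
      ← pow_succ, mul_assoc, ← pow_succ]

lemma h10b_R_pow_eq_one (hcomm : ∀ c ∈ Q, (π : G) * c = c * (π : G)) (n : ℕ)
    (hπ : π ^ n = 1) : h10b_R hle τ π hcomm ^ n = 1 := by
  refine LinearMap.ext (fun f => Subtype.ext (funext fun g => ?_))
  rw [h10b_R_pow, hπ]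
  have : (π : G) ^ n = 1 := by
    have := congrArg Subtype.val hπ
    simpa using this
  rw [this, Module.End.one_apply, mul_one, map_one, Module.End.one_apply]

lemma h10b_T_pow (p : ℕ) [Fact p.Prime] [CharP k p]
    (hcomm : ∀ c ∈ Q, (π : G) * c = c * (π : G)) (a : ℕ) (hπ : π ^ (p ^ a) = 1) :
    (h10b_R hle τ π hcomm - 1) ^ (p ^ a) = 0 := by
  have hpoly : ((Polynomial.X : Polynomial k) - 1) ^ (p ^ a) = Polynomial.X ^ (p ^ a) - 1 := by
    rw [sub_pow_char_pow, one_pow]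
  have h := congrArg (Polynomial.aeval (h10b_R hle τ π hcomm)) hpoly
  simp only [map_pow, map_sub, Polynomial.aeval_X, map_one] at h
  rw [h, h10b_R_pow_eq_one hle τ π hcomm _ hπ, sub_self]

/-- The inclusion `Ind_B τ → Ind_Q Res τ`. -/
def h10b_incl : ↥(h47g_indSpace B τ) →ₗ[k]
    ↥(h47g_indSpace Q (τ.comp (Subgroup.inclusion hle))) where
  toFun f := ⟨(f : G → W), fun g c => f.2 g (Subgroup.inclusion hle c)⟩
  map_add' f f' := rfl
  map_smul' a f := rfl

lemma h10b_incl_mem_ker (hcomm : ∀ c ∈ Q, (π : G) * c = c * (π : G))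
    (f : ↥(h47g_indSpace B τ)) :
    h10b_incl hle τ f ∈ LinearMap.ker (h10b_R hle τ π hcomm - 1) := by
  rw [LinearMap.mem_ker, LinearMap.sub_apply, sub_eq_zero, Module.End.one_apply]
  apply Subtype.ext
  funext g
  change τ π ((f : G → W) (g * (π : G))) = (f : G → W) g
  rw [f.2 g π, ← Module.End.mul_apply, ← map_mul, mul_inv_cancel, map_one]
  rfl

lemma h10b_ker_mem_ind (hcomm : ∀ c ∈ Q, (π : G) * c = c * (π : G))
    (hgen : ∀ c ∈ B, ∃ i : ℕ, ∃ q ∈ Q, c = (π : G) ^ i * q)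
    (f : ↥(h47g_indSpace Q (τ.comp (Subgroup.inclusion hle))))
    (hf : f ∈ LinearMap.ker (h10b_R hle τ π hcomm - 1)) :
    (f : G → W) ∈ h47g_indSpace B τ := by
  rw [LinearMap.mem_ker, LinearMap.sub_apply, sub_eq_zero, Module.End.one_apply] at hf
  have hpow : ∀ i : ℕ, (h10b_R hle τ π hcomm ^ i) f = f := by
    intro i
    induction i with
    | zero => simp
    | succ i ih => rw [pow_succ, Module.End.mul_apply, hf, ih]
  intro g c
  obtain ⟨i, q, hq, hc⟩ := hgen c c.2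
  have h1 : (f : G → W) (g * (π : G) ^ i) = τ (π ^ i)⁻¹ ((f : G → W) g) := by
    have h2 := congrFun (congrArg Subtype.val (hpow i)) g
    rw [h10b_R_pow] at h2
    rw [← h2, ← Module.End.mul_apply, ← map_mul, inv_mul_cancel, map_one]
    rfl
  have h3 := f.2 (g * (π : G) ^ i) ⟨q, hq⟩
  have h4 : g * (c : G) = g * (π : G) ^ i * ((⟨q, hq⟩ : ↥Q) : G) := by
    rw [hc, mul_assoc]
  rw [h4, h3, h1]
  change τ (Subgroup.inclusion hle (⟨q, hq⟩ : ↥Q)⁻¹) (τ (π ^ i)⁻¹ ((f : G → W) g)) = _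
  rw [← Module.End.mul_apply, ← map_mul]
  congr 2
  apply Subtype.ext
  simp only [Subgroup.coe_mul, Subgroup.coe_inv, Subgroup.coe_pow, Subgroup.coe_inclusion, hc,
    mul_inv_rev]

variable [Finite G] [FiniteDimensional k W]

/-- **The step.** -/
theorem h10b_step (p : ℕ) [Fact p.Prime] [CharP k p]
    {Φ : ∀ (V : Type) [AddCommGroup V] [Module k V], Representation k G V → ℤ}
    (hΦ : h47g_IsAdditive k G Φ)
    (hcomm : ∀ c ∈ Q, (π : G) * c = c * (π : G)) (a : ℕ) (hπ : π ^ (p ^ a) = 1)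
    (hgen : ∀ c ∈ B, ∃ i : ℕ, ∃ q ∈ Q, c = (π : G) ^ i * q)
    (hidx : Q.index = p ^ a * B.index) :
    Φ ↥(h47g_indSpace Q (τ.comp (Subgroup.inclusion hle)))
        (h47g_ind Q (τ.comp (Subgroup.inclusion hle))) =
      (p : ℤ) ^ a * Φ ↥(h47g_indSpace B τ) (h47g_ind B τ) := by
  set T := h10b_R hle τ π hcomm - 1 with hTdef
  have hT : ∀ g v, T (h47g_ind Q (τ.comp (Subgroup.inclusion hle)) g v)
      = h47g_ind Q (τ.comp (Subgroup.inclusion hle)) g (T v) := by
    intro g v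
    rw [hTdef, LinearMap.sub_apply, LinearMap.sub_apply, h10b_R_equivariant, map_sub]
    rfl
  -- the isomorphism `Ind_B τ ≃ ker T`
  let e : ↥(h47g_indSpace B τ) →ₗ[k] ↥(LinearMap.ker T) :=
    LinearMap.codRestrict (LinearMap.ker T) (h10b_incl hle τ)
      (fun f => h10b_incl_mem_ker hle τ π hcomm f)
  have hinj : Function.Injective e := by
    intro f f' hff
    apply Subtype.ext
    have := congrArg (fun z : ↥(LinearMap.ker T) =>
      ((z : ↥(h47g_indSpace Q (τ.comp (Subgroup.inclusion hle)))) : G → W)) hff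
    exact this
  have hsurj : Function.Surjective e := by
    intro f
    refine ⟨⟨((f : ↥(h47g_indSpace Q (τ.comp (Subgroup.inclusion hle)))) : G → W),
      h10b_ker_mem_ind hle τ π hcomm hgen f.1 f.2⟩, ?_⟩
    apply Subtype.ext
    apply Subtype.ext
    rfl
  have hiso : Φ ↥(h47g_indSpace B τ) (h47g_ind B τ) =
      Φ ↥(LinearMap.ker T) (h10b_res (h47g_ind Q (τ.comp (Subgroup.inclusion hle)))
        (LinearMap.ker T) (h10b_ker_inv _ _ T hT)) :=
    h10b_iso hΦ _ _ e (fun g v => by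
      apply Subtype.ext
      apply Subtype.ext
      rfl) hinj hsurj
  have hdim : Module.finrank k ↥(h47g_indSpace Q (τ.comp (Subgroup.inclusion hle)))
      = p ^ a * Module.finrank k ↥(LinearMap.ker T) := by
    rw [← (LinearEquiv.ofBijective e ⟨hinj, hsurj⟩).finrank_eq, h10b_finrank_ind,
      h10b_finrank_ind, hidx, mul_assoc]
  have hnil := h10b_nilp hΦ (h47g_ind Q (τ.comp (Subgroup.inclusion hle))) T hT (p ^ a)
    (h10b_T_pow hle τ π p hcomm a hπ) hdim
  rw [hnil, hiso]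
  push_cast
  rfl

end Step

end Fermat.Agent.S56G
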