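import Mathlib
import Fermat.Agent.S56G.TateIface

/-!
# S56, block BA (Brauer–Artin squeeze; sub-architect helper82): frozen interfaces

Target: `H47BrauerArtin` (`S56G/TateIface.lean`).  Pure algebra, Mathlib only.
Every `def … : Prop` in this file is a frozen interface, to be PROVED as a theorem of exactly
that type in its own file `S56G/BA/H<seat>*.lean`; nothing is assumed.  Board: `s56_tasks`,
rows `BA-*`.

## The proof (`k = 𝔽_p`, `G` finite, `Φ` additive)

For a `G`-set `X` and a representation `(N, ν)` let `F(X, N)` (`h82b_F ν X`) be the functions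
`X → N` with `(g f)(x) = ν g (f (g⁻¹ x))`; `P(X) = F(X, k)` (`h82b_P`) the permutation
representation.

* BA-SQ  (`H82bSqueeze`): `Φ(Ind_C^G Y) = 0` for `C` cyclic of order prime to `p`
  (`Y ⊕ Y' ≅ F(C, Y) ≅ (C → Y₀)`, `Ind_C^G (C → Y₀) ≅ (G → Y₀) ≅ reg^d`, both `Φ ≥ 0`, sum `0`).
* BA-STEP (`H82bStep`): `B' ⊴ B` of index `p`, `B = ⟨b₀⟩ B'`:
  `Φ(Ind_{B'}^G Res W) = p Φ(Ind_B^G W)` (the operator `(R f)(x) = w(b₀) f(x b₀)` on
  `Ind_{B'}^G Res W` satisfies `(R - 1)^p = 0`, `ker (R - 1) = Ind_B^G W`, dimension count).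
* BA-CYC (`H82bCyc`): `Φ(Ind_B^G W) = 0` for every cyclic `B` (chain from the `p'`-part).
* BA-ARTIN (`H82bArtin`): Artin's relation between fixed point counts on the `G / C`, `C` cyclic.
* BA-PERM (`H82bPerm`): finite `G`-sets with the same fixed point counts have permutation
  representations mod `p` with the same `Ψ`, for every additive `Ψ`
  (`BA-QISO`: `ℚ[X₁] ≅ ℚ[X₂]`; `BA-ZMAP`: injective equivariant `ℤ^{X₁} → ℤ^{X₂}`;
  `BA-LATT`: lattice lemma).
* BA-HOM (`H82bHom`): `V ↦ Φ(Hom_k(V, N))` is additive and `Hom_k(P(X), N) ≅ F(X, N)`.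
* BA-INDRES (`H82bIndRes`): `Ind_C^G Res_C N ≅ F(G / C, N)`;  BA-SUM (`H82bSum`):
  `Φ(F(Σ i, G / D i, N)) = ∑ i, Φ(F(G / D i, N))`;  BA-PT (`H82bPt`): `Φ(F(G / ⊤, N)) = Φ(N)`.
* BA-ASM: `n Φ(N) + ∑_{i} Φ(Ind_{C₁ i} Res N) = ∑_{i} Φ(Ind_{C₂ i} Res N)`, all `Ind` terms vanish.
-/

set_option autoImplicit false

noncomputable section

namespace Fermat.Agent.S56G

/-! ## Definitions -/

section Defs

variable {k : Type} [CommRing k] {G : Type} [Group G] {N : Type} [AddCommGroup N] [Module k N]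

/-- `F(X, N)`: the functions `X → N` with `(g f)(x) = ν g (f (g⁻¹ • x))`. -/
def h82b_F (ν : Representation k G N) (X : Type) [MulAction G X] :
    Representation k G (X → N) where
  toFun g :=
    { toFun := fun f x => ν g (f (g⁻¹ • x))
      map_add' := fun f f' => by
        funext x
        simp
      map_smul' := fun a f => by
        funext x
        simp }
  map_one' := by
    ext f x
    simp
  map_mul' g h := by
    ext f x
    simp [mul_smul]

@[simp] lemma h82b_F_apply (ν : Representation k G N) (X : Type) [MulAction G X] (g : G)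
    (f : X → N) (x : X) : h82b_F ν X g f x = ν g (f (g⁻¹ • x)) := rfl

variable (k G)

/-- `P(X) = F(X, k)`: the permutation representation on the functions `X → k`,
`(g f)(x) = f (g⁻¹ • x)`. -/
def h82b_P (X : Type) [MulAction G X] : Representation k G (X → k) :=
  h82b_F (Representation.trivial k G k) X

@[simp] lemma h82b_P_apply (X : Type) [MulAction G X] (g : G) (f : X → k) (x : X) :
    h82b_P k G X g f x = f (g⁻¹ • x) := rfl

variable {k G}

/-- The number of fixed points of `g` on `X`. -/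
def h82b_fix (X : Type) [MulAction G X] (g : G) : ℕ := Nat.card {x : X // g • x = x}

/-- The restriction of a representation to a subgroup. -/
def h82b_res (ν : Representation k G N) (C : Subgroup G) : Representation k ↥C N :=
  ν.comp C.subtype

@[simp] lemma h82b_res_apply (ν : Representation k G N) (C : Subgroup G) (c : ↥C) :
    h82b_res ν C c = ν (c : G) := rfl

end Defs

/-! ## Frozen interfaces -/

/-- **BA-ISO.**  An additive function is invariant under equivariant isomorphisms and vanishes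
on the zero representations. -/
def H82bIso : Prop :=
  ∀ (k : Type) [Field k] (G : Type) [Group G]
    (Φ : ∀ (V : Type) [AddCommGroup V] [Module k V], Representation k G V → ℤ),
    h47g_IsAdditive k G Φ →
    (∀ (V W : Type) [AddCommGroup V] [Module k V] [AddCommGroup W] [Module k W]
      [FiniteDimensional k W] (ρ : Representation k G V) (σ : Representation k G W)
      (e : V ≃ₗ[k] W), (∀ g v, e (ρ g v) = σ g (e v)) → Φ V ρ = Φ W σ) ∧
    (∀ (V : Type) [AddCommGroup V] [Module k V] [Subsingleton V] (ρ : Representation k G V),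
      Φ V ρ = 0)

/-- **BA-HOM.**  For a finite dimensional `(N, ν)` the function `V ↦ Φ(Hom_k(V, N))` is additive,
and `Φ(Hom_k(P(X), N)) = Φ(F(X, N))` for finite `X`. -/
def H82bHom : Prop :=
  ∀ (k : Type) [Field k] (G : Type) [Group G]
    (Φ : ∀ (V : Type) [AddCommGroup V] [Module k V], Representation k G V → ℤ),
    h47g_IsAdditive k G Φ →
    ∀ (N : Type) [AddCommGroup N] [Module k N] [FiniteDimensional k N]
      (ν : Representation k G N),
      h47g_IsAdditive k G (fun V _ _ ρ => Φ (V →ₗ[k] N) (ρ.linHom ν)) ∧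
      ∀ (X : Type) [Finite X] [MulAction G X],
        Φ ((X → k) →ₗ[k] N) ((h82b_P k G X).linHom ν) = Φ (X → N) (h82b_F ν X)

/-- **BA-INDRES.**  `Φ(Ind_C^G Res_C N) = Φ(F(G / C, N))`. -/
def H82bIndRes : Prop :=
  ∀ (k : Type) [Field k] (G : Type) [Group G] [Finite G]
    (Φ : ∀ (V : Type) [AddCommGroup V] [Module k V], Representation k G V → ℤ),
    h47g_IsAdditive k G Φ →
    ∀ (N : Type) [AddCommGroup N] [Module k N] [FiniteDimensional k N]
      (ν : Representation k G N) (C : Subgroup G),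
      Φ ↥(h47g_indSpace C (h82b_res ν C)) (h47g_ind C (h82b_res ν C)) =
        Φ ((G ⧸ C) → N) (h82b_F ν (G ⧸ C))

/-- **BA-SUM.**  `Φ(F(Σ i, G / D i, N)) = ∑ i, Φ(F(G / D i, N))`. -/
def H82bSum : Prop :=
  ∀ (k : Type) [Field k] (G : Type) [Group G] [Finite G]
    (Φ : ∀ (V : Type) [AddCommGroup V] [Module k V], Representation k G V → ℤ),
    h47g_IsAdditive k G Φ →
    ∀ (N : Type) [AddCommGroup N] [Module k N] [FiniteDimensional k N]
      (ν : Representation k G N) (ι : Type) [Fintype ι] (D : ι → Subgroup G),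
      Φ ((Σ i, G ⧸ D i) → N) (h82b_F ν (Σ i, G ⧸ D i)) =
        ∑ i, Φ ((G ⧸ D i) → N) (h82b_F ν (G ⧸ D i))

/-- **BA-PT.**  `Φ(F(G / ⊤, N)) = Φ(N)`. -/
def H82bPt : Prop :=
  ∀ (k : Type) [Field k] (G : Type) [Group G]
    (Φ : ∀ (V : Type) [AddCommGroup V] [Module k V], Representation k G V → ℤ),
    h47g_IsAdditive k G Φ →
    ∀ (N : Type) [AddCommGroup N] [Module k N] [FiniteDimensional k N]
      (ν : Representation k G N),
      Φ ((G ⧸ (⊤ : Subgroup G)) → N) (h82b_F ν (G ⧸ (⊤ : Subgroup G))) = Φ N ν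

/-- **BA-ARTIN.**  Artin's relation: there are `n > 0` and two finite families of cyclic
subgroups with `n + ∑ i, #Fix(g, G / C₁ i) = ∑ j, #Fix(g, G / C₂ j)` for all `g`
(repetitions allowed). -/
def H82bArtin : Prop :=
  ∀ (G : Type) [Group G] [Finite G],
    ∃ (n : ℕ) (ι₁ ι₂ : Type) (_ : Fintype ι₁) (_ : Fintype ι₂)
      (C₁ : ι₁ → Subgroup G) (C₂ : ι₂ → Subgroup G),
      0 < n ∧ (∀ i, IsCyclic ↥(C₁ i)) ∧ (∀ j, IsCyclic ↥(C₂ j)) ∧
      ∀ g : G, n + ∑ i, h82b_fix (G ⧸ C₁ i) g = ∑ j, h82b_fix (G ⧸ C₂ j) g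

/-- **BA-QISO.**  Finite `G`-sets with the same fixed point counts have isomorphic rational
permutation representations. -/
def H82bQIso : Prop :=
  ∀ (G : Type) [Group G] [Finite G] (X Y : Type) [Finite X] [Finite Y] [MulAction G X]
    [MulAction G Y], (∀ g : G, h82b_fix X g = h82b_fix Y g) →
    ∃ e : (X → ℚ) ≃ₗ[ℚ] (Y → ℚ), ∀ g v, e (h82b_P ℚ G X g v) = h82b_P ℚ G Y g (e v)

/-- **BA-ZMAP.**  … hence an injective equivariant map of the integral permutation lattices. -/
def H82bZMap : Prop :=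
  ∀ (G : Type) [Group G] [Finite G] (X Y : Type) [Finite X] [Finite Y] [MulAction G X]
    [MulAction G Y], (∀ g : G, h82b_fix X g = h82b_fix Y g) →
    ∃ f : (X → ℤ) →ₗ[ℤ] (Y → ℤ), Function.Injective f ∧
      ∀ g v, f (h82b_P ℤ G X g v) = h82b_P ℤ G Y g (f v)

/-- **BA-LATT (lattice lemma).**  An injective equivariant map `ℤ^X → ℤ^Y` between permutation
lattices of the same rank gives `Ψ(𝔽_p^X) = Ψ(𝔽_p^Y)` for every additive `Ψ`. -/
def H82bLatt : Prop :=
  ∀ (p : ℕ) [Fact p.Prime] (G : Type) [Group G] [Finite G]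
    (Ψ : ∀ (V : Type) [AddCommGroup V] [Module (ZMod p) V], Representation (ZMod p) G V → ℤ),
    h47g_IsAdditive (ZMod p) G Ψ →
    ∀ (X Y : Type) [Finite X] [Finite Y] [MulAction G X] [MulAction G Y],
      Nat.card X = Nat.card Y →
      ∀ f : (X → ℤ) →ₗ[ℤ] (Y → ℤ), Function.Injective f →
        (∀ g v, f (h82b_P ℤ G X g v) = h82b_P ℤ G Y g (f v)) →
        Ψ (X → ZMod p) (h82b_P (ZMod p) G X) = Ψ (Y → ZMod p) (h82b_P (ZMod p) G Y)

/-- **BA-PERM.**  Finite `G`-sets with the same fixed point counts have the same `Ψ(𝔽_p^X)`. -/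
def H82bPerm : Prop :=
  ∀ (p : ℕ) [Fact p.Prime] (G : Type) [Group G] [Finite G]
    (Ψ : ∀ (V : Type) [AddCommGroup V] [Module (ZMod p) V], Representation (ZMod p) G V → ℤ),
    h47g_IsAdditive (ZMod p) G Ψ →
    ∀ (X Y : Type) [Finite X] [Finite Y] [MulAction G X] [MulAction G Y],
      (∀ g : G, h82b_fix X g = h82b_fix Y g) →
      Ψ (X → ZMod p) (h82b_P (ZMod p) G X) = Ψ (Y → ZMod p) (h82b_P (ZMod p) G Y)

/-- **BA-SQ (squeeze).**  If `Φ` vanishes on the regular representation and is `≥ 0` on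
`Ind_C^G τ` for the cyclic `C` of order prime to `p`, it vanishes on them. -/
def H82bSqueeze : Prop :=
  ∀ (p : ℕ) [Fact p.Prime] (G : Type) [Group G] [Finite G]
    (Φ : ∀ (V : Type) [AddCommGroup V] [Module (ZMod p) V], Representation (ZMod p) G V → ℤ),
    h47g_IsAdditive (ZMod p) G Φ →
    Φ (G → ZMod p) (h47g_reg (ZMod p) G) = 0 →
    ∀ C : Subgroup G, ¬ p ∣ Nat.card ↥C →
      (∀ (Y : Type) [AddCommGroup Y] [Module (ZMod p) Y] [FiniteDimensional (ZMod p) Y]
        (τ : Representation (ZMod p) ↥C Y), 0 ≤ Φ ↥(h47g_indSpace C τ) (h47g_ind C τ)) →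
      ∀ (Y : Type) [AddCommGroup Y] [Module (ZMod p) Y] [FiniteDimensional (ZMod p) Y]
        (τ : Representation (ZMod p) ↥C Y), Φ ↥(h47g_indSpace C τ) (h47g_ind C τ) = 0

/-- **BA-STEP.**  `B' ≤ B`, `b₀ ∈ B \ B'` normalising `B'` with `b₀ ^ p ∈ B'` and `B = ⟨b₀⟩ B'`
(so `[B : B'] = p`): `Φ(Ind_{B'}^G Res W) = p Φ(Ind_B^G W)`. -/
def H82bStep : Prop :=
  ∀ (p : ℕ) [Fact p.Prime] (G : Type) [Group G] [Finite G]
    (Φ : ∀ (V : Type) [AddCommGroup V] [Module (ZMod p) V], Representation (ZMod p) G V → ℤ),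
    h47g_IsAdditive (ZMod p) G Φ →
    ∀ (B' B : Subgroup G) (hle : B' ≤ B) (b₀ : G), b₀ ∈ B → b₀ ∉ B' → b₀ ^ p ∈ B' →
      (∀ b' ∈ B', b₀⁻¹ * b' * b₀ ∈ B') →
      (∀ b ∈ B, ∃ j : ℕ, ∃ b' ∈ B', b = b₀ ^ j * b') →
      ∀ (W : Type) [AddCommGroup W] [Module (ZMod p) W] [FiniteDimensional (ZMod p) W]
        (τ : Representation (ZMod p) ↥B W),
        Φ ↥(h47g_indSpace B' (τ.comp (Subgroup.inclusion hle)))
            (h47g_ind B' (τ.comp (Subgroup.inclusion hle))) =
          p * Φ ↥(h47g_indSpace B τ) (h47g_ind B τ)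

/-- **BA-CYC.**  If `Φ(Ind_C^G τ) = 0` for the cyclic `C` of order prime to `p`, then
`Φ(Ind_B^G τ) = 0` for every cyclic `B`. -/
def H82bCyc : Prop :=
  ∀ (p : ℕ) [Fact p.Prime] (G : Type) [Group G] [Finite G]
    (Φ : ∀ (V : Type) [AddCommGroup V] [Module (ZMod p) V], Representation (ZMod p) G V → ℤ),
    h47g_IsAdditive (ZMod p) G Φ →
    (∀ C : Subgroup G, IsCyclic ↥C → ¬ p ∣ Nat.card ↥C →
      ∀ (Y : Type) [AddCommGroup Y] [Module (ZMod p) Y] [FiniteDimensional (ZMod p) Y]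
        (τ : Representation (ZMod p) ↥C Y), Φ ↥(h47g_indSpace C τ) (h47g_ind C τ) = 0) →
    ∀ B : Subgroup G, IsCyclic ↥B →
      ∀ (W : Type) [AddCommGroup W] [Module (ZMod p) W] [FiniteDimensional (ZMod p) W]
        (τ : Representation (ZMod p) ↥B W), Φ ↥(h47g_indSpace B τ) (h47g_ind B τ) = 0

/-- **BA-PERM from its three leaves.** -/
def H82bPermAsm : Prop := H82bZMap → H82bLatt → H82bPerm

/-- **BA-ZMAP from BA-QISO** (clearing denominators). -/
def H82bZMapOfQIso : Prop := H82bQIso → H82bZMap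

/-- **BA-CYC from BA-STEP** (chain of subgroups of a cyclic group). -/
def H82bCycOfStep : Prop := H82bStep → H82bCyc

/-- **BA-ASM (assembly).** -/
def H82bAsm : Prop :=
  H82bIso → H82bHom → H82bIndRes → H82bSum → H82bPt → H82bArtin → H82bPerm → H82bSqueeze →
    H82bCyc → H47BrauerArtin

end Fermat.Agent.S56G
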