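import Mathlib
import Fermat.Agent.S56G.BA.H10Step
import Fermat.Agent.S56G.BA.Skel

/-!
# S56, block BA: `H10Cyclic`, `H82bCyc`, `H82bSqueeze` (helper10)

`Φ(Ind_B^G τ) = 0` for every cyclic subgroup `B` and every finite dimensional `τ`.
-/

set_option autoImplicit false
set_option linter.unusedSectionVars false
set_option linter.style.haveILetI false

noncomputable section

namespace Fermat.Agent.S56G

section Cyc

variable {G : Type} [Group G] [Finite G]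

/-- The group theory of a finite cyclic subgroup `B = ⟨β⟩`, `|B| = p^a m`:
`π = β^m`, `Q = ⟨β^(p^a)⟩`. -/
lemma h10b_cyc_data (p : ℕ) [Fact p.Prime] (B : Subgroup G) (hB : IsCyclic ↥B) :
    ∃ (Q : Subgroup G) (_ : Q ≤ B) (π : ↥B) (a : ℕ), IsCyclic ↥Q ∧ ¬ p ∣ Nat.card ↥Q ∧
      (∀ c ∈ Q, (π : G) * c = c * (π : G)) ∧ π ^ (p ^ a) = 1 ∧
      (∀ c ∈ B, ∃ i : ℕ, ∃ q ∈ Q, c = (π : G) ^ i * q) ∧ Q.index = p ^ a * B.index := by
  obtain ⟨β, hβ⟩ := hB.exists_generator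
  have hn0 : Nat.card ↥B ≠ 0 := Nat.card_pos.ne'
  obtain ⟨a, m, hm, hnm⟩ := Nat.exists_eq_pow_mul_and_not_dvd hn0 p (Fact.out : p.Prime).one_lt.ne'
  have hord : orderOf β = Nat.card ↥B := orderOf_eq_card_of_forall_mem_zpowers hβ
  have hordG : orderOf (β : G) = p ^ a * m := by rw [Subgroup.orderOf_coe, hord, hnm]
  have hm0 : m ≠ 0 := by
    rintro rfl
    exact hm (dvd_zero p)
  have hpa0 : p ^ a ≠ 0 := pow_ne_zero _ (Fact.out : p.Prime).ne_zero
  have hQle : Subgroup.zpowers ((β : G) ^ (p ^ a)) ≤ B := by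
    rw [Subgroup.zpowers_le]
    exact B.pow_mem β.2 _
  have hcardQ : Nat.card ↥(Subgroup.zpowers ((β : G) ^ (p ^ a))) = m := by
    rw [Nat.card_zpowers, orderOf_pow_of_dvd hpa0 (by rw [hordG]; exact dvd_mul_right _ _),
      hordG, Nat.mul_div_cancel_left _ (Nat.pos_of_ne_zero hpa0)]
  refine ⟨Subgroup.zpowers ((β : G) ^ (p ^ a)), hQle, β ^ m, a, inferInstance, ?_, ?_, ?_, ?_, ?_⟩
  · rw [hcardQ]
    exact hm
  · intro c hc
    obtain ⟨z, rfl⟩ := Subgroup.mem_zpowers_iff.mp hc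
    have h1 : Commute ((β : G) ^ m) ((β : G) ^ (p ^ a)) :=
      ((Commute.refl (β : G)).pow_left m).pow_right (p ^ a)
    have h2 : Commute ((β : G) ^ m) (((β : G) ^ (p ^ a)) ^ z) := h1.zpow_right z
    simpa using h2.eq
  · rw [← pow_mul, mul_comm, ← hnm, ← hord]
    exact pow_orderOf_eq_one β
  · intro c hc
    obtain ⟨z, hz⟩ := Subgroup.mem_zpowers_iff.mp (hβ ⟨c, hc⟩)
    have hzG : (β : G) ^ z = c := by
      have := congrArg Subtype.val hz
      simpa using this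
    have hcop : Nat.Coprime m (p ^ a) := by
      apply Nat.Coprime.pow_right
      exact ((Nat.Prime.coprime_iff_not_dvd (Fact.out : p.Prime)).mpr hm).symm
    have hbez := Int.gcd_eq_gcd_ab (m : ℤ) ((p ^ a : ℕ) : ℤ)
    rw [Int.gcd_natCast_natCast, hcop.gcd_eq_one] at hbez
    set u := (m : ℤ).gcdA ((p ^ a : ℕ) : ℤ) with hu
    set v := (m : ℤ).gcdB ((p ^ a : ℕ) : ℤ) with hv
    have hπpow : ((β : G) ^ m) ^ (p ^ a) = 1 := by
      rw [← pow_mul, mul_comm, ← hordG]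
      exact pow_orderOf_eq_one _
    have hi0 : 0 ≤ (z * u) % ((p ^ a : ℕ) : ℤ) :=
      Int.emod_nonneg _ (by exact_mod_cast hpa0)
    refine ⟨((z * u) % ((p ^ a : ℕ) : ℤ)).toNat, ((β : G) ^ (p ^ a)) ^ (z * v),
      Subgroup.zpow_mem_zpowers _ _, ?_⟩
    have h3 : ((β ^ m : ↥B) : G) = (β : G) ^ m := by simp
    rw [h3, ← zpow_natCast (((β : G) ^ m)), Int.toNat_of_nonneg hi0,
      ← zpow_eq_zpow_emod' (z * u) hπpow, ← zpow_natCast (β : G) m, ← zpow_natCast (β : G) (p ^ a),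
      ← zpow_mul, ← zpow_mul, ← zpow_add, ← hzG]
    congr 1
    have : (m : ℤ) * (z * u) + ((p ^ a : ℕ) : ℤ) * (z * v)
        = z * ((m : ℤ) * u + ((p ^ a : ℕ) : ℤ) * v) := by ring
    rw [this, ← hbez]
    simp
  · have h1 := Subgroup.index_mul_card (Subgroup.zpowers ((β : G) ^ (p ^ a)))
    have h2 := Subgroup.index_mul_card B
    rw [hcardQ] at h1
    rw [hnm] at h2
    have h3 : (Subgroup.zpowers ((β : G) ^ (p ^ a))).index * m = (p ^ a * B.index) * m := by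
      rw [h1, ← h2]
      ring
    exact Nat.eq_of_mul_eq_mul_right (Nat.pos_of_ne_zero hm0) h3

/-- The general vanishing on cyclic subgroups. -/
theorem h10b_cyc_zero (p : ℕ) [Fact p.Prime]
    {Φ : ∀ (V : Type) [AddCommGroup V] [Module (ZMod p) V], Representation (ZMod p) G V → ℤ}
    (hΦ : h47g_IsAdditive (ZMod p) G Φ)
    (h0 : ∀ C : Subgroup G, IsCyclic ↥C → ¬ p ∣ Nat.card ↥C →
      ∀ (Y : Type) [AddCommGroup Y] [Module (ZMod p) Y] [FiniteDimensional (ZMod p) Y]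
        (τ : Representation (ZMod p) ↥C Y), Φ ↥(h47g_indSpace C τ) (h47g_ind C τ) = 0)
    (B : Subgroup G) (hB : IsCyclic ↥B)
    (W : Type) [AddCommGroup W] [Module (ZMod p) W] [FiniteDimensional (ZMod p) W]
    (τ : Representation (ZMod p) ↥B W) : Φ ↥(h47g_indSpace B τ) (h47g_ind B τ) = 0 := by
  obtain ⟨Q, hle, π, a, hQc, hQp, hcomm, hπ, hgen, hidx⟩ := h10b_cyc_data p B hB
  have h1 := h10b_step hle τ π p hΦ hcomm a hπ hgen hidx
  rw [h0 Q hQc hQp] at h1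
  have h2 : ((p : ℤ) ^ a) ≠ 0 := pow_ne_zero _ (by exact_mod_cast (Fact.out : p.Prime).ne_zero)
  rcases mul_eq_zero.mp h1.symm with h | h
  · exact absurd h h2
  · exact h

/-- **BA-SQ** (helper82's shape). -/
theorem h10b_squeeze82 : H82bSqueeze := by
  intro p _ G _ _ Φ hΦ hreg C _ hpos Y _ _ _ τ
  exact h10b_ind_zero hΦ hreg C hpos Y τ

/-- **BA-CYC** (helper82's shape). -/
theorem h10b_cyc82 : H82bCyc := by
  intro p _ G _ _ Φ hΦ h0 B hB W _ _ _ τ
  exact h10b_cyc_zero p hΦ h0 B hB W τ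

/-- **`H10Cyclic`.** -/
theorem h10b_cyclic : H10Cyclic := by
  intro p _ G _ _ Φ hΦ hreg hpos B hB V _ _ _ ρ
  refine h10b_cyc_zero p hΦ ?_ B hB V (ρ.comp B.subtype)
  intro C hC hCp Y _ _ _ τ
  exact h10b_ind_zero hΦ hreg C (hpos C hC hCp) Y τ

end Cyc

end Fermat.Agent.S56G
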