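import Mathlib
import Fermat.Agent.S56G.BA.Skel
import Fermat.Agent.S56G.BA.H10Iface

/-!
# S56, block BA, leaf BA-ARTIN: Artin's relation between fixed point counts
(helper1, prefix `h1a_`)

`h1a_artin : H82bArtin`.  For a finite group `G` and `g : G` put
`N_B(g) = #{x | x⁻¹ g x ∈ B} = #B · #Fix(g, G / B)` and `A_C(g) = #{x | ⟨x⁻¹ g x⟩ = C}`.
Then `N_B = ∑_{C ≤ B} A_C`, so by strong induction on `#B` every `A_B`, `B` cyclic, lies in the
additive group `S` generated by the functions `g ↦ #Fix(g, G / C)`, `C` cyclic; and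
`#G = ∑_C A_C ∈ S`.  An element of `S` is a difference of two sums of generators.
-/

set_option autoImplicit false
set_option linter.style.haveILetI false

open Classical

noncomputable section

namespace Fermat.Agent.S56G

section Core

variable {G : Type} [Group G] [Finite G]

/-- `N_B(g) = #{x | x⁻¹ g x ∈ B}`. -/
def h1a_N (B : Subgroup G) (g : G) : ℕ := Nat.card {x : G // x⁻¹ * g * x ∈ B}

/-- `A_C(g) = #{x | ⟨x⁻¹ g x⟩ = C}`. -/
def h1a_A (C : Subgroup G) (g : G) : ℕ :=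
  Nat.card {x : G // Subgroup.zpowers (x⁻¹ * g * x) = C}

omit [Finite G] in
/-- `N_B(g) = #B · #Fix(g, G / B)`. -/
theorem h1a_N_eq (B : Subgroup G) (g : G) :
    h1a_N B g = Nat.card B * h82b_fix (G ⧸ B) g := by
  unfold h1a_N h82b_fix
  have h := QuotientGroup.card_preimage_mk B {q : G ⧸ B | g • q = q}
  have h2 : Nat.card {q : G ⧸ B // g • q = q} = Nat.card ↥{q : G ⧸ B | g • q = q} := rfl
  rw [h2, ← h]
  apply Nat.card_congr
  refine Equiv.subtypeEquivRight (fun x => ?_)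
  rw [Set.mem_preimage, Set.mem_ofPred_eq, MulAction.Quotient.smul_mk, smul_eq_mul,
    QuotientGroup.eq]
  have e : (g * x)⁻¹ * x = (x⁻¹ * g * x)⁻¹ := by group
  rw [e, inv_mem_iff]

omit [Finite G] in
/-- `A_C = 0` if `C` is not cyclic. -/
theorem h1a_A_eq_zero (C : Subgroup G) (hC : ¬ IsCyclic ↥C) (g : G) : h1a_A C g = 0 := by
  unfold h1a_A
  have : IsEmpty {x : G // Subgroup.zpowers (x⁻¹ * g * x) = C} := by
    refine ⟨fun ⟨x, hx⟩ => hC ?_⟩
    rw [← hx]
    infer_instance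
  exact Nat.card_of_isEmpty

/-- `N_B = ∑_{C ≤ B} A_C`. -/
theorem h1a_N_sum [Fintype (Subgroup G)] (B : Subgroup G) (g : G) :
    h1a_N B g = ∑ C ∈ Finset.univ.filter (fun C : Subgroup G => C ≤ B), h1a_A C g := by
  have : Fintype G := Fintype.ofFinite G
  unfold h1a_N h1a_A
  rw [Nat.card_eq_fintype_card, Fintype.card_subtype]
  rw [Finset.card_eq_sum_card_fiberwise (f := fun x : G => Subgroup.zpowers (x⁻¹ * g * x))
    (t := Finset.univ.filter (fun C : Subgroup G => C ≤ B))]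
  · refine Finset.sum_congr rfl (fun C hC => ?_)
    rw [Nat.card_eq_fintype_card, Fintype.card_subtype]
    congr 1
    ext x
    simp only [Finset.mem_filter, Finset.mem_univ, true_and, and_iff_right_iff_imp]
    intro hx
    have hCB : C ≤ B := (Finset.mem_filter.mp hC).2
    apply hCB
    rw [← hx]
    exact Subgroup.mem_zpowers _
  · intro x hx
    simp only [Finset.coe_filter, Finset.mem_univ, true_and, Set.mem_ofPred_eq] at hx ⊢
    rw [Subgroup.zpowers_le]
    exact hx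

/-- the fixed point function of `G / C`, with integer values. -/
def h1a_phi (C : Subgroup G) : G → ℤ := fun g => (h82b_fix (G ⧸ C) g : ℤ)

/-- `A_C` with integer values. -/
def h1a_Az (C : Subgroup G) : G → ℤ := fun g => (h1a_A C g : ℤ)

variable (G) in
/-- the additive group generated by the fixed point functions of the `G / C`, `C` cyclic. -/
def h1a_S : AddSubgroup (G → ℤ) :=
  AddSubgroup.closure {φ | ∃ C : Subgroup G, IsCyclic ↥C ∧ φ = h1a_phi C}

/-- `A_B ∈ S` for cyclic `B`. -/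
theorem h1a_Az_mem (B : Subgroup G) (hB : IsCyclic ↥B) : h1a_Az B ∈ h1a_S G := by
  have : Fintype (Subgroup G) := Fintype.ofFinite _
  induction' hn : Nat.card B using Nat.strong_induction_on with n ih generalizing B
  have hsplit : Finset.univ.filter (fun C : Subgroup G => C ≤ B) =
      insert B (Finset.univ.filter (fun C : Subgroup G => C < B)) := by
    ext C
    simp only [Finset.mem_filter, Finset.mem_univ, true_and, Finset.mem_insert]
    constructor
    · intro h
      rcases eq_or_lt_of_le h with h1 | h1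
      · exact Or.inl h1
      · exact Or.inr h1
    · rintro (h | h)
      · exact h.le
      · exact h.le
  have hnot : B ∉ Finset.univ.filter (fun C : Subgroup G => C < B) := by
    simp
  have key : h1a_Az B = (Nat.card B) • h1a_phi B -
      ∑ C ∈ Finset.univ.filter (fun C : Subgroup G => C < B), h1a_Az C := by
    funext g
    have h1 := h1a_N_eq B g
    have h2 := h1a_N_sum B g
    rw [hsplit, Finset.sum_insert hnot] at h2
    have h3 := congrArg (Nat.cast : ℕ → ℤ) (h2.symm.trans h1)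
    push_cast at h3
    rw [Pi.sub_apply, Pi.smul_apply, Finset.sum_apply, nsmul_eq_mul]
    simp only [h1a_Az, h1a_phi]
    linarith
  rw [key]
  have hgen : h1a_phi B ∈ h1a_S G :=
    AddSubgroup.subset_closure (show h1a_phi B ∈ {φ | ∃ C : Subgroup G, IsCyclic ↥C ∧
      φ = h1a_phi C} from ⟨B, hB, rfl⟩)
  refine sub_mem (nsmul_mem hgen _) (sum_mem ?_)
  intro C hC
  have hCB : C < B := (Finset.mem_filter.mp hC).2
  have hCcyc : IsCyclic ↥C :=
    isCyclic_of_injective (Subgroup.inclusion hCB.le) (Subgroup.inclusion_injective hCB.le)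
  have hcard : Nat.card C < Nat.card B := by
    by_contra hle
    rw [not_lt] at hle
    exact hCB.ne (Subgroup.eq_of_le_of_card_ge hCB.le hle)
  exact ih (Nat.card C) (hn ▸ hcard) C hCcyc rfl

/-- the constant function `#G` is in `S`. -/
theorem h1a_const_mem : (fun _ : G => (Nat.card G : ℤ)) ∈ h1a_S G := by
  have : Fintype (Subgroup G) := Fintype.ofFinite _
  have key : (fun _ : G => (Nat.card G : ℤ)) = ∑ C : Subgroup G, h1a_Az C := by
    funext g
    have h2 := h1a_N_sum (⊤ : Subgroup G) g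
    have h1 : h1a_N (⊤ : Subgroup G) g = Nat.card G := by
      unfold h1a_N
      exact Nat.card_congr (Equiv.subtypeUnivEquiv (fun x => Subgroup.mem_top _))
    have h3 : Finset.univ.filter (fun C : Subgroup G => C ≤ ⊤) = Finset.univ := by
      ext C
      simp
    rw [h3, h1] at h2
    simp only [h1a_Az, Finset.sum_apply]
    rw [h2]
    push_cast
    rfl
  rw [key]
  refine sum_mem (fun C _ => ?_)
  by_cases hC : IsCyclic ↥C
  · exact h1a_Az_mem C hC
  · have : h1a_Az C = 0 := by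
      funext g
      simp [h1a_Az, h1a_A_eq_zero C hC g]
    rw [this]
    exact zero_mem _

/-- the two-family form of an element of `S`. -/
def h1a_T (f : G → ℤ) : Prop :=
  ∃ (ι₁ ι₂ : Type) (_ : Fintype ι₁) (_ : Fintype ι₂)
    (C₁ : ι₁ → Subgroup G) (C₂ : ι₂ → Subgroup G),
    (∀ i, IsCyclic ↥(C₁ i)) ∧ (∀ j, IsCyclic ↥(C₂ j)) ∧
    ∀ g : G, f g + ∑ i, h1a_phi (C₁ i) g = ∑ j, h1a_phi (C₂ j) g

omit [Finite G] in
theorem h1a_T_of_mem (f : G → ℤ) (hf : f ∈ h1a_S G) : h1a_T f := by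
  unfold h1a_S at hf
  induction hf using AddSubgroup.closure_induction with
  | mem x hx =>
    obtain ⟨C, hC, rfl⟩ := hx
    refine ⟨PEmpty, PUnit, inferInstance, inferInstance, fun i => i.elim, fun _ => C,
      fun i => i.elim, fun _ => hC, fun g => ?_⟩
    simp
  | zero =>
    refine ⟨PEmpty, PEmpty, inferInstance, inferInstance, fun i => i.elim, fun i => i.elim,
      fun i => i.elim, fun i => i.elim, fun g => ?_⟩
    simp
  | add x y _ _ hx hy =>
    obtain ⟨ι₁, ι₂, _, _, C₁, C₂, h1, h2, h3⟩ := hx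
    obtain ⟨κ₁, κ₂, _, _, D₁, D₂, k1, k2, k3⟩ := hy
    refine ⟨ι₁ ⊕ κ₁, ι₂ ⊕ κ₂, inferInstance, inferInstance, Sum.elim C₁ D₁, Sum.elim C₂ D₂,
      ?_, ?_, fun g => ?_⟩
    · rintro (i | i)
      · exact h1 i
      · exact k1 i
    · rintro (i | i)
      · exact h2 i
      · exact k2 i
    · rw [Fintype.sum_sum_type, Fintype.sum_sum_type]
      simp only [Sum.elim_inl, Sum.elim_inr, Pi.add_apply]
      have a := h3 g
      have b := k3 g
      linarith
  | neg x _ hx =>
    obtain ⟨ι₁, ι₂, _, _, C₁, C₂, h1, h2, h3⟩ := hx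
    refine ⟨ι₂, ι₁, inferInstance, inferInstance, C₂, C₁, h2, h1, fun g => ?_⟩
    have a := h3 g
    simp only [Pi.neg_apply]
    linarith

end Core

/-- **BA-ARTIN.** -/
theorem h1a_artin : H82bArtin := by
  intro G _ _
  obtain ⟨ι₁, ι₂, i1, i2, C₁, C₂, h1, h2, h3⟩ := h1a_T_of_mem _ (h1a_const_mem (G := G))
  refine ⟨Nat.card G, ι₁, ι₂, i1, i2, C₁, C₂, Nat.card_pos, h1, h2, fun g => ?_⟩
  have a := h3 g
  simp only [h1a_phi] at a
  exact_mod_cast a

/-! ## The `G`-set form -/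

section GSet

variable {G : Type} [Group G]

/-- the `G`-set `n · pt ⊔ ⊔_i G / C i`. -/
@[instance_reducible]
def h1a_act (n : ℕ) (ι : Type) (C : ι → Subgroup G) :
    MulAction G (Fin n ⊕ Σ i : ι, G ⧸ C i) where
  smul g x := Sum.elim (fun a => Sum.inl a) (fun s => Sum.inr ⟨s.1, g • s.2⟩) x
  one_smul x := by
    rcases x with a | ⟨i, q⟩
    · rfl
    · change (Sum.inr (Sigma.mk i ((1 : G) • q)) : Fin n ⊕ Σ i : ι, G ⧸ C i) =
        Sum.inr (Sigma.mk i q)
      rw [one_smul]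
  mul_smul g h x := by
    rcases x with a | ⟨i, q⟩
    · rfl
    · change (Sum.inr (Sigma.mk i ((g * h) • q)) : Fin n ⊕ Σ i : ι, G ⧸ C i) =
        Sum.inr (Sigma.mk i (g • h • q))
      rw [mul_smul]

theorem h1a_smul_inl (n : ℕ) (ι : Type) (C : ι → Subgroup G) (g : G) (a : Fin n) :
    letI := h1a_act n ι C
    g • (Sum.inl a : Fin n ⊕ Σ i : ι, G ⧸ C i) = Sum.inl a := rfl

theorem h1a_smul_inr (n : ℕ) (ι : Type) (C : ι → Subgroup G) (g : G) (i : ι) (q : G ⧸ C i) :
    letI := h1a_act n ι C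
    g • (Sum.inr ⟨i, q⟩ : Fin n ⊕ Σ i : ι, G ⧸ C i) = Sum.inr ⟨i, g • q⟩ := rfl

/-- stabilisers of the points of `G / C` are cyclic if `C` is. -/
theorem h1a_stab_quot (C : Subgroup G) (hC : IsCyclic ↥C) (q : G ⧸ C) :
    IsCyclic ↥(MulAction.stabilizer G q) := by
  obtain ⟨x, rfl⟩ := QuotientGroup.mk_surjective q
  have h1 : ((x : G) : G ⧸ C) = x • ((1 : G) : G ⧸ C) := by
    rw [MulAction.Quotient.smul_mk, smul_eq_mul, mul_one]
  rw [h1, MulAction.stabilizer_smul_eq_stabilizer_map_conj, MulAction.stabilizer_quotient]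
  exact isCyclic_of_surjective ((MulAut.conj x).toMonoidHom.subgroupMap C)
    (MonoidHom.subgroupMap_surjective _ _)

theorem h1a_stab_inl (n : ℕ) (ι : Type) (C : ι → Subgroup G) (a : Fin n) :
    letI := h1a_act n ι C
    MulAction.stabilizer G (Sum.inl a : Fin n ⊕ Σ i : ι, G ⧸ C i) = ⊤ := by
  letI := h1a_act n ι C
  ext g
  simp only [MulAction.mem_stabilizer_iff, Subgroup.mem_top, iff_true]
  rfl

theorem h1a_stab_inr (n : ℕ) (ι : Type) (C : ι → Subgroup G) (hC : ∀ i, IsCyclic ↥(C i))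
    (s : Σ i : ι, G ⧸ C i) :
    letI := h1a_act n ι C
    IsCyclic ↥(MulAction.stabilizer G (Sum.inr s : Fin n ⊕ Σ i : ι, G ⧸ C i)) := by
  letI := h1a_act n ι C
  obtain ⟨i, q⟩ := s
  have h : MulAction.stabilizer G (Sum.inr ⟨i, q⟩ : Fin n ⊕ Σ i : ι, G ⧸ C i) =
      MulAction.stabilizer G q := by
    ext g
    rw [MulAction.mem_stabilizer_iff, MulAction.mem_stabilizer_iff, h1a_smul_inr]
    constructor
    · intro h
      have h1 := Sum.inr_injective h
      exact eq_of_heq (Sigma.mk.inj h1).2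
    · intro h
      rw [h]
  rw [h]
  exact h1a_stab_quot (C i) (hC i) q

/-- the fixed point count of `n · pt ⊔ ⊔_i G / C i`. -/
theorem h1a_card_fix [Finite G] (n : ℕ) (ι : Type) [Fintype ι] (C : ι → Subgroup G) (g : G) :
    letI := h1a_act n ι C
    Nat.card {x : Fin n ⊕ Σ i : ι, G ⧸ C i // g • x = x} =
      n + ∑ i, h82b_fix (G ⧸ C i) g := by
  letI := h1a_act n ι C
  rw [Nat.card_congr (Equiv.subtypeSum
    (p := fun x : Fin n ⊕ Σ i : ι, G ⧸ C i => g • x = x)), Nat.card_sum]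
  congr 1
  · have e : {a : Fin n // g • (Sum.inl a : Fin n ⊕ Σ i : ι, G ⧸ C i) = Sum.inl a} ≃ Fin n :=
      Equiv.subtypeUnivEquiv (fun a => rfl)
    rw [Nat.card_congr e, Nat.card_fin]
  · have e : {s : Σ i : ι, G ⧸ C i //
        g • (Sum.inr s : Fin n ⊕ Σ i : ι, G ⧸ C i) = Sum.inr s} ≃
        Σ i : ι, {q : G ⧸ C i // g • q = q} :=
      { toFun := fun s => ⟨s.1.1, s.1.2, by
          obtain ⟨⟨i, q⟩, hs⟩ := s
          have h1 := Sum.inr_injective hs
          exact eq_of_heq (Sigma.mk.inj h1).2⟩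
        invFun := fun s => ⟨⟨s.1, s.2.1⟩, by
          obtain ⟨i, q, hq⟩ := s
          change (Sum.inr (Sigma.mk i (g • q)) : Fin n ⊕ Σ i : ι, G ⧸ C i) =
            Sum.inr (Sigma.mk i q)
          rw [hq]⟩
        left_inv := fun s => rfl
        right_inv := fun s => rfl }
    rw [Nat.card_congr e, Nat.card_sigma]
    rfl

end GSet

/-- **BA-5 (Artin's induction theorem, `G`-set form).** -/
theorem h1a_artin_gset : H10Artin := by
  intro G _ _
  obtain ⟨n, ι₁, ι₂, i1, i2, C₁, C₂, hn, h1, h2, h3⟩ := h1a_artin G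
  refine ⟨Fin n ⊕ Σ i : ι₁, G ⧸ C₁ i, Fin 0 ⊕ Σ j : ι₂, G ⧸ C₂ j, inferInstance, inferInstance,
    h1a_act n ι₁ C₁, h1a_act 0 ι₂ C₂, ?_, ?_, ?_, ?_⟩
  · rintro (a | s)
    · exact a.elim0
    · exact h1a_stab_inr 0 ι₂ C₂ h2 s
  · rintro (a | s)
    · exact Or.inl (h1a_stab_inl n ι₁ C₁ a)
    · exact Or.inr (h1a_stab_inr n ι₁ C₁ h1 s)
  · exact ⟨Sum.inl ⟨0, hn⟩, h1a_stab_inl n ι₁ C₁ _⟩
  · intro g
    rw [h1a_card_fix n ι₁ C₁ g, h1a_card_fix 0 ι₂ C₂ g, zero_add]
    exact h3 g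

end Fermat.Agent.S56G
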