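import Mathlib
import Fermat.Agent.S56G.BA.H10Iface

/-!
# S56, block BA, row BA-6 (helper79): characters determine rational representations

`h79c0_char0 : H10Char0` : two finite dimensional rational representations of a finite group
with the same character are isomorphic.

Proof (cancellation, induction on the dimension): a minimal nonzero subrepresentation `S` of
`V` maps nontrivially, hence injectively, to `W`
(`Representation.card_inv_mul_sum_char_mul_char_eq_finrank`: the number of maps `S → V` depends
only on the character of `V`); by Maschke `V = S ⊕ V'`, `W = f(S) ⊕ W'`; the characters of `V'`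
and `W'` agree; induction.
-/

set_option autoImplicit false
set_option linter.style.haveILetI false
set_option linter.unusedSectionVars false

open Representation Module

namespace Fermat.Agent.S56G

section Trace

variable {G : Type} [Group G] {V : Type} [AddCommGroup V] [Module ℚ V] [FiniteDimensional ℚ V]

/-- the character is additive over a decomposition into two complementary subrepresentations. -/
theorem h79c0_trace_add (ρ : Representation ℚ G V) (S T : Subrepresentation ρ)
    (h : IsCompl S.toSubmodule T.toSubmodule) (g : G) :
    LinearMap.trace ℚ V (ρ g) =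
      LinearMap.trace ℚ S.toSubmodule (S.toRepresentation g) +
        LinearMap.trace ℚ T.toSubmodule (T.toRepresentation g) := by
  have e1 : ρ g = (Submodule.prodEquivOfIsCompl _ _ h).conj
      ((S.toRepresentation g).prodMap (T.toRepresentation g)) := by
    apply LinearMap.ext
    intro v
    obtain ⟨x, rfl⟩ := (Submodule.prodEquivOfIsCompl _ _ h).surjective v
    rw [LinearEquiv.conj_apply_apply, LinearEquiv.symm_apply_apply]
    rw [Submodule.coe_prodEquivOfIsCompl', Submodule.coe_prodEquivOfIsCompl', map_add]
    rfl
  rw [e1, LinearMap.trace_conj', LinearMap.trace_prodMap']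

/-- the character is invariant under equivariant isomorphisms. -/
theorem h79c0_trace_equiv {W : Type} [AddCommGroup W] [Module ℚ W]
    (ρ : Representation ℚ G V) (σ : Representation ℚ G W) (e : V ≃ₗ[ℚ] W)
    (he : ∀ g v, e (ρ g v) = σ g (e v)) (g : G) :
    LinearMap.trace ℚ V (ρ g) = LinearMap.trace ℚ W (σ g) := by
  have e1 : σ g = e.conj (ρ g) := by
    apply LinearMap.ext
    intro w
    rw [LinearEquiv.conj_apply_apply, he, LinearEquiv.apply_symm_apply]
  rw [e1, LinearMap.trace_conj']

end Trace

section Maschke

variable {G : Type} [Group G] [Finite G] {V : Type} [AddCommGroup V] [Module ℚ V]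

theorem h79c0_isCompl_toSubmodule {ρ : Representation ℚ G V} {S T : Subrepresentation ρ}
    (h : IsCompl S T) : IsCompl S.toSubmodule T.toSubmodule := by
  constructor
  · rw [disjoint_iff, ← Subrepresentation.toSubmodule_inf, h.inf_eq_bot]
    rfl
  · rw [codisjoint_iff, ← Subrepresentation.toSubmodule_sup, h.sup_eq_top]
    rfl

/-- **Maschke**: every subrepresentation has a complementary subrepresentation. -/
theorem h79c0_exists_compl (ρ : Representation ℚ G V) (S : Subrepresentation ρ) :
    ∃ T : Subrepresentation ρ, IsCompl S.toSubmodule T.toSubmodule := by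
  haveI : NeZero (Nat.card G : ℚ) := ⟨Nat.cast_ne_zero.mpr Nat.card_pos.ne'⟩
  obtain ⟨T, hT⟩ := exists_isCompl S
  exact ⟨T, h79c0_isCompl_toSubmodule hT⟩

end Maschke

section Hom

variable {G : Type} [Group G] [Finite G]
  {U : Type} [AddCommGroup U] [Module ℚ U] [FiniteDimensional ℚ U]
  {V : Type} [AddCommGroup V] [Module ℚ V] [FiniteDimensional ℚ V]
  {W : Type} [AddCommGroup W] [Module ℚ W] [FiniteDimensional ℚ W]

theorem h79c0_finite_hom (τ : Representation ℚ G U) (ρ : Representation ℚ G V) :
    Module.Finite ℚ (IntertwiningMap τ ρ) :=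
  Module.Finite.equiv (invariantsEquivIntertwiningMap τ ρ)

/-- representations with the same character receive the same number of maps. -/
theorem h79c0_finrank_hom (τ : Representation ℚ G U) (ρ : Representation ℚ G V)
    (σ : Representation ℚ G W)
    (h : ∀ g : G, LinearMap.trace ℚ V (ρ g) = LinearMap.trace ℚ W (σ g)) :
    finrank ℚ (IntertwiningMap τ ρ) = finrank ℚ (IntertwiningMap τ σ) := by
  haveI : Fintype G := Fintype.ofFinite G
  haveI : Invertible (Nat.card G : ℚ) :=
    invertibleOfNonzero (Nat.cast_ne_zero.mpr Nat.card_pos.ne')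
  have h1 := card_inv_mul_sum_char_mul_char_eq_finrank τ ρ
  have h2 := card_inv_mul_sum_char_mul_char_eq_finrank τ σ
  have h3 : ∀ g, ρ.character g = σ.character g := h
  simp only [h3] at h1
  rw [h1] at h2
  exact_mod_cast h2

end Hom

section Main

/-- **characters determine rational representations** (induction on the dimension). -/
theorem h79c0_main (G : Type) [Group G] [Finite G] :
    ∀ (n : ℕ) (V W : Type) [AddCommGroup V] [Module ℚ V] [FiniteDimensional ℚ V]
      [AddCommGroup W] [Module ℚ W] [FiniteDimensional ℚ W]
      (ρ : Representation ℚ G V) (σ : Representation ℚ G W),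
      finrank ℚ V = n →
      (∀ g : G, LinearMap.trace ℚ V (ρ g) = LinearMap.trace ℚ W (σ g)) →
      ∃ e : V ≃ₗ[ℚ] W, ∀ (g : G) (v : V), e (ρ g v) = σ g (e v) := by
  intro n
  induction n using Nat.strong_induction_on with
  | _ n ih =>
  intro V W _ _ _ _ _ _ ρ σ hn h
  classical
  -- dimensions
  have hdim : finrank ℚ W = finrank ℚ V := by
    have h1 := h 1
    have hρ1 : ρ 1 = 1 := map_one ρ
    have hσ1 : σ 1 = 1 := map_one σ
    rw [hρ1, hσ1, LinearMap.trace_one, LinearMap.trace_one] at h1
    exact_mod_cast h1.symm
  rcases Nat.eq_zero_or_pos n with h0 | hpos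
  · -- the trivial case
    subst h0
    haveI : Subsingleton V := Module.finrank_zero_iff.mp hn
    haveI : Subsingleton W := Module.finrank_zero_iff.mp (hdim.trans hn)
    exact ⟨LinearEquiv.ofFinrankEq V W hdim.symm, fun g v => Subsingleton.elim _ _⟩
  · -- a minimal nonzero subrepresentation
    haveI : Nontrivial V := Module.nontrivial_of_finrank_pos (R := ℚ) (by omega)
    have hex : ∃ m, ∃ S : Subrepresentation ρ,
        S.toSubmodule ≠ ⊥ ∧ finrank ℚ S.toSubmodule = m :=
      ⟨finrank ℚ (⊤ : Submodule ℚ V), ⊤, top_ne_bot, rfl⟩
    obtain ⟨S, hS0, hSm⟩ := Nat.find_spec hex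
    have hmin : ∀ S' : Subrepresentation ρ, S'.toSubmodule ≠ ⊥ →
        finrank ℚ S.toSubmodule ≤ finrank ℚ S'.toSubmodule := by
      intro S' hS'
      rw [hSm]
      exact Nat.find_min' hex ⟨S', hS', rfl⟩
    -- the inclusion is a nonzero intertwining map
    let ι : IntertwiningMap S.toRepresentation ρ :=
      ⟨S.toSubmodule.subtype, fun g => by ext v; rfl⟩
    have hι : ι ≠ 0 := by
      intro hι0
      apply hS0
      rw [Submodule.eq_bot_iff]
      intro v hv
      have h1 : ι ⟨v, hv⟩ = (0 : IntertwiningMap S.toRepresentation ρ) ⟨v, hv⟩ := by rw [hι0]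
      exact h1
    haveI := h79c0_finite_hom S.toRepresentation ρ
    haveI := h79c0_finite_hom S.toRepresentation σ
    have hpos1 : 0 < finrank ℚ (IntertwiningMap S.toRepresentation ρ) :=
      Module.finrank_pos_iff_exists_ne_zero.mpr ⟨ι, hι⟩
    rw [h79c0_finrank_hom S.toRepresentation ρ σ h] at hpos1
    obtain ⟨f, hf⟩ := Module.finrank_pos_iff_exists_ne_zero.mp hpos1
    -- `f` is injective
    have hinj : LinearMap.ker f.toLinearMap = ⊥ := by
      by_contra hker
      let K : Subrepresentation ρ :=
        ⟨(LinearMap.ker f.toLinearMap).map S.toSubmodule.subtype, by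
          rintro g _ ⟨s, hs, rfl⟩
          refine ⟨S.toRepresentation g s, ?_, rfl⟩
          have h1 : f (S.toRepresentation g s) = σ g (f s) :=
            IntertwiningMap.isIntertwining _ _ f g s
          have h2 : f s = 0 := hs
          show f (S.toRepresentation g s) = 0
          rw [h1, h2, map_zero]⟩
      have hK0 : K.toSubmodule ≠ ⊥ := by
        intro hK
        apply hker
        rw [Submodule.eq_bot_iff]
        intro s hs
        have h1 : (s : V) ∈ K.toSubmodule := ⟨s, hs, rfl⟩
        rw [hK, Submodule.mem_bot] at h1
        exact Subtype.ext h1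
      have hKle : K.toSubmodule ≤ S.toSubmodule := Submodule.map_subtype_le _ _
      have hKeq : K.toSubmodule = S.toSubmodule :=
        Submodule.eq_of_le_of_finrank_le hKle (hmin K hK0)
      apply hf
      apply IntertwiningMap.ext
      apply LinearMap.ext
      intro s
      have h1 : (s : V) ∈ K.toSubmodule := by
        rw [hKeq]
        exact s.2
      obtain ⟨s', hs', hss'⟩ := h1
      have h2 : s' = s := Subtype.ext hss'
      subst h2
      exact hs'
    have hinj' : Function.Injective f.toLinearMap := LinearMap.ker_eq_bot.mp hinj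
    -- the image
    let T : Subrepresentation σ := f.range
    let fT : S.toSubmodule ≃ₗ[ℚ] T.toSubmodule := LinearEquiv.ofInjective f.toLinearMap hinj'
    have hfT : ∀ g s, fT (S.toRepresentation g s) = T.toRepresentation g (fT s) := by
      intro g s
      apply Subtype.ext
      exact IntertwiningMap.isIntertwining _ _ f g s
    -- complements
    obtain ⟨S', hS'⟩ := h79c0_exists_compl ρ S
    obtain ⟨T', hT'⟩ := h79c0_exists_compl σ T
    have hchar : ∀ g : G, LinearMap.trace ℚ S'.toSubmodule (S'.toRepresentation g) =
        LinearMap.trace ℚ T'.toSubmodule (T'.toRepresentation g) := by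
      intro g
      have h1 := h79c0_trace_add ρ S S' hS' g
      have h2 := h79c0_trace_add σ T T' hT' g
      have h3 := h79c0_trace_equiv S.toRepresentation T.toRepresentation fT hfT g
      have h4 := h g
      linarith
    have hlt : finrank ℚ S'.toSubmodule < n := by
      have h1 := Submodule.finrank_add_eq_of_isCompl hS'
      have h2 : 0 < finrank ℚ S.toSubmodule := by
        rw [Nat.pos_iff_ne_zero]
        intro h3
        exact hS0 (Submodule.finrank_eq_zero.mp h3)
      omega
    obtain ⟨e', he'⟩ := ih (finrank ℚ S'.toSubmodule) hlt S'.toSubmodule T'.toSubmodule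
      S'.toRepresentation T'.toRepresentation rfl hchar
    -- glue
    refine ⟨(Submodule.prodEquivOfIsCompl _ _ hS').symm.trans
      ((fT.prodCongr e').trans (Submodule.prodEquivOfIsCompl _ _ hT')), ?_⟩
    intro g v
    obtain ⟨x, rfl⟩ := (Submodule.prodEquivOfIsCompl _ _ hS').surjective v
    have k1 : ρ g (Submodule.prodEquivOfIsCompl _ _ hS' x) =
        Submodule.prodEquivOfIsCompl _ _ hS'
          (S.toRepresentation g x.1, S'.toRepresentation g x.2) := by
      rw [Submodule.coe_prodEquivOfIsCompl', Submodule.coe_prodEquivOfIsCompl', map_add]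
      rfl
    rw [k1]
    simp only [LinearEquiv.trans_apply, LinearEquiv.symm_apply_apply, LinearEquiv.prodCongr_apply]
    rw [hfT, he', Submodule.coe_prodEquivOfIsCompl', Submodule.coe_prodEquivOfIsCompl', map_add]
    rfl

/-- **BA-6.**  Rational representations with the same character are isomorphic. -/
theorem h79c0_char0 : H10Char0 := by
  intro G _ _ V W _ _ _ _ _ _ ρ σ h
  exact h79c0_main G (finrank ℚ V) V W ρ σ rfl h

end Main

end Fermat.Agent.S56G
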