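import Mathlib
import Fermat.Agent.S56G.BA.Skel
import Fermat.Agent.S56G.BA.H10Iface
import Fermat.Agent.S56G.BA.H79Char0

/-!
# S56, block BA, leaf BA-QISO (helper1, prefix `h1q_`)

`h1q_qiso : H82bQIso`: finite `G`-sets with the same fixed point counts have isomorphic rational
permutation representations.  The trace of `g` on the permutation representation is the number
of fixed points of `g`; conclude with `h79c0_char0 : H10Char0` (rational representations with
the same character are isomorphic).  Also `h1q_permEq : H10Lattice → H10PermEq`.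
-/

set_option autoImplicit false

open Classical

noncomputable section

namespace Fermat.Agent.S56G

/-- the trace of a permutation representation is the number of fixed points. -/
theorem h1q_trace_perm {G : Type} [Group G] (X : Type) [Finite X] [MulAction G X] (g : G) :
    LinearMap.trace ℚ (X → ℚ) (h82b_P ℚ G X g) = (h82b_fix X g : ℚ) := by
  have : Fintype X := Fintype.ofFinite X
  rw [LinearMap.trace_eq_matrix_trace ℚ (Pi.basisFun ℚ X)]
  unfold Matrix.trace h82b_fix
  rw [Nat.card_eq_fintype_card, Fintype.card_subtype, Finset.card_eq_sum_ones,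
    Finset.sum_filter]
  push_cast
  refine Finset.sum_congr rfl (fun x _ => ?_)
  rw [Matrix.diag_apply, LinearMap.toMatrix_apply, Pi.basisFun_apply, Pi.basisFun_repr,
    h82b_P_apply]
  by_cases h : g • x = x
  · have h' : g⁻¹ • x = x := by rw [inv_smul_eq_iff, h]
    rw [if_pos h, h', Pi.single_eq_same]
  · have h' : g⁻¹ • x ≠ x := by
      intro h1
      apply h
      rw [inv_smul_eq_iff] at h1
      exact h1.symm
    rw [if_neg h, Pi.single_eq_of_ne h']

/-- **BA-QISO.** -/
theorem h1q_qiso : H82bQIso := by
  intro G _ _ X Y _ _ _ _ hfix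
  exact h79c0_char0 G (X → ℚ) (Y → ℚ) (h82b_P ℚ G X) (h82b_P ℚ G Y)
    (fun g => by rw [h1q_trace_perm, h1q_trace_perm, hfix g])

/-- the two permutation representations of the interfaces agree. -/
theorem h1q_perm_eq (k : Type) [CommRing k] (G : Type) [Group G] (X : Type) [MulAction G X] :
    h10b_perm k G X = h82b_P k G X := by
  ext g f x
  rfl

/-- **BA-67** from the lattice lemma. -/
theorem h1q_permEq (hL : H10Lattice) : H10PermEq := by
  intro p _ G _ _ Ψ hΨ X₁ X₂ _ _ _ _ hfix
  obtain ⟨e, he⟩ := h1q_qiso G X₁ X₂ (fun g => hfix g)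
  refine hL p G Ψ hΨ X₁ X₂ e (fun g f => ?_)
  rw [h1q_perm_eq, h1q_perm_eq]
  exact he g f

end Fermat.Agent.S56G
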