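import Fermat.Agent.S56G.BA.H52LatticeMain
import Fermat.Agent.S56G.BA.Skel
import Fermat.Agent.S56G.BA.H10Iface

/-!
# S56, block BA, leaf LATTICE, part 4 (helper52): the permutation forms

* `h52b_exists_mult` : an injective `ℤ`-linear map `ℤ^X → ℤ^Y`, `#X = #Y`, has cokernel killed
  by some `N ≠ 0` (determinant + adjugate);
* `h52b_red_perm` : `ℤ^X → 𝔽_p^X` is a reduction datum for the permutation representations;
* `h52b_latt : H82bLatt` (exact frozen Prop of `S56G/BA/Skel.lean`).
-/

set_option autoImplicit false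
set_option linter.style.haveILetI false

open Matrix

noncomputable section

namespace Fermat.Agent.S56G

/-- An injective `ℤ`-linear map `ℤ^X → ℤ^Y` with `#X = #Y` has cokernel killed by some
`N ≠ 0`. -/
theorem h52b_exists_mult (X Y : Type) [Finite X] [Finite Y] (hcard : Nat.card X = Nat.card Y)
    (f : (X → ℤ) →ₗ[ℤ] (Y → ℤ)) (hinj : Function.Injective f) :
    ∃ N : ℕ, N ≠ 0 ∧ ∀ y : Y → ℤ, ∃ x : X → ℤ, f x = (N : ℤ) • y := by
  classical
  haveI := Fintype.ofFinite X
  haveI := Fintype.ofFinite Y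
  obtain ⟨σ⟩ : Nonempty (Y ≃ X) := (Finite.card_eq.mp hcard.symm)
  set M : Matrix Y X ℤ := LinearMap.toMatrix' f with hM
  set M' : Matrix Y Y ℤ := M.submatrix id σ with hM'
  have hMf : ∀ w : X → ℤ, M *ᵥ w = f w := fun w => by
    rw [hM, ← Matrix.toLin'_apply, Matrix.toLin'_toMatrix']
  have hM'f : ∀ w : Y → ℤ, M' *ᵥ w = f (w ∘ σ.symm) := fun w => by
    rw [hM', Matrix.submatrix_mulVec_equiv, hMf]
    rfl
  have hdet : M'.det ≠ 0 := by
    intro h0
    obtain ⟨v, hv0, hv⟩ := Matrix.exists_mulVec_eq_zero_iff.mpr h0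
    rw [hM'f] at hv
    have h1 : v ∘ σ.symm = 0 := hinj (by rw [hv, map_zero])
    apply hv0
    funext y
    have := congrFun h1 (σ y)
    simpa using this
  have hadj : ∀ y : Y → ℤ, f ((M'.adjugate *ᵥ y) ∘ σ.symm) = M'.det • y := fun y => by
    rw [← hM'f, Matrix.mulVec_mulVec, Matrix.mul_adjugate, Matrix.smul_mulVec,
      Matrix.one_mulVec]
  refine ⟨M'.det.natAbs, Int.natAbs_ne_zero.mpr hdet, fun y => ?_⟩
  rcases Int.natAbs_eq M'.det with h | h
  · exact ⟨(M'.adjugate *ᵥ y) ∘ σ.symm, by rw [hadj, ← h]⟩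
  · refine ⟨-((M'.adjugate *ᵥ y) ∘ σ.symm), ?_⟩
    rw [map_neg, hadj]
    have : ((M'.det.natAbs : ℕ) : ℤ) = - M'.det := by omega
    rw [this, neg_smul]

section Perm

variable (p : ℕ) [Fact p.Prime] (G : Type) [Group G] (X : Type) [MulAction G X]

/-- reduction mod `p` of functions. -/
def h52b_cast : (X → ℤ) →+ (X → ZMod p) where
  toFun v x := ((v x : ℤ) : ZMod p)
  map_zero' := by
    funext x
    simp
  map_add' v w := by
    funext x
    simp

@[simp] lemma h52b_cast_apply (v : X → ℤ) (x : X) : h52b_cast p X v x = ((v x : ℤ) : ZMod p) :=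
  rfl

/-- `ℤ^X → 𝔽_p^X` is a reduction datum for the permutation representations. -/
theorem h52b_red_perm :
    h52b_Red p (h82b_P ℤ G X) (h82b_P (ZMod p) G X) (h52b_cast p X) where
  surj := by
    intro w
    refine ⟨fun x => (ZMod.intCast_surjective (w x)).choose, ?_⟩
    funext x
    exact (ZMod.intCast_surjective (w x)).choose_spec
  equivariant g v := by
    funext x
    simp
  ker_eq v := by
    constructor
    · intro h
      have h1 : ∀ x, (p : ℤ) ∣ v x := fun x => by
        have := congrFun h x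
        simp only [h52b_cast_apply, Pi.zero_apply] at this
        exact (ZMod.intCast_zmod_eq_zero_iff_dvd _ _).mp this
      choose w hw using h1
      exact ⟨w, by funext x; simp [hw x]⟩
    · rintro ⟨w, rfl⟩
      funext x
      simp

end Perm

/-- **BA-LATT** (exact frozen Prop of `S56G/BA/Skel.lean`). -/
theorem h52b_latt : H82bLatt := by
  intro p _ G _ _ Ψ hΨ X Y _ _ _ _ hcard f hinj hf
  obtain ⟨N, hN0, hN⟩ := h52b_exists_mult X Y hcard f hinj
  symm
  refine h52b_lattice Ψ hΨ (h52b_red_perm p G Y) (h52b_red_perm p G X) ?_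
    f.toAddMonoidHom hinj hf N hN0 hN
  intro z hz
  funext y
  have := congrFun hz y
  simp only [Pi.smul_apply, smul_eq_mul, Pi.zero_apply, mul_eq_zero] at this
  rcases this with h | h
  · exact absurd h (by exact_mod_cast (Fact.out : p.Prime).ne_zero)
  · exact h

end Fermat.Agent.S56G
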