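import Fermat.Agent.S56G.BA.Skel

/-!
# S56, block BA, rows BA-ZMAP and BA-PERMASM (helper61)

* `h61z_zMapOfQIso : H82bZMapOfQIso` — clearing the denominators of an equivariant isomorphism
  `ℚ^X ≃ ℚ^Y` gives an injective equivariant map `ℤ^X → ℤ^Y`.
* `h61z_permAsm : H82bPermAsm` — `BA-ZMAP` and `BA-LATT` give `BA-PERM`.
* `h61z_clear` — a rational linear map `ℚ^X → ℚ^Y` times a nonzero integer `d` is integral.
-/

set_option autoImplicit false
set_option linter.style.haveILetI false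

noncomputable section

namespace Fermat.Agent.S56G

/-- clearing denominators of a rational linear map between finite free modules. -/
theorem h61z_clear {X Y : Type} [Finite X] [Finite Y] (e : (X → ℚ) →ₗ[ℚ] (Y → ℚ)) :
    ∃ (d : ℤ) (f : (X → ℤ) →ₗ[ℤ] (Y → ℤ)), d ≠ 0 ∧
      ∀ (v : X → ℤ) (y : Y), ((f v y : ℤ) : ℚ) = (d : ℚ) * e (fun x => (v x : ℚ)) y := by
  classical
  letI := Fintype.ofFinite X
  letI := Fintype.ofFinite Y
  obtain ⟨b, hb⟩ := IsLocalization.exist_integer_multiples (nonZeroDivisors ℤ)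
    (Finset.univ : Finset (Y × X)) (fun yx => e (Pi.single yx.2 1) yx.1)
  choose! z hz using hb
  have hz' : ∀ y x, ((z (y, x) : ℤ) : ℚ) = ((b : ℤ) : ℚ) * e (Pi.single x 1) y := by
    intro y x
    have h := hz (y, x) (Finset.mem_univ _)
    have h0 : (algebraMap ℤ ℚ) (z (y, x)) = ((z (y, x) : ℤ) : ℚ) := rfl
    rw [← h0, h]
    simp [Algebra.smul_def]
  refine ⟨(b : ℤ), Matrix.mulVecLin (Matrix.of fun y x => z (y, x)),
    nonZeroDivisors.coe_ne_zero b, ?_⟩
  intro v y
  have h1 : e (fun x => (v x : ℚ)) = ∑ x, (v x : ℚ) • e (Pi.single x 1) := by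
    conv_lhs => rw [show (fun x => (v x : ℚ)) =
        ∑ x, (v x : ℚ) • (Pi.single x (1 : ℚ) : X → ℚ) from by
      funext x
      simp [Finset.sum_apply, Pi.single_apply]]
    rw [map_sum]
    exact Finset.sum_congr rfl fun x _ => map_smul _ _ _
  rw [h1, Matrix.mulVecLin_apply, Matrix.mulVec, dotProduct]
  simp only [Matrix.of_apply, Finset.sum_apply, Pi.smul_apply, smul_eq_mul, Int.cast_sum,
    Int.cast_mul, Finset.mul_sum]
  refine Finset.sum_congr rfl fun x _ => ?_
  rw [hz']
  ring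

/-- **BA-ZMAP from BA-QISO.** -/
theorem h61z_zMapOfQIso : H82bZMapOfQIso := by
  intro hQ G _ _ X Y _ _ _ _ hfix
  obtain ⟨e, he⟩ := hQ G X Y hfix
  obtain ⟨d, f, hd, hf⟩ := h61z_clear e.toLinearMap
  have hdQ : (d : ℚ) ≠ 0 := Int.cast_ne_zero.mpr hd
  refine ⟨f, ?_, ?_⟩
  · rw [injective_iff_map_eq_zero]
    intro v hv
    have h1 : e (fun x => (v x : ℚ)) = 0 := by
      funext y
      have h2 := hf v y
      rw [hv] at h2
      simp only [Pi.zero_apply, Int.cast_zero] at h2
      have h3 := (mul_eq_zero.mp h2.symm).resolve_left hdQ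
      exact h3
    have h4 : (fun x => (v x : ℚ)) = 0 := e.map_eq_zero_iff.mp h1
    funext x
    have h5 := congrFun h4 x
    simpa using h5
  · intro g v
    funext y
    apply Int.cast_injective (α := ℚ)
    rw [hf, h82b_P_apply, hf]
    have h6 : (fun x => ((h82b_P ℤ G X g v x : ℤ) : ℚ)) =
        h82b_P ℚ G X g (fun x => (v x : ℚ)) := by
      funext x
      simp
    rw [h6]
    have h7 := he g (fun x => (v x : ℚ))
    have h8 : e.toLinearMap (h82b_P ℚ G X g (fun x => (v x : ℚ))) y =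
        e.toLinearMap (fun x => (v x : ℚ)) (g⁻¹ • y) := by
      show e (h82b_P ℚ G X g (fun x => (v x : ℚ))) y = _
      rw [h7, h82b_P_apply]
      rfl
    rw [h8]

/-- the number of fixed points of `1` is the cardinality. -/
theorem h61z_fix_one (G : Type) [Group G] (X : Type) [MulAction G X] :
    h82b_fix X (1 : G) = Nat.card X := by
  unfold h82b_fix
  exact Nat.card_congr (Equiv.subtypeUnivEquiv fun x => one_smul G x)

/-- **BA-PERM from BA-ZMAP and BA-LATT.** -/
theorem h61z_permAsm : H82bPermAsm := by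
  intro hZ hL p _ G _ _ Ψ hΨ X Y _ _ _ _ hfix
  obtain ⟨f, hinj, hf⟩ := hZ G X Y hfix
  have hcard : Nat.card X = Nat.card Y := by
    rw [← h61z_fix_one G X, ← h61z_fix_one G Y]
    exact hfix 1
  exact hL p G Ψ hΨ X Y hcard f hinj hf

end Fermat.Agent.S56G
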