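import Mathlib
import Fermat.Agent.S56G.BA.Skel

/-!
# S56, block BA: `H82bIso` and the assembly `H82bAsm`
-/

set_option autoImplicit false
set_option linter.style.haveILetI false

noncomputable section

namespace Fermat.Agent.S56G

/-- **BA-ISO.** -/
theorem h82b_iso : H82bIso := by
  intro k _ G _ Φ hΦ
  have hzero : ∀ (V : Type) [AddCommGroup V] [Module k V] [Subsingleton V]
      (ρ : Representation k G V), Φ V ρ = 0 := by
    intro V _ _ _ ρ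
    have h1 := hΦ V V V ρ ρ ρ LinearMap.id LinearMap.id (fun _ _ => rfl) (fun _ _ => rfl)
      Function.injective_id Function.surjective_id (Subsingleton.elim _ _)
    omega
  refine ⟨?_, hzero⟩
  intro V W _ _ _ _ _ ρ σ e he
  have h1 := hΦ V W PUnit ρ σ (Representation.trivial k G PUnit) e.toLinearMap 0 he
    (fun _ _ => rfl) e.injective (fun _ => ⟨0, Subsingleton.elim _ _⟩) (by
      rw [LinearMap.ker_zero]
      exact LinearEquiv.range e)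
  rw [hzero PUnit] at h1
  omega

/-- fixed points on a sigma type -/
theorem h82b_fix_sigma {G : Type} [Group G] {ι : Type} [Fintype ι] (X : ι → Type)
    [∀ i, MulAction G (X i)] [∀ i, Finite (X i)] (g : G) :
    h82b_fix (Σ i, X i) g = ∑ i, h82b_fix (X i) g := by
  unfold h82b_fix
  rw [← Nat.card_sigma]
  refine Nat.card_congr ?_
  refine ⟨fun x => ⟨x.1.1, ⟨x.1.2, ?_⟩⟩, fun y => ⟨⟨y.1, y.2.1⟩, ?_⟩, ?_, ?_⟩
  · have h := x.2
    obtain ⟨⟨i, a⟩, ha⟩ := x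
    simp only [Sigma.smul_mk] at ha
    simpa using ha
  · obtain ⟨i, a, ha⟩ := y
    simp only [Sigma.smul_mk]
    rw [ha]
  · intro x
    rfl
  · intro y
    rfl

theorem h82b_fix_top {G : Type} [Group G] (g : G) :
    h82b_fix (G ⧸ (⊤ : Subgroup G)) g = 1 := by
  unfold h82b_fix
  haveI : Subsingleton (G ⧸ (⊤ : Subgroup G)) := QuotientGroup.subsingleton_quotient_top
  haveI : Unique {x : G ⧸ (⊤ : Subgroup G) // g • x = x} :=
    { default := ⟨(1 : G ⧸ (⊤ : Subgroup G)), Subsingleton.elim _ _⟩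
      uniq := fun _ => Subsingleton.elim _ _ }
  exact Nat.card_unique


/-- **BA-ASM.** -/
theorem h82b_asm : H82bAsm := by
  intro _ hHom hIndRes hSum hPt hArtin hPerm hSq hCyc
  intro p _ G _ _ Φ hΦ hreg hpos V _ _ _ ρ
  have h1 : ∀ C : Subgroup G, IsCyclic ↥C → ¬ p ∣ Nat.card ↥C →
      ∀ (Y : Type) [AddCommGroup Y] [Module (ZMod p) Y] [FiniteDimensional (ZMod p) Y]
        (τ : Representation (ZMod p) ↥C Y), Φ ↥(h47g_indSpace C τ) (h47g_ind C τ) = 0 :=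
    fun C hC hpC => hSq p G Φ hΦ hreg C hpC (hpos C hC hpC)
  have h2 := hCyc p G Φ hΦ h1
  obtain ⟨n, ι₁, ι₂, _, _, C₁, C₂, hn, hC₁, hC₂, hfix⟩ := hArtin G
  obtain ⟨hΨ, hΨP⟩ := hHom (ZMod p) G Φ hΦ V ρ
  -- the two `G`-sets
  have hXY : ∀ g : G, h82b_fix (Σ j : Fin n ⊕ ι₁, G ⧸ (Sum.elim (fun _ => ⊤) C₁ j : Subgroup G)) g =
      h82b_fix (Σ j : ι₂, G ⧸ C₂ j) g := by
    intro g
    rw [h82b_fix_sigma, h82b_fix_sigma, Fintype.sum_sum_type, ← hfix g]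
    have e1 : ∑ a₁ : Fin n, h82b_fix (G ⧸ (Sum.elim (fun _ => (⊤ : Subgroup G)) C₁ (Sum.inl a₁))) g
        = n := by
      have : ∀ a₁ : Fin n, h82b_fix (G ⧸ (Sum.elim (fun _ => (⊤ : Subgroup G)) C₁
          (Sum.inl a₁))) g = 1 := fun _ => h82b_fix_top g
      rw [Finset.sum_congr rfl (fun a _ => this a)]
      simp
    rw [e1]
    rfl
  have h3 := hPerm p G _ hΨ _ _ hXY
  rw [hΨP, hΨP, hSum (ZMod p) G Φ hΦ V ρ, hSum (ZMod p) G Φ hΦ V ρ, Fintype.sum_sum_type] at h3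
  have h3' : ∑ _a₁ : Fin n, Φ ((G ⧸ (⊤ : Subgroup G)) → V) (h82b_F ρ (G ⧸ (⊤ : Subgroup G))) +
      ∑ a₂, Φ ((G ⧸ C₁ a₂) → V) (h82b_F ρ (G ⧸ C₁ a₂)) =
      ∑ i, Φ ((G ⧸ C₂ i) → V) (h82b_F ρ (G ⧸ C₂ i)) := h3
  have h4 : ∀ C : Subgroup G, IsCyclic ↥C →
      Φ ((G ⧸ C) → V) (h82b_F ρ (G ⧸ C)) = 0 := by
    intro C hC
    rw [← hIndRes (ZMod p) G Φ hΦ V ρ C]
    exact h2 C hC V (h82b_res ρ C)
  have e2 : ∑ a₂, Φ ((G ⧸ C₁ a₂) → V) (h82b_F ρ (G ⧸ C₁ a₂)) = 0 :=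
    Finset.sum_eq_zero (fun i _ => h4 (C₁ i) (hC₁ i))
  have e3 : ∑ i, Φ ((G ⧸ C₂ i) → V) (h82b_F ρ (G ⧸ C₂ i)) = 0 :=
    Finset.sum_eq_zero (fun j _ => h4 (C₂ j) (hC₂ j))
  have e4 : ∑ _a₁ : Fin n, Φ ((G ⧸ (⊤ : Subgroup G)) → V) (h82b_F ρ (G ⧸ (⊤ : Subgroup G))) =
      (n : ℤ) * Φ V ρ := by
    rw [hPt (ZMod p) G Φ hΦ V ρ, Finset.sum_const, Finset.card_univ, Fintype.card_fin]
    simp
  rw [e2, e3, e4, add_zero] at h3'
  have h5 : (n : ℤ) * Φ V ρ = 0 := h3'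
  rcases mul_eq_zero.1 h5 with h6 | h6
  · exfalso
    have : n = 0 := by exact_mod_cast h6
    omega
  · exact h6

end Fermat.Agent.S56G
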