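import Mathlib
import Fermat.Agent.S56G.BA.H82Asm
import Fermat.Agent.S56G.BA.H10Iface

/-!
# S56, block BA: the final assembly with `H10Cyclic`

`h82b_asm2 : H82bHom → H82bIndRes → H82bSum → H82bPt → H82bArtin → H82bPerm → H10Cyclic →
  H47BrauerArtin`.
-/

set_option autoImplicit false
set_option linter.style.haveILetI false

noncomputable section

namespace Fermat.Agent.S56G

/-- the two permutation representations agree -/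
theorem h82b_P_eq_perm (k : Type) [CommRing k] (G : Type) [Group G] (X : Type) [MulAction G X] :
    h82b_P k G X = h10b_perm k G X := rfl

/-- **BA-ASM2.** -/
theorem h82b_asm2 (hHom : H82bHom) (hIndRes : H82bIndRes) (hSum : H82bSum) (hPt : H82bPt)
    (hArtin : H82bArtin) (hPerm : H82bPerm) (hCycl : H10Cyclic) : H47BrauerArtin := by
  intro p _ G _ _ Φ hΦ hreg hpos V _ _ _ ρ
  have h2 := hCycl p G Φ hΦ hreg hpos
  obtain ⟨n, ι₁, ι₂, _, _, C₁, C₂, hn, hC₁, hC₂, hfix⟩ := hArtin G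
  obtain ⟨hΨ, hΨP⟩ := hHom (ZMod p) G Φ hΦ V ρ
  have hXY : ∀ g : G, h82b_fix (Σ j : Fin n ⊕ ι₁, G ⧸ (Sum.elim (fun _ => ⊤) C₁ j : Subgroup G)) g =
      h82b_fix (Σ j : ι₂, G ⧸ C₂ j) g := by
    intro g
    rw [h82b_fix_sigma, h82b_fix_sigma, Fintype.sum_sum_type, ← hfix g]
    have e1 : ∑ a₁ : Fin n, h82b_fix (G ⧸ (Sum.elim (fun _ => (⊤ : Subgroup G)) C₁ (Sum.inl a₁))) g
        = n := by
      have : ∀ a₁ : Fin n, h82b_fix (G ⧸ (Sum.elim (fun _ => (⊤ : Subgroup G)) C₁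
          (Sum.inl a₁))) g = 1 := fun _ => h82b_fix_top g
      rw [Finset.sum_congr rfl (fun a _ => this a)]
      simp
    rw [e1]
    rfl
  have h3 := hPerm p G _ hΨ _ _ hXY
  rw [hΨP, hΨP, hSum (ZMod p) G Φ hΦ V ρ, hSum (ZMod p) G Φ hΦ V ρ, Fintype.sum_sum_type] at h3
  have h3' : ∑ _a₁ : Fin n, Φ ((G ⧸ (⊤ : Subgroup G)) → V) (h82b_F ρ (G ⧸ (⊤ : Subgroup G))) +
      ∑ a₂, Φ ((G ⧸ C₁ a₂) → V) (h82b_F ρ (G ⧸ C₁ a₂)) =
      ∑ i, Φ ((G ⧸ C₂ i) → V) (h82b_F ρ (G ⧸ C₂ i)) := h3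
  have h4 : ∀ C : Subgroup G, IsCyclic ↥C →
      Φ ((G ⧸ C) → V) (h82b_F ρ (G ⧸ C)) = 0 := by
    intro C hC
    rw [← hIndRes (ZMod p) G Φ hΦ V ρ C]
    exact h2 C hC V ρ
  have e2 : ∑ a₂, Φ ((G ⧸ C₁ a₂) → V) (h82b_F ρ (G ⧸ C₁ a₂)) = 0 :=
    Finset.sum_eq_zero (fun i _ => h4 (C₁ i) (hC₁ i))
  have e3 : ∑ i, Φ ((G ⧸ C₂ i) → V) (h82b_F ρ (G ⧸ C₂ i)) = 0 :=
    Finset.sum_eq_zero (fun j _ => h4 (C₂ j) (hC₂ j))
  have e4 : ∑ _a₁ : Fin n, Φ ((G ⧸ (⊤ : Subgroup G)) → V) (h82b_F ρ (G ⧸ (⊤ : Subgroup G))) =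
      (n : ℤ) * Φ V ρ := by
    rw [hPt (ZMod p) G Φ hΦ V ρ, Finset.sum_const, Finset.card_univ, Fintype.card_fin]
    simp
  rw [e2, e3, e4, add_zero] at h3'
  rcases mul_eq_zero.1 h3' with h6 | h6
  · exfalso
    have : n = 0 := by exact_mod_cast h6
    omega
  · exact h6

end Fermat.Agent.S56G
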