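import Mathlib
import Fermat.Agent.S56G.BA.H82Asm

/-!
# S56, block BA, leaf BA-HOM (helper87): `theorem h87h_hom : H82bHom`

`V ↦ Φ(Hom_k(V, N))` is additive (`Hom_k(-, N)` is exact over a field) and
`Hom_k(P(X), N) ≅ F(X, N)` for finite `X`.
-/

set_option autoImplicit false

noncomputable section

namespace Fermat.Agent.S56G

section

variable {k : Type} [Field k] {G : Type} [Group G]
variable {N : Type} [AddCommGroup N] [Module k N]

/-- Precomposition is equivariant for the `linHom` representations. -/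
lemma h87h_lcomp_equivariant {V W : Type} [AddCommGroup V] [Module k V] [AddCommGroup W]
    [Module k W] (ρ : Representation k G V) (σ : Representation k G W) (ν : Representation k G N)
    (φ : V →ₗ[k] W) (hφ : ∀ g v, φ (ρ g v) = σ g (φ v)) (g : G) (T : W →ₗ[k] N) :
    LinearMap.lcomp k N φ (σ.linHom ν g T) = ρ.linHom ν g (LinearMap.lcomp k N φ T) := by
  ext v
  simp only [LinearMap.lcomp_apply, Representation.linHom_apply, LinearMap.comp_apply]
  rw [hφ]

/-- `Hom_k(-, N)` is exact: additivity of `V ↦ Φ(Hom_k(V, N))`. -/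
theorem h87h_hom_additive
    (Φ : ∀ (V : Type) [AddCommGroup V] [Module k V], Representation k G V → ℤ)
    (hΦ : h47g_IsAdditive k G Φ) [FiniteDimensional k N] (ν : Representation k G N) :
    h47g_IsAdditive k G (fun V _ _ ρ => Φ (V →ₗ[k] N) (ρ.linHom ν)) := by
  intro V₁ V₂ V₃ _ _ _ _ _ _ _ ρ₁ ρ₂ ρ₃ φ ψ hφ hψ hinj hsurj hex
  have hψφ : ∀ v, ψ (φ v) = 0 := by
    intro v
    have : φ v ∈ LinearMap.ker ψ := hex ▸ LinearMap.mem_range_self φ v
    exact this
  have key := hΦ (V₃ →ₗ[k] N) (V₂ →ₗ[k] N) (V₁ →ₗ[k] N) (ρ₃.linHom ν) (ρ₂.linHom ν)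
    (ρ₁.linHom ν) (LinearMap.lcomp k N ψ) (LinearMap.lcomp k N φ)
    (fun g T => h87h_lcomp_equivariant ρ₂ ρ₃ ν ψ hψ g T)
    (fun g T => h87h_lcomp_equivariant ρ₁ ρ₂ ν φ hφ g T)
    (by
      intro T T' h
      ext w
      obtain ⟨v, rfl⟩ := hsurj w
      have := congrArg (fun S : V₂ →ₗ[k] N => S v) h
      simpa using this)
    (by
      intro S
      obtain ⟨r, hr⟩ := LinearMap.exists_leftInverse_of_injective φ
        (LinearMap.ker_eq_bot.mpr hinj)
      refine ⟨S.comp r, ?_⟩
      ext v
      have := congrArg (fun f : V₁ →ₗ[k] V₁ => f v) hr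
      simp only [LinearMap.comp_apply, LinearMap.id_apply] at this
      simp [LinearMap.lcomp_apply, this])
    (by
      ext T
      simp only [LinearMap.mem_range, LinearMap.mem_ker]
      constructor
      · rintro ⟨T', rfl⟩
        ext v
        simp [LinearMap.lcomp_apply, hψφ]
      · intro hT
        obtain ⟨s, hs⟩ := LinearMap.exists_rightInverse_of_surjective ψ
          (LinearMap.range_eq_top.mpr hsurj)
        refine ⟨T.comp s, ?_⟩
        ext v
        simp only [LinearMap.lcomp_apply, LinearMap.comp_apply]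
        have h1 : ψ (v - s (ψ v)) = 0 := by
          have := congrArg (fun f : V₃ →ₗ[k] V₃ => f (ψ v)) hs
          simp only [LinearMap.comp_apply, LinearMap.id_apply] at this
          rw [map_sub, this, sub_self]
        have h2 : v - s (ψ v) ∈ LinearMap.range φ := by
          rw [hex]
          exact h1
        obtain ⟨u, hu⟩ := h2
        have h3 : T (φ u) = 0 := by
          have := congrArg (fun f : V₁ →ₗ[k] N => f u) hT
          simpa [LinearMap.lcomp_apply] using this
        have h4 : T (v - s (ψ v)) = 0 := by rw [← hu, h3]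
        rw [map_sub, sub_eq_zero] at h4
        exact h4.symm)
  simp only
  rw [key, add_comm]

/-- `Hom_k(P(X), N) ≅ F(X, N)`, `T ↦ (x ↦ T δ_x)`. -/
def h87h_homEquiv (X : Type) [Finite X] : ((X → k) →ₗ[k] N) ≃ₗ[k] (X → N) :=
  ((Pi.basisFun k X).constr k).symm

lemma h87h_homEquiv_apply (X : Type) [Finite X] [DecidableEq X] (T : (X → k) →ₗ[k] N) (x : X) :
    h87h_homEquiv (k := k) (N := N) X T x = T (Pi.single x 1) := by
  have h : ∀ f : X → N, ∀ x, ((Pi.basisFun k X).constr k f) (Pi.single x 1) = f x := by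
    intro f x
    have := (Pi.basisFun k X).constr_basis k f x
    rwa [Pi.basisFun_apply] at this
  have := h (h87h_homEquiv (k := k) (N := N) X T) x
  rw [← this]
  simp [h87h_homEquiv]

lemma h87h_homEquiv_equivariant (ν : Representation k G N) (X : Type) [Finite X]
    [MulAction G X] (g : G) (T : (X → k) →ₗ[k] N) :
    h87h_homEquiv (k := k) (N := N) X ((h82b_P k G X).linHom ν g T) =
      h82b_F ν X g (h87h_homEquiv (k := k) (N := N) X T) := by
  classical
  funext x
  rw [h87h_homEquiv_apply, h82b_F_apply, h87h_homEquiv_apply, Representation.linHom_apply]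
  simp only [LinearMap.comp_apply]
  congr 2
  funext y
  simp only [h82b_P_apply, inv_inv, Pi.single_apply]
  by_cases h : y = g⁻¹ • x
  · subst h
    simp
  · have : g • y ≠ x := by
      intro h'
      apply h
      rw [← h', inv_smul_smul]
    simp [h, this]

end

/-- **BA-HOM.** -/
theorem h87h_hom : H82bHom := by
  intro k _ G _ Φ hΦ N _ _ _ ν
  refine ⟨h87h_hom_additive Φ hΦ ν, ?_⟩
  intro X _ _
  exact (h82b_iso k G Φ hΦ).1 _ _ _ _ (h87h_homEquiv X)
    (fun g T => h87h_homEquiv_equivariant ν X g T)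

end Fermat.Agent.S56G
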