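import Mathlib
import Fermat.Agent.S56G.BA.H82Asm

/-!
# S56, block BA, leaves BA-PT and BA-INDRES (helper87)

* `h87h_pt : H82bPt`:        `Φ(F(G / ⊤, N)) = Φ(N)`;
* `h87h_indRes : H82bIndRes`: `Φ(Ind_C^G Res_C N) = Φ(F(G / C, N))`
  (`f ↦ (g C ↦ ν(g) f(g))`).
-/

set_option autoImplicit false

noncomputable section

namespace Fermat.Agent.S56G

section

variable {k : Type} [Field k] {G : Type} [Group G]
variable {N : Type} [AddCommGroup N] [Module k N]

/-- Evaluation at the point of `G ⧸ ⊤`. -/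
def h87h_ptEquiv : ((G ⧸ (⊤ : Subgroup G)) → N) ≃ₗ[k] N where
  toFun F := F ((1 : G) : G ⧸ (⊤ : Subgroup G))
  map_add' _ _ := rfl
  map_smul' _ _ := rfl
  invFun n := fun _ => n
  left_inv F := by
    funext q
    have : Subsingleton (G ⧸ (⊤ : Subgroup G)) := QuotientGroup.subsingleton_quotient_top
    exact congrArg F (Subsingleton.elim _ _)
  right_inv _ := rfl

lemma h87h_ptEquiv_equivariant (ν : Representation k G N) (g : G)
    (F : (G ⧸ (⊤ : Subgroup G)) → N) :
    h87h_ptEquiv (k := k) (h82b_F ν (G ⧸ (⊤ : Subgroup G)) g F) =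
      ν g (h87h_ptEquiv (k := k) F) := by
  have : Subsingleton (G ⧸ (⊤ : Subgroup G)) := QuotientGroup.subsingleton_quotient_top
  show ν g (F (g⁻¹ • ((1 : G) : G ⧸ (⊤ : Subgroup G)))) = ν g (F ((1 : G) : G ⧸ (⊤ : Subgroup G)))
  exact congrArg (fun q => ν g (F q)) (Subsingleton.elim _ _)

/-- `Ind_C^G Res_C N ≅ F(G / C, N)`, `f ↦ (g C ↦ ν(g) f(g))`. -/
def h87h_indResEquiv (ν : Representation k G N) (C : Subgroup G) :
    ↥(h47g_indSpace C (h82b_res ν C)) ≃ₗ[k] ((G ⧸ C) → N) where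
  toFun f := fun q => Quotient.liftOn' q (fun g => ν g ((f : G → N) g)) (by
    intro a b hab
    have hmem : a⁻¹ * b ∈ C := QuotientGroup.leftRel_apply.mp hab
    have hb : b = a * ((⟨a⁻¹ * b, hmem⟩ : ↥C) : G) := by simp
    have h1 := f.2 a ⟨a⁻¹ * b, hmem⟩
    show ν a ((f : G → N) a) = ν b ((f : G → N) b)
    have h2 : (f : G → N) b = (f : G → N) (a * ((⟨a⁻¹ * b, hmem⟩ : ↥C) : G)) :=
      congrArg (f : G → N) hb
    rw [h2, h1]
    simp only [h82b_res_apply]
    have h3 : ν b = ν a * ν (a⁻¹ * b) := by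
      rw [← map_mul, mul_inv_cancel_left]
    rw [h3]
    simp only [Module.End.mul_apply]
    congr 1
    have h4 : ((⟨a⁻¹ * b, hmem⟩ : ↥C)⁻¹ : ↥C) = ⟨(a⁻¹ * b)⁻¹, C.inv_mem hmem⟩ := rfl
    rw [h4]
    show _ = ν (a⁻¹ * b) (ν ((a⁻¹ * b)⁻¹) ((f : G → N) a))
    rw [← Module.End.mul_apply, ← map_mul, mul_inv_cancel, map_one, Module.End.one_apply])
  map_add' f f' := by
    funext q
    induction q using Quotient.inductionOn' with
    | h g => simp [Quotient.liftOn'_mk'']
  map_smul' a f := by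
    funext q
    induction q using Quotient.inductionOn' with
    | h g => simp [Quotient.liftOn'_mk'']
  invFun F := ⟨fun g => ν g⁻¹ (F (g : G ⧸ C)), by
    intro g c
    have hq : ((g * (c : G) : G) : G ⧸ C) = (g : G ⧸ C) := by
      rw [QuotientGroup.eq]
      simp
    show ν (g * (c : G))⁻¹ (F ((g * (c : G) : G) : G ⧸ C)) = h82b_res ν C c⁻¹ (ν g⁻¹ (F (g : G ⧸ C)))
    rw [hq, h82b_res_apply, ← Module.End.mul_apply, ← map_mul]
    simp [mul_inv_rev]⟩
  left_inv f := by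
    apply Subtype.ext
    funext g
    show ν g⁻¹ (ν g ((f : G → N) g)) = (f : G → N) g
    rw [← Module.End.mul_apply, ← map_mul, inv_mul_cancel, map_one, Module.End.one_apply]
  right_inv F := by
    funext q
    induction q using Quotient.inductionOn' with
    | h g =>
      show ν g (ν g⁻¹ (F (g : G ⧸ C))) = F _
      rw [← Module.End.mul_apply, ← map_mul, mul_inv_cancel, map_one, Module.End.one_apply]

lemma h87h_indResEquiv_mk (ν : Representation k G N) (C : Subgroup G)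
    (f : ↥(h47g_indSpace C (h82b_res ν C))) (g : G) :
    h87h_indResEquiv ν C f (g : G ⧸ C) = ν g ((f : G → N) g) := rfl

lemma h87h_indResEquiv_equivariant (ν : Representation k G N) (C : Subgroup G) (x : G)
    (f : ↥(h47g_indSpace C (h82b_res ν C))) :
    h87h_indResEquiv ν C (h47g_ind C (h82b_res ν C) x f) =
      h82b_F ν (G ⧸ C) x (h87h_indResEquiv ν C f) := by
  funext q
  induction q using Quotient.inductionOn' with
  | h g =>
    have hq : x⁻¹ • ((g : G) : G ⧸ C) = ((x⁻¹ * g : G) : G ⧸ C) := rfl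
    show h87h_indResEquiv ν C (h47g_ind C (h82b_res ν C) x f) ((g : G) : G ⧸ C) =
      h82b_F ν (G ⧸ C) x (h87h_indResEquiv ν C f) ((g : G) : G ⧸ C)
    rw [h82b_F_apply, hq, h87h_indResEquiv_mk, h87h_indResEquiv_mk]
    show ν g (((h47g_ind C (h82b_res ν C) x f : ↥(h47g_indSpace C (h82b_res ν C))) : G → N) g) = _
    rw [h47g_ind_apply, ← Module.End.mul_apply, ← map_mul, mul_inv_cancel_left]

end

/-- **BA-PT.** -/
theorem h87h_pt : H82bPt := by
  intro k _ G _ Φ hΦ N _ _ _ ν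
  exact (h82b_iso k G Φ hΦ).1 _ _ _ _ (h87h_ptEquiv (k := k))
    (fun g F => h87h_ptEquiv_equivariant ν g F)

/-- **BA-INDRES.** -/
theorem h87h_indRes : H82bIndRes := by
  intro k _ G _ _ Φ hΦ N _ _ _ ν C
  exact (h82b_iso k G Φ hΦ).1 _ _ _ _ (h87h_indResEquiv ν C)
    (fun x f => h87h_indResEquiv_equivariant ν C x f)

end Fermat.Agent.S56G
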