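import Mathlib
import Fermat.Agent.S56G.BA.H82Asm

/-!
# S56, block BA, leaf BA-SUM (helper87): `theorem h87h_sum : H82bSum`

`Φ(F(Σ i, X i, N)) = ∑ i, Φ(F(X i, N))`: filtration of `F(Σ i, X i, N)` by the functions
supported on `s ⊆ ι`, induction on `s`.
-/

set_option autoImplicit false

noncomputable section

namespace Fermat.Agent.S56G

section

variable {k : Type} [Field k] {G : Type} [Group G]
variable {N : Type} [AddCommGroup N] [Module k N]
variable {ι : Type} (X : ι → Type) [∀ i, MulAction G (X i)]

/-- The functions on `Σ i, X i` supported on the components in `s`. -/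
def h87h_supp (N : Type) [AddCommGroup N] [Module k N] (s : Finset ι) :
    Submodule k ((Σ i, X i) → N) where
  carrier := {F | ∀ (i : ι) (x : X i), i ∉ s → F ⟨i, x⟩ = 0}
  add_mem' := by
    intro F F' hF hF' i x hi
    simp [hF i x hi, hF' i x hi]
  zero_mem' := by
    intro i x _
    rfl
  smul_mem' := by
    intro a F hF i x hi
    simp [hF i x hi]

lemma h87h_supp_stable (ν : Representation k G N) (s : Finset ι) (g : G) :
    h87h_supp (k := k) X N s ≤ (h87h_supp (k := k) X N s).comap (h82b_F ν (Σ i, X i) g) := by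
  intro F hF i x hi
  show ν g (F (g⁻¹ • (⟨i, x⟩ : Σ i, X i))) = 0
  have : g⁻¹ • (⟨i, x⟩ : Σ i, X i) = ⟨i, g⁻¹ • x⟩ := rfl
  rw [this, hF i _ hi, map_zero]

/-- The representation on the functions supported on `s`. -/
def h87h_suppRep (ν : Representation k G N) (s : Finset ι) :
    Representation k G ↥(h87h_supp (k := k) X N s) :=
  (h82b_F ν (Σ i, X i)).subrepresentation (h87h_supp (k := k) X N s)
    (fun g => h87h_supp_stable X ν s g)

lemma h87h_suppRep_apply (ν : Representation k G N) (s : Finset ι) (g : G)
    (F : ↥(h87h_supp (k := k) X N s)) (y : Σ i, X i) :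
    ((h87h_suppRep X ν s g F : ↥(h87h_supp (k := k) X N s)) : (Σ i, X i) → N) y =
      ν g ((F : (Σ i, X i) → N) (g⁻¹ • y)) := rfl

/-- Restriction to the component `a`. -/
def h87h_restr (N : Type) [AddCommGroup N] [Module k N] (s : Finset ι) (a : ι) :
    ↥(h87h_supp (k := k) X N s) →ₗ[k] (X a → N) where
  toFun F := fun x => (F : (Σ i, X i) → N) ⟨a, x⟩
  map_add' _ _ := rfl
  map_smul' _ _ := rfl

variable [∀ i, Finite (X i)] [Finite ι]

theorem h87h_supp_sum [FiniteDimensional k N]
    (Φ : ∀ (V : Type) [AddCommGroup V] [Module k V], Representation k G V → ℤ)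
    (hΦ : h47g_IsAdditive k G Φ) (ν : Representation k G N) (s : Finset ι) :
    Φ ↥(h87h_supp (k := k) X N s) (h87h_suppRep X ν s) =
      ∑ i ∈ s, Φ (X i → N) (h82b_F ν (X i)) := by
  classical
  induction s using Finset.induction_on with
  | empty =>
    have : Subsingleton ↥(h87h_supp (k := k) X N (∅ : Finset ι)) := by
      refine ⟨fun F F' => Subtype.ext ?_⟩
      funext ⟨i, x⟩
      rw [F.2 i x (Finset.notMem_empty i), F'.2 i x (Finset.notMem_empty i)]
    rw [(h82b_iso k G Φ hΦ).2 _ _, Finset.sum_empty]
  | insert a s ha ih =>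
    have hle : h87h_supp (k := k) X N s ≤ h87h_supp (k := k) X N (insert a s) := by
      intro F hF i x hi
      exact hF i x (fun h => hi (Finset.mem_insert_of_mem h))
    have key := hΦ ↥(h87h_supp (k := k) X N s) ↥(h87h_supp (k := k) X N (insert a s))
      (X a → N) (h87h_suppRep X ν s) (h87h_suppRep X ν (insert a s)) (h82b_F ν (X a))
      (Submodule.inclusion hle) (h87h_restr X N (insert a s) a)
      (fun g F => rfl) (fun g F => rfl)
      (Submodule.inclusion_injective hle)
      (by
        intro f
        refine ⟨⟨fun y => if h : y.1 = a then f (h ▸ y.2) else 0, ?_⟩, ?_⟩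
        · intro i x hi
          have : i ≠ a := fun h => hi (h ▸ Finset.mem_insert_self a s)
          simp [this]
        · funext x
          simp [h87h_restr])
      (by
        ext F
        simp only [LinearMap.mem_range, LinearMap.mem_ker]
        constructor
        · rintro ⟨F', rfl⟩
          funext x
          exact F'.2 a x ha
        · intro hF
          refine ⟨⟨(F : (Σ i, X i) → N), ?_⟩, rfl⟩
          intro i x hi
          by_cases hia : i = a
          · subst hia
            exact congrFun hF x
          · exact F.2 i x (fun h => by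
              rcases Finset.mem_insert.mp h with h | h
              · exact hia h
              · exact hi h))
    rw [key, ih, Finset.sum_insert ha, add_comm]

/-- `Φ(F(Σ i, X i, N)) = ∑ i, Φ(F(X i, N))`. -/
theorem h87h_sigma [Fintype ι] [FiniteDimensional k N]
    (Φ : ∀ (V : Type) [AddCommGroup V] [Module k V], Representation k G V → ℤ)
    (hΦ : h47g_IsAdditive k G Φ) (ν : Representation k G N) :
    Φ ((Σ i, X i) → N) (h82b_F ν (Σ i, X i)) = ∑ i, Φ (X i → N) (h82b_F ν (X i)) := by
  classical
  rw [← h87h_supp_sum X Φ hΦ ν Finset.univ]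
  have htop : h87h_supp (k := k) X N (Finset.univ : Finset ι) = ⊤ := by
    rw [eq_top_iff]
    intro F _ i x hi
    exact absurd (Finset.mem_univ i) hi
  symm
  exact (h82b_iso k G Φ hΦ).1 _ _ _ _ (LinearEquiv.ofTop _ htop) (fun g F => rfl)

end

/-- **BA-SUM.** -/
theorem h87h_sum : H82bSum := by
  intro k _ G _ _ Φ hΦ N _ _ _ ν ι _ D
  exact h87h_sigma (fun i => G ⧸ D i) Φ hΦ ν

end Fermat.Agent.S56G
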