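import Mathlib
import Fermat.Agent.S56G.BA.H82Asm2
import Fermat.Agent.S56G.BA.H87Hom
import Fermat.Agent.S56G.BA.H87Pt
import Fermat.Agent.S56G.BA.H87Sum
import Fermat.Agent.S56G.BA.H1Artin
import Fermat.Agent.S56G.BA.H1QIso
import Fermat.Agent.S56G.BA.H61ZMap
import Fermat.Agent.S56G.BA.H52LatPerm
import Fermat.Agent.S56G.BA.H10Cyc

/-!
# S56, block BA: `H47BrauerArtin`, unconditional (helper87, sub-architect)

All leaves of `S56G/BA/Skel.lean` are proved; `h82b_asm2` assembles them.
-/

set_option autoImplicit false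

namespace Fermat.Agent.S56G

/-- **BA-PERM.** -/
theorem h87h_perm : H82bPerm :=
  h61z_permAsm (h61z_zMapOfQIso h1q_qiso) h52b_latt

/-- **BA (Brauer–Artin squeeze), unconditional.** -/
theorem h87h_brauerArtin : H47BrauerArtin :=
  h82b_asm2 h87h_hom h87h_indRes h87h_sum h87h_pt h1a_artin h87h_perm h10b_cyclic

end Fermat.Agent.S56G
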