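import Fermat.Agent.S56G.BA.H52Lattice

/-!
# S56, block BA (Brauer–Artin squeeze), leaf LATTICE, part 3 (helper52): the lattice lemma

* `h52b_modRep ρΛ` : the representation of `G` on `Λ / p Λ` (`ModN Λ p`);
  `h52b_red_modN` : `Λ → Λ / p Λ` is a reduction datum;
* `h52b_lattice` : **lattice lemma**.  `Ψ` additive on the finite dimensional
  `𝔽_p[G]`-modules, `(Λ₁, V₁)`, `(Λ₂, V₂)` reduction data, `Λ₁` finitely generated without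
  `p`-torsion, `f : Λ₂ → Λ₁` injective equivariant with `N Λ₁ ⊆ f(Λ₂)` for some `N ≠ 0`.
  Then `Ψ V₁ = Ψ V₂`.
-/

set_option autoImplicit false
set_option linter.style.haveILetI false

noncomputable section

namespace Fermat.Agent.S56G

variable {p : ℕ} [Fact p.Prime] {G : Type} [Group G]

section ModN

variable {Λ : Type} [AddCommGroup Λ] (ρΛ : Representation ℤ G Λ)

omit [Fact p.Prime] in
lemma h52b_map_range (g : G) :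
    LinearMap.range (LinearMap.lsmul ℤ Λ (p : ℤ)) ≤
      (LinearMap.range (LinearMap.lsmul ℤ Λ (p : ℤ))).comap (ρΛ g) := by
  rintro _ ⟨x, rfl⟩
  exact ⟨ρΛ g x, by simp⟩

variable (p) in
/-- The representation of `G` on `Λ / p Λ`. -/
def h52b_modRep : Representation (ZMod p) G (ModN Λ p) where
  toFun g := ((LinearMap.range (LinearMap.lsmul ℤ Λ (p : ℤ))).mapQ _ (ρΛ g)
    (h52b_map_range ρΛ g)).toAddMonoidHom.toZModLinearMap p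
  map_one' := by
    refine LinearMap.ext fun v => ?_
    obtain ⟨x, rfl⟩ := Submodule.mkQ_surjective _ v
    simp
  map_mul' g h := by
    refine LinearMap.ext fun v => ?_
    obtain ⟨x, rfl⟩ := Submodule.mkQ_surjective _ v
    simp

lemma h52b_modRep_mk (g : G) (x : Λ) :
    h52b_modRep p ρΛ g (ModN.mkQ p x) = ModN.mkQ p (ρΛ g x) := rfl

/-- `Λ → Λ / p Λ` is a reduction datum. -/
theorem h52b_red_modN : h52b_Red p ρΛ (h52b_modRep p ρΛ) (ModN.mkQ p) where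
  surj := Submodule.mkQ_surjective _
  equivariant g x := (h52b_modRep_mk ρΛ g x).symm
  ker_eq x := by
    show (LinearMap.range (LinearMap.lsmul ℤ Λ (p : ℤ))).mkQ x = 0 ↔ _
    rw [Submodule.mkQ_apply, Submodule.Quotient.mk_eq_zero, LinearMap.mem_range]
    constructor
    · rintro ⟨y, hy⟩
      exact ⟨y, hy.symm⟩
    · rintro ⟨y, hy⟩
      exact ⟨y, hy.symm⟩

instance h52b_finite_modN [Module.Finite ℤ Λ] : FiniteDimensional (ZMod p) (ModN Λ p) :=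
  Module.Finite.of_restrictScalars_finite ℤ (ZMod p) (ModN Λ p)

end ModN

variable (Ψ : ∀ (V : Type) [AddCommGroup V] [Module (ZMod p) V],
  Representation (ZMod p) G V → ℤ)

/-- The lattice lemma for `N = p ^ e * m`, `p ∤ m`. -/
theorem h52b_lattice_aux (hΨ : h47g_IsAdditive (ZMod p) G Ψ) (m : ℕ) (hm : ¬ p ∣ m) :
    ∀ (e : ℕ) (Λ₁ Λ₂ V₁ V₂ : Type) [AddCommGroup Λ₁] [AddCommGroup Λ₂]
      [AddCommGroup V₁] [Module (ZMod p) V₁] [AddCommGroup V₂] [Module (ZMod p) V₂]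
      [Module.Finite ℤ Λ₁] [FiniteDimensional (ZMod p) V₁] [FiniteDimensional (ZMod p) V₂]
      (ρΛ₁ : Representation ℤ G Λ₁) (ρV₁ : Representation (ZMod p) G V₁) (π₁ : Λ₁ →+ V₁)
      (ρΛ₂ : Representation ℤ G Λ₂) (ρV₂ : Representation (ZMod p) G V₂) (π₂ : Λ₂ →+ V₂),
      h52b_Red p ρΛ₁ ρV₁ π₁ → h52b_Red p ρΛ₂ ρV₂ π₂ →
      (∀ z : Λ₁, (p : ℤ) • z = 0 → z = 0) →
      ∀ f : Λ₂ →+ Λ₁, Function.Injective f → (∀ g y, f (ρΛ₂ g y) = ρΛ₁ g (f y)) →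
      (∀ x, ∃ y, f y = ((p ^ e * m : ℕ) : ℤ) • x) → Ψ V₁ ρV₁ = Ψ V₂ ρV₂ := by
  intro e
  induction e with
  | zero =>
    intro Λ₁ Λ₂ V₁ V₂ _ _ _ _ _ _ _ _ _ ρΛ₁ ρV₁ π₁ ρΛ₂ ρV₂ π₂ h₁ h₂ _ f hinj hf hN
    refine h52b_step_coprime Ψ hΨ h₁ h₂ f hinj hf m hm ?_
    intro x
    obtain ⟨y, hy⟩ := hN x
    exact ⟨y, by rw [hy]; simp⟩
  | succ e ih =>
    intro Λ₁ Λ₂ V₁ V₂ _ _ _ _ _ _ _ _ _ ρΛ₁ ρV₁ π₁ ρΛ₂ ρV₂ π₂ h₁ h₂ htf f hinj hf hN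
    -- the intermediate lattice `f(Λ₂) + p Λ₁`
    set Λ' : Submodule ℤ Λ₁ :=
      LinearMap.range f.toIntLinearMap ⊔ LinearMap.range (LinearMap.lsmul ℤ Λ₁ (p : ℤ)) with hΛ'
    have hstab : ∀ g, ∀ v ∈ Λ', ρΛ₁ g v ∈ Λ' := by
      intro g v hv
      obtain ⟨u, ⟨y₀, rfl⟩, w, ⟨x₁, rfl⟩, rfl⟩ := Submodule.mem_sup.mp hv
      rw [map_add]
      refine Submodule.add_mem _ (Submodule.mem_sup_left ⟨ρΛ₂ g y₀, ?_⟩)
        (Submodule.mem_sup_right ⟨ρΛ₁ g x₁, ?_⟩)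
      · exact hf g y₀
      · simp
    let ρ' : Representation ℤ G ↥Λ' := h52b_sub ρΛ₁ Λ' hstab
    have h' : h52b_Red p ρ' (h52b_modRep p ρ') (ModN.mkQ p) := h52b_red_modN ρ'
    -- `Λ₂ → Λ'`
    let f' : Λ₂ →+ ↥Λ' :=
      { toFun := fun y => ⟨f y, Submodule.mem_sup_left ⟨y, rfl⟩⟩
        map_zero' := Subtype.ext (map_zero f)
        map_add' := fun y y' => Subtype.ext (map_add f y y') }
    have hinj' : Function.Injective f' := by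
      intro y y' hyy
      exact hinj (congrArg Subtype.val hyy)
    have hf' : ∀ g y, f' (ρΛ₂ g y) = ρ' g (f' y) := by
      intro g y
      apply Subtype.ext
      exact hf g y
    have hN' : ∀ x : ↥Λ', ∃ y, f' y = ((p ^ e * m : ℕ) : ℤ) • x := by
      rintro ⟨x, hx⟩
      obtain ⟨u, ⟨y₀, rfl⟩, w, ⟨x₁, rfl⟩, rfl⟩ := Submodule.mem_sup.mp hx
      obtain ⟨y₁, hy₁⟩ := hN x₁
      refine ⟨((p ^ e * m : ℕ) : ℤ) • y₀ + y₁, Subtype.ext ?_⟩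
      show f (((p ^ e * m : ℕ) : ℤ) • y₀ + y₁) =
        ((p ^ e * m : ℕ) : ℤ) • (f.toIntLinearMap y₀ + LinearMap.lsmul ℤ Λ₁ (p : ℤ) x₁)
      rw [map_add, map_zsmul, hy₁, smul_add]
      congr 1
      simp only [LinearMap.lsmul_apply, smul_smul]
      congr 1
      push_cast
      ring
    have htf' : ∀ z : ↥Λ', (p : ℤ) • z = 0 → z = 0 := by
      intro z hz
      apply Subtype.ext
      exact htf z (congrArg Subtype.val hz)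
    have e1 : Ψ (ModN ↥Λ' p) (h52b_modRep p ρ') = Ψ V₂ ρV₂ :=
      ih ↥Λ' Λ₂ (ModN ↥Λ' p) V₂ ρ' (h52b_modRep p ρ') (ModN.mkQ p) ρΛ₂ ρV₂ π₂ h' h₂ htf'
        f' hinj' hf' hN'
    -- `Λ' → Λ₁`
    have e2 : Ψ V₁ ρV₁ = Ψ (ModN ↥Λ' p) (h52b_modRep p ρ') := by
      refine h52b_step_p Ψ hΨ h₁ h' htf Λ'.subtype.toAddMonoidHom
        Λ'.injective_subtype (fun g y => rfl) ?_
      intro x
      exact ⟨⟨(p : ℤ) • x, Submodule.mem_sup_right ⟨x, rfl⟩⟩, rfl⟩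
    rw [e2, e1]

/-- **Lattice lemma.** -/
theorem h52b_lattice (hΨ : h47g_IsAdditive (ZMod p) G Ψ)
    {Λ₁ Λ₂ V₁ V₂ : Type} [AddCommGroup Λ₁] [AddCommGroup Λ₂]
    [AddCommGroup V₁] [Module (ZMod p) V₁] [AddCommGroup V₂] [Module (ZMod p) V₂]
    [Module.Finite ℤ Λ₁] [FiniteDimensional (ZMod p) V₁] [FiniteDimensional (ZMod p) V₂]
    {ρΛ₁ : Representation ℤ G Λ₁} {ρV₁ : Representation (ZMod p) G V₁} {π₁ : Λ₁ →+ V₁}
    {ρΛ₂ : Representation ℤ G Λ₂} {ρV₂ : Representation (ZMod p) G V₂} {π₂ : Λ₂ →+ V₂}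
    (h₁ : h52b_Red p ρΛ₁ ρV₁ π₁) (h₂ : h52b_Red p ρΛ₂ ρV₂ π₂)
    (htf : ∀ z : Λ₁, (p : ℤ) • z = 0 → z = 0)
    (f : Λ₂ →+ Λ₁) (hinj : Function.Injective f) (hf : ∀ g y, f (ρΛ₂ g y) = ρΛ₁ g (f y))
    (N : ℕ) (hN0 : N ≠ 0) (hN : ∀ x, ∃ y, f y = (N : ℤ) • x) : Ψ V₁ ρV₁ = Ψ V₂ ρV₂ := by
  have hp : p.Prime := Fact.out
  obtain ⟨e, m, hm, hNem⟩ := Nat.exists_eq_pow_mul_and_not_dvd hN0 p hp.ne_one
  subst hNem
  exact h52b_lattice_aux Ψ hΨ m hm e Λ₁ Λ₂ V₁ V₂ ρΛ₁ ρV₁ π₁ ρΛ₂ ρV₂ π₂ h₁ h₂ htf f hinj hf hN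

end Fermat.Agent.S56G
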