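import Mathlib
import Fermat.Agent.S56G.TateIface

/-!
# S56 / TATE-EC / block BA (sub-architect helper87): frozen interfaces

Target: `H47BrauerArtin` (`S56G/TateIface.lean`).  Pure algebra, Mathlib only.

`Φ` is an additive function on the finite dimensional `𝔽_p[G]`-modules (`h47g_IsAdditive`),
`Φ(reg) = 0` and `Φ(Ind_C^G τ) ≥ 0` for cyclic `C` of order prime to `p`.  Then `Φ = 0`:

* `H87IndAdd`   (BA-IND)  `Φ ∘ Ind_C^G` is additive (induction is exact);
* `H87Squeeze`  (BA-SQ)   `Φ(Ind_C^G τ) = 0` as soon as `Φ(Ind_C^G ·) ≥ 0`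
                          (`0 → τ → Fun(C, Y) → Q → 0`, `Ind_C^G Fun(C, Y) = reg^{dim Y}`);
* `H87CycDev`   (BA-CYC)  `Φ(Ind_B^G W) = 0` for ALL cyclic `B` (`C` = the `p'`-part of `B`,
                          `|B_p| Φ(Ind_B^G W) = Φ(Ind_C^G Res W)`: unipotent filtration);
* `H87Artin`    (BA-ART)  Artin's identity `m + Σ_i #Fix_g(G/B₁ i) = Σ_j #Fix_g(G/B₂ j)`,
                          `B₁ i`, `B₂ j` cyclic, `m > 0`;
* `H87QIso`     (BA-QISO) finite `G`-sets with the same fixed point numbers have isomorphic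
                          permutation representations over `ℚ`;
* `H87Lattice`  (BA-LAT)  LATTICE LEMMA: permutation modules which are isomorphic over `ℚ` have
                          the same value under every additive function on `𝔽_p[G]`-modules;
* `H87Twist`    (BA-TW)   `V ↦ Φ(V ⊗ N)` (or `Φ(Hom(V, N))`) is additive, value `Φ(Fun(X, N))` on the
                          permutation module of `X`;
* `H87Proj`     (BA-PROJ) `Φ(Fun(⊔_i G/H_i, N)) = Σ_i Φ(Ind_{H_i}^G Res N)`;
* assembly `h87b_brauerArtin_of` (`S56G/BA/Asm.lean`).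

Nothing is assumed in this file.
-/

set_option autoImplicit false

noncomputable section

namespace Fermat.Agent.S56G

section Defs

variable (k : Type) [Field k] (G : Type) [Group G]

/-- The permutation representation on the functions `X → k`: `(g f)(x) = f(g⁻¹ x)`. -/
def h87b_perm (X : Type) [MulAction G X] : Representation k G (X → k) where
  toFun g := LinearMap.funLeft k k (fun x : X => g⁻¹ • x)
  map_one' := by
    ext f x
    simp [LinearMap.funLeft_apply]
  map_mul' g h := by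
    ext f x
    simp [LinearMap.funLeft_apply, mul_smul]

@[simp] lemma h87b_perm_apply (X : Type) [MulAction G X] (g : G) (f : X → k) (x : X) :
    h87b_perm k G X g f x = f (g⁻¹ • x) := rfl

lemma h87b_perm_self : h87b_perm k G G = h47g_reg k G := rfl

variable {k G}
variable {N : Type} [AddCommGroup N] [Module k N]

/-- The representation `Fun(X, N)` on the functions `X → N`: `(g F)(x) = ρ(g) (F (g⁻¹ x))`
(`≅ k[X] ⊗ N`). -/
def h87b_fun (X : Type) [MulAction G X] (ρ : Representation k G N) :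
    Representation k G (X → N) where
  toFun g :=
    { toFun := fun F x => ρ g (F (g⁻¹ • x))
      map_add' := by
        intro F F'
        ext x
        simp
      map_smul' := by
        intro a F
        ext x
        simp }
  map_one' := by
    ext F x
    simp
  map_mul' g h := by
    ext F x
    simp [mul_smul]

@[simp] lemma h87b_fun_apply (X : Type) [MulAction G X] (ρ : Representation k G N) (g : G)
    (F : X → N) (x : X) : h87b_fun X ρ g F x = ρ g (F (g⁻¹ • x)) := rfl

end Defs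

/-! ## The frozen leaves -/

/-- **BA-IND.**  Induction is exact: `Φ ∘ Ind_C^G` is additive. -/
def H87IndAdd : Prop :=
  ∀ (k : Type) [Field k] (G : Type) [Group G] [Finite G]
    (Φ : ∀ (V : Type) [AddCommGroup V] [Module k V], Representation k G V → ℤ),
    h47g_IsAdditive k G Φ → ∀ C : Subgroup G,
      h47g_IsAdditive k ↥C (fun _ _ _ τ => Φ ↥(h47g_indSpace C τ) (h47g_ind C τ))

/-- **BA-SQ (squeeze).**  If `Φ(reg) = 0` and `Φ(Ind_C^G τ) ≥ 0` for all `τ` then
`Φ(Ind_C^G τ) = 0` for all `τ` (`C` any subgroup). -/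
def H87Squeeze : Prop :=
  ∀ (k : Type) [Field k] (G : Type) [Group G] [Finite G]
    (Φ : ∀ (V : Type) [AddCommGroup V] [Module k V], Representation k G V → ℤ),
    h47g_IsAdditive k G Φ → Φ (G → k) (h47g_reg k G) = 0 → ∀ C : Subgroup G,
      (∀ (Y : Type) [AddCommGroup Y] [Module k Y] [FiniteDimensional k Y]
        (τ : Representation k ↥C Y), 0 ≤ Φ ↥(h47g_indSpace C τ) (h47g_ind C τ)) →
      ∀ (Y : Type) [AddCommGroup Y] [Module k Y] [FiniteDimensional k Y]
        (τ : Representation k ↥C Y), Φ ↥(h47g_indSpace C τ) (h47g_ind C τ) = 0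

/-- **BA-CYC (cyclic devissage).**  If `Φ ∘ Ind_C^G = 0` for the cyclic subgroups of order prime
to `p` then `Φ ∘ Ind_B^G = 0` for ALL cyclic subgroups `B`. -/
def H87CycDev : Prop :=
  ∀ (p : ℕ) [Fact p.Prime] (G : Type) [Group G] [Finite G]
    (Φ : ∀ (V : Type) [AddCommGroup V] [Module (ZMod p) V], Representation (ZMod p) G V → ℤ),
    h47g_IsAdditive (ZMod p) G Φ →
    (∀ C : Subgroup G, IsCyclic ↥C → ¬ p ∣ Nat.card ↥C →
      ∀ (Y : Type) [AddCommGroup Y] [Module (ZMod p) Y] [FiniteDimensional (ZMod p) Y]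
        (τ : Representation (ZMod p) ↥C Y), Φ ↥(h47g_indSpace C τ) (h47g_ind C τ) = 0) →
    ∀ B : Subgroup G, IsCyclic ↥B →
      ∀ (W : Type) [AddCommGroup W] [Module (ZMod p) W] [FiniteDimensional (ZMod p) W]
        (τ : Representation (ZMod p) ↥B W), Φ ↥(h47g_indSpace B τ) (h47g_ind B τ) = 0

/-- **BA-ART (Artin's identity).**  There are `m > 0` and two finite families of cyclic
subgroups with `m + Σ_i #Fix_g(G/B₁ i) = Σ_j #Fix_g(G/B₂ j)` for all `g ∈ G`. -/
def H87Artin : Prop :=
  ∀ (G : Type) [Group G] [Finite G],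
    ∃ (n₁ n₂ : ℕ) (B₁ : Fin n₁ → Subgroup G) (B₂ : Fin n₂ → Subgroup G) (m : ℕ),
      (∀ i, IsCyclic ↥(B₁ i)) ∧ (∀ j, IsCyclic ↥(B₂ j)) ∧ 0 < m ∧
      ∀ g : G, m + ∑ i, Nat.card ↥(MulAction.fixedBy (G ⧸ B₁ i) g) =
        ∑ j, Nat.card ↥(MulAction.fixedBy (G ⧸ B₂ j) g)

/-- **BA-QISO.**  Finite `G`-sets with the same numbers of fixed points have isomorphic
permutation representations over `ℚ`. -/
def H87QIso : Prop :=
  ∀ (G : Type) [Group G] [Finite G] (X Y : Type) [Finite X] [Finite Y] [MulAction G X]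
    [MulAction G Y],
    (∀ g : G, Nat.card ↥(MulAction.fixedBy X g) = Nat.card ↥(MulAction.fixedBy Y g)) →
    ∃ e : (X → ℚ) ≃ₗ[ℚ] (Y → ℚ), ∀ (g : G) (f : X → ℚ),
      e (h87b_perm ℚ G X g f) = h87b_perm ℚ G Y g (e f)

/-- **BA-LAT (lattice lemma).**  Permutation modules which are isomorphic over `ℚ` have the same
value under every additive function on the `𝔽_p[G]`-modules. -/
def H87Lattice : Prop :=
  ∀ (p : ℕ) [Fact p.Prime] (G : Type) [Group G] [Finite G]
    (Ψ : ∀ (V : Type) [AddCommGroup V] [Module (ZMod p) V], Representation (ZMod p) G V → ℤ),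
    h47g_IsAdditive (ZMod p) G Ψ →
    ∀ (X Y : Type) [Finite X] [Finite Y] [MulAction G X] [MulAction G Y],
      (∃ e : (X → ℚ) ≃ₗ[ℚ] (Y → ℚ), ∀ (g : G) (f : X → ℚ),
        e (h87b_perm ℚ G X g f) = h87b_perm ℚ G Y g (e f)) →
      Ψ (X → ZMod p) (h87b_perm (ZMod p) G X) = Ψ (Y → ZMod p) (h87b_perm (ZMod p) G Y)

/-- **BA-TW (twisting).**  For a finite dimensional `N` there is an additive `Ψ`
(`Ψ(V) = Φ(V ⊗ N)` or `Φ(Hom(V, N))`) with `Ψ(k^X) = Φ(Fun(X, N))` for all finite `G`-sets. -/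
def H87Twist : Prop :=
  ∀ (k : Type) [Field k] (G : Type) [Group G] [Finite G]
    (Φ : ∀ (V : Type) [AddCommGroup V] [Module k V], Representation k G V → ℤ),
    h47g_IsAdditive k G Φ →
    ∀ (N : Type) [AddCommGroup N] [Module k N] [FiniteDimensional k N]
      (ρ : Representation k G N),
      ∃ Ψ : ∀ (V : Type) [AddCommGroup V] [Module k V], Representation k G V → ℤ,
        h47g_IsAdditive k G Ψ ∧
        ∀ (X : Type) [Finite X] [MulAction G X],
          Ψ (X → k) (h87b_perm k G X) = Φ (X → N) (h87b_fun X ρ)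

/-- **BA-PROJ (projection formula).**
`Φ(Fun(⊔_i G/H_i, N)) = Σ_i Φ(Ind_{H_i}^G Res_{H_i} N)`. -/
def H87Proj : Prop :=
  ∀ (k : Type) [Field k] (G : Type) [Group G] [Finite G]
    (Φ : ∀ (V : Type) [AddCommGroup V] [Module k V], Representation k G V → ℤ),
    h47g_IsAdditive k G Φ →
    ∀ (N : Type) [AddCommGroup N] [Module k N] [FiniteDimensional k N]
      (ρ : Representation k G N) (n : ℕ) (H : Fin n → Subgroup G),
      Φ ((Σ i : Fin n, G ⧸ H i) → N) (h87b_fun (Σ i : Fin n, G ⧸ H i) ρ) =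
        ∑ i : Fin n, Φ ↥(h47g_indSpace (H i) (ρ.comp (H i).subtype))
          (h47g_ind (H i) (ρ.comp (H i).subtype))

/-- **BA-TOP.**  `Ind_G^G Res N ≅ N`. -/
def H87Top : Prop :=
  ∀ (k : Type) [Field k] (G : Type) [Group G] [Finite G]
    (Φ : ∀ (V : Type) [AddCommGroup V] [Module k V], Representation k G V → ℤ),
    h47g_IsAdditive k G Φ →
    ∀ (N : Type) [AddCommGroup N] [Module k N] [FiniteDimensional k N]
      (ρ : Representation k G N),
      Φ ↥(h47g_indSpace (⊤ : Subgroup G) (ρ.comp (⊤ : Subgroup G).subtype))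
        (h47g_ind (⊤ : Subgroup G) (ρ.comp (⊤ : Subgroup G).subtype)) = Φ N ρ

end Fermat.Agent.S56G
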