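import Mathlib
import Fermat.Agent.S56G.BA.Iface

/-!
# S56 / TATE-EC / block BA: assembly of `H47BrauerArtin` from the frozen leaves
-/

set_option autoImplicit false

noncomputable section

namespace Fermat.Agent.S56G

/-- Fixed points on a disjoint union. -/
lemma h87b_card_fixedBy_sigma {G : Type} [Group G] {n : ℕ} (X : Fin n → Type)
    [∀ i, MulAction G (X i)] [∀ i, Finite (X i)] (g : G) :
    Nat.card ↥(MulAction.fixedBy (Σ i, X i) g) =
      ∑ i, Nat.card ↥(MulAction.fixedBy (X i) g) := by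
  classical
  have e : ↥(MulAction.fixedBy (Σ i, X i) g) ≃ Σ i, ↥(MulAction.fixedBy (X i) g) :=
    { toFun := fun x => ⟨x.1.1, ⟨x.1.2, by
        have h := x.2
        rw [MulAction.mem_fixedBy] at h ⊢
        have h' : (⟨x.1.1, g • x.1.2⟩ : Σ i, X i) = ⟨x.1.1, x.1.2⟩ := h
        exact eq_of_heq (Sigma.mk.inj h').2⟩⟩
      invFun := fun y => ⟨⟨y.1, y.2.1⟩, by
        have h := y.2.2
        rw [MulAction.mem_fixedBy] at h ⊢
        show (⟨y.1, g • (y.2.1 : X y.1)⟩ : Σ i, X i) = ⟨y.1, y.2.1⟩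
        rw [h]⟩
      left_inv := fun x => rfl
      right_inv := fun y => rfl }
  rw [Nat.card_congr e, Nat.card_sigma]

/-- The one point `G`-set `G ⧸ ⊤`. -/
lemma h87b_card_fixedBy_top {G : Type} [Group G] (g : G) :
    Nat.card ↥(MulAction.fixedBy (G ⧸ (⊤ : Subgroup G)) g) = 1 := by
  have : Subsingleton (G ⧸ (⊤ : Subgroup G)) := QuotientGroup.subsingleton_quotient_top
  have hmem : ((1 : G) : G ⧸ (⊤ : Subgroup G)) ∈ MulAction.fixedBy (G ⧸ (⊤ : Subgroup G)) g :=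
    Subsingleton.elim _ _
  have : Nonempty ↥(MulAction.fixedBy (G ⧸ (⊤ : Subgroup G)) g) := ⟨⟨_, hmem⟩⟩
  exact Nat.card_unique

/-- **BA, assembly.** -/
theorem h87b_brauerArtin_of (hSq : H87Squeeze) (hCyc : H87CycDev) (hArt : H87Artin)
    (hQ : H87QIso) (hLat : H87Lattice) (hTw : H87Twist) (hProj : H87Proj) (hTop : H87Top) :
    H47BrauerArtin := by
  intro p _ G _ _ Φ hadd hreg hpos V _ _ _ ρ
  have h0 : ∀ C : Subgroup G, IsCyclic ↥C → ¬ p ∣ Nat.card ↥C →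
      ∀ (Y : Type) [AddCommGroup Y] [Module (ZMod p) Y] [FiniteDimensional (ZMod p) Y]
        (τ : Representation (ZMod p) ↥C Y), Φ ↥(h47g_indSpace C τ) (h47g_ind C τ) = 0 :=
    fun C hC hp => hSq (ZMod p) G Φ hadd hreg C (hpos C hC hp)
  have h1 := hCyc p G Φ hadd h0
  obtain ⟨n₁, n₂, B₁, B₂, m, hB₁, hB₂, hm, hmark⟩ := hArt G
  obtain ⟨Ψ, hΨ, hΨX⟩ := hTw (ZMod p) G Φ hadd V ρ
  -- the function `H ↦ Φ(Ind_H^G Res V)`
  set F : Subgroup G → ℤ := fun H =>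
    Φ ↥(h47g_indSpace H (ρ.comp H.subtype)) (h47g_ind H (ρ.comp H.subtype)) with hF
  have hFcyc : ∀ B : Subgroup G, IsCyclic ↥B → F B = 0 := fun B hB =>
    h1 B hB V (ρ.comp B.subtype)
  have hFtop : F ⊤ = Φ V ρ := hTop (ZMod p) G Φ hadd V ρ
  set B' : Fin (m + n₁) → Subgroup G := Fin.append (fun _ : Fin m => (⊤ : Subgroup G)) B₁
    with hB'
  have hmarks : ∀ g : G, Nat.card ↥(MulAction.fixedBy (Σ i, G ⧸ B' i) g) =
      Nat.card ↥(MulAction.fixedBy (Σ j, G ⧸ B₂ j) g) := by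
    intro g
    rw [h87b_card_fixedBy_sigma (fun i => G ⧸ B' i) g,
      h87b_card_fixedBy_sigma (fun j => G ⧸ B₂ j) g, ← hmark g, Fin.sum_univ_add]
    congr 1
    · have : ∀ i : Fin m, Nat.card ↥(MulAction.fixedBy (G ⧸ B' (Fin.castAdd n₁ i)) g) = 1 := by
        intro i
        have hi : B' (Fin.castAdd n₁ i) = ⊤ := by simp [hB']
        rw [hi]
        exact h87b_card_fixedBy_top g
      simp [this]
    · refine Finset.sum_congr rfl fun i _ => ?_
      have hi : B' (Fin.natAdd m i) = B₁ i := by simp [hB']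
      rw [hi]
  have hlat := hLat p G Ψ hΨ (Σ i, G ⧸ B' i) (Σ j, G ⧸ B₂ j)
    (hQ G (Σ i, G ⧸ B' i) (Σ j, G ⧸ B₂ j) hmarks)
  rw [hΨX (Σ i, G ⧸ B' i), hΨX (Σ j, G ⧸ B₂ j), hProj (ZMod p) G Φ hadd V ρ (m + n₁) B',
    hProj (ZMod p) G Φ hadd V ρ n₂ B₂] at hlat
  have hL : (∑ i : Fin (m + n₁), F (B' i)) = (m : ℤ) * Φ V ρ := by
    rw [Fin.sum_univ_add]
    have h1' : ∀ i : Fin m, F (B' (Fin.castAdd n₁ i)) = Φ V ρ := by
      intro i
      have hi : B' (Fin.castAdd n₁ i) = ⊤ := by simp [hB']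
      rw [hi, hFtop]
    have h2' : ∀ i : Fin n₁, F (B' (Fin.natAdd m i)) = 0 := by
      intro i
      have hi : B' (Fin.natAdd m i) = B₁ i := by simp [hB']
      rw [hi]
      exact hFcyc _ (hB₁ i)
    simp [h1', h2']
  have hR : (∑ j : Fin n₂, F (B₂ j)) = 0 :=
    Finset.sum_eq_zero fun j _ => hFcyc _ (hB₂ j)
  have hkey : (m : ℤ) * Φ V ρ = 0 := by
    rw [← hL, ← hR]
    exact hlat
  rcases mul_eq_zero.mp hkey with h | h
  · exact absurd (by exact_mod_cast h) hm.ne'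
  · exact h

end Fermat.Agent.S56G
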