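import Mathlib
import Fermat.Agent.S56G.BA.Skel
import Fermat.Agent.S56G.BA.H10Tool

/-!
# S56, block BA, leaf BA-SUM (helper1, prefix `h1s_`)

`h1s_sum : H82bSum`: `Φ(F(Σ i, G / D i, N)) = ∑ i, Φ(F(G / D i, N))`.

For a finite family of finite `G`-sets `X i` and a finset `s` of indices let `W_s` be the
subrepresentation of `F(Σ i, X i, N)` of the functions vanishing outside the indices of `s`.
For `a ∉ s` restriction to `X a` gives a short exact sequence
`0 → W_s → W_{insert a s} → F(X a, N) → 0`; induct on `s`.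
-/

set_option autoImplicit false

open Classical

noncomputable section

namespace Fermat.Agent.S56G

section

variable {k : Type} [Field k] {G : Type} [Group G]
variable {N : Type} [AddCommGroup N] [Module k N]
variable {ι : Type} (X : ι → Type) [∀ i, MulAction G (X i)]

/-- the functions on `Σ i, X i` vanishing outside the indices of `s`. -/
def h1s_W (N : Type) [AddCommGroup N] [Module k N] (s : Finset ι) :
    Submodule k ((Σ i, X i) → N) where
  carrier := {f | ∀ y : Σ i, X i, y.1 ∉ s → f y = 0}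
  add_mem' := fun hf hf' y hy => by
    rw [Pi.add_apply, hf y hy, hf' y hy, add_zero]
  zero_mem' := fun y _ => rfl
  smul_mem' := fun _ _ hf y hy => by
    rw [Pi.smul_apply, hf y hy, smul_zero]

theorem h1s_W_inv (ν : Representation k G N) (s : Finset ι) :
    ∀ g : G, ∀ f ∈ h1s_W (k := k) X N s, h82b_F ν (Σ i, X i) g f ∈ h1s_W (k := k) X N s := by
  intro g f hf y hy
  rw [h82b_F_apply]
  have h1 : (g⁻¹ • y).1 = y.1 := by
    obtain ⟨i, x⟩ := y
    rfl
  rw [hf (g⁻¹ • y) (by rw [h1]; exact hy), map_zero]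

/-- restriction to `X a`. -/
def h1s_restr (N : Type) [AddCommGroup N] [Module k N] (s : Finset ι) (a : ι) :
    ↥(h1s_W (k := k) X N s) →ₗ[k] (X a → N) where
  toFun f := fun x => f.1 ⟨a, x⟩
  map_add' := fun _ _ => rfl
  map_smul' := fun _ _ => rfl

variable {Φ : ∀ (V : Type) [AddCommGroup V] [Module k V], Representation k G V → ℤ}

/-- the induction step. -/
theorem h1s_step [Finite ι] [∀ i, Finite (X i)] [FiniteDimensional k N]
    (hΦ : h47g_IsAdditive k G Φ) (ν : Representation k G N)
    (s : Finset ι) (a : ι) (ha : a ∉ s) :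
    Φ ↥(h1s_W (k := k) X N (insert a s))
        (h10b_res (h82b_F ν (Σ i, X i)) _ (h1s_W_inv X ν (insert a s))) =
      Φ ↥(h1s_W (k := k) X N s) (h10b_res (h82b_F ν (Σ i, X i)) _ (h1s_W_inv X ν s)) +
        Φ (X a → N) (h82b_F ν (X a)) := by
  have hle : h1s_W (k := k) X N s ≤ h1s_W (k := k) X N (insert a s) := by
    intro f hf y hy
    exact hf y (fun h => hy (Finset.mem_insert_of_mem h))
  refine hΦ _ _ _ _ _ _ (Submodule.inclusion hle) (h1s_restr X N (insert a s) a) ?_ ?_
    (Submodule.inclusion_injective hle) ?_ ?_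
  · intro g f
    rfl
  · intro g f
    rfl
  · intro h
    refine ⟨⟨fun y => if hi : y.1 = a then h (hi ▸ y.2) else 0, ?_⟩, ?_⟩
    · intro y hy
      have : y.1 ≠ a := fun h1 => hy (h1 ▸ Finset.mem_insert_self a s)
      show (if hi : y.1 = a then h (hi ▸ y.2) else 0) = 0
      rw [dif_neg this]
    · funext x
      show (if hi : a = a then h (hi ▸ x) else 0) = h x
      rw [dif_pos rfl]
  · ext f
    simp only [LinearMap.mem_range, LinearMap.mem_ker]
    constructor
    · rintro ⟨f', rfl⟩
      funext x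
      exact f'.2 ⟨a, x⟩ ha
    · intro hf
      refine ⟨⟨f.1, ?_⟩, rfl⟩
      intro y hy
      by_cases hya : y.1 = a
      · obtain ⟨i, x⟩ := y
        simp only at hya
        subst hya
        exact congrFun hf x
      · exact f.2 y (fun h => (Finset.mem_insert.mp h).elim hya hy)

/-- the sum over a finset of indices. -/
theorem h1s_sum_finset [Finite ι] [∀ i, Finite (X i)] [FiniteDimensional k N]
    (hΦ : h47g_IsAdditive k G Φ) (ν : Representation k G N) (s : Finset ι) :
    Φ ↥(h1s_W (k := k) X N s) (h10b_res (h82b_F ν (Σ i, X i)) _ (h1s_W_inv X ν s)) =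
      ∑ i ∈ s, Φ (X i → N) (h82b_F ν (X i)) := by
  induction s using Finset.induction_on with
  | empty =>
    have : Subsingleton ↥(h1s_W (k := k) X N (∅ : Finset ι)) := by
      refine ⟨fun f f' => Subtype.ext (funext fun y => ?_)⟩
      rw [f.2 y (Finset.notMem_empty _), f'.2 y (Finset.notMem_empty _)]
    rw [h10b_zero hΦ, Finset.sum_empty]
  | insert a s ha ih =>
    rw [h1s_step X hΦ ν s a ha, ih, Finset.sum_insert ha, add_comm]

/-- **the sum formula for a finite family of finite `G`-sets.** -/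
theorem h1s_sum_family [Fintype ι] [∀ i, Finite (X i)] [FiniteDimensional k N]
    (hΦ : h47g_IsAdditive k G Φ) (ν : Representation k G N) :
    Φ ((Σ i, X i) → N) (h82b_F ν (Σ i, X i)) = ∑ i, Φ (X i → N) (h82b_F ν (X i)) := by
  rw [← h1s_sum_finset X hΦ ν Finset.univ]
  symm
  refine h10b_iso hΦ _ _ (h1s_W (k := k) X N Finset.univ).subtype (fun g f => rfl)
    (Submodule.subtype_injective _) ?_
  intro f
  exact ⟨⟨f, fun y hy => absurd (Finset.mem_univ _) hy⟩, rfl⟩

end

/-- **BA-SUM.** -/
theorem h1s_sum : H82bSum := by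
  intro k _ G _ _ Φ hΦ N _ _ _ ν ι _ D
  exact h1s_sum_family (fun i => G ⧸ D i) hΦ ν

end Fermat.Agent.S56G
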