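import Fermat.Agent.S56G.BA.Skel
import Fermat.Agent.S56G.BA.H10Iface
import Fermat.Agent.S56G.BA.H52LatticeMain

/-!
# S56, block BA (Brauer–Artin squeeze), rows BA-ZMAP, BA-PERMASM, BA-7 (helper49, prefix `h49z_`)

* `h49z_clear` : **clearing denominators**: for a `ℚ`-linear map `e : ℚ^X → ℚ^Y` (`X`, `Y`
  finite) there are `D ≠ 0` and a `ℤ`-linear map `f : ℤ^X → ℤ^Y` with `f v = D • e v`;
* `h49z_zmapOfQIso : H82bZMapOfQIso` (exact frozen Prop of `S56G/BA/Skel.lean`);
* `h49z_permAsm : H82bPermAsm` (exact frozen Prop of `S56G/BA/Skel.lean`);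
* `h49z_red` : the reduction `ℤ^X → 𝔽_p^X` is a reduction datum (`h52b_Red`) for the
  permutation representations;
* `h49z_lattice : H10Lattice` (exact frozen Prop of `S56G/BA/H10Iface.lean`), from the landed
  lattice lemma `h52b_lattice` of helper52.
-/

set_option autoImplicit false
set_option linter.style.haveILetI false

noncomputable section

namespace Fermat.Agent.S56G

/-! ## Clearing denominators -/

/-- the rational vector of an integral vector. -/
def h49z_cast {X : Type} (v : X → ℤ) : X → ℚ := fun x => (v x : ℚ)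

theorem h49z_cast_injective {X : Type} : Function.Injective (h49z_cast (X := X)) := by
  intro v w h
  funext x
  exact Int.cast_injective (congrFun h x)

/-- **Clearing denominators.** -/
theorem h49z_clear {X Y : Type} [Finite X] [Finite Y] (e : (X → ℚ) →ₗ[ℚ] (Y → ℚ)) :
    ∃ (D : ℕ) (f : (X → ℤ) →ₗ[ℤ] (Y → ℤ)), D ≠ 0 ∧
      ∀ v, h49z_cast (f v) = (D : ℚ) • e (h49z_cast v) := by
  classical
  letI : Fintype X := Fintype.ofFinite X
  -- a common denominator of the entries
  obtain ⟨b, hb⟩ := IsLocalization.exist_integer_multiples_of_finite (nonZeroDivisors ℤ)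
    (fun i : X × Y => e (fun j => if i.1 = j then (1 : ℚ) else 0) i.2)
  have hb0 : (b : ℤ) ≠ 0 := nonZeroDivisors.coe_ne_zero b
  choose c hc using hb
  have hc' : ∀ x y, ((c (x, y) : ℤ) : ℚ) =
      ((b : ℤ) : ℚ) * e (fun j => if x = j then (1 : ℚ) else 0) y := by
    intro x y
    have h := hc (x, y)
    rw [zsmul_eq_mul] at h
    exact h
  refine ⟨((b : ℤ) * (b : ℤ)).natAbs,
    ∑ x : X, (LinearMap.proj x : (X → ℤ) →ₗ[ℤ] ℤ).smulRight
      (fun y => (b : ℤ) * c (x, y)), ?_, ?_⟩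
  · exact Int.natAbs_ne_zero.mpr (mul_ne_zero hb0 hb0)
  · intro v
    funext y
    have hD : ((((b : ℤ) * (b : ℤ)).natAbs : ℕ) : ℚ) = ((b : ℤ) : ℚ) * ((b : ℤ) : ℚ) := by
      have h1 : ((((b : ℤ) * (b : ℤ)).natAbs : ℕ) : ℤ) = (b : ℤ) * (b : ℤ) :=
        Int.natAbs_of_nonneg (mul_self_nonneg _)
      have h2 : ((((b : ℤ) * (b : ℤ)).natAbs : ℕ) : ℚ) =
          (((((b : ℤ) * (b : ℤ)).natAbs : ℕ) : ℤ) : ℚ) := (Int.cast_natCast _).symm
      rw [h2, h1, Int.cast_mul]
    have hsum : e (h49z_cast v) y =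
        ∑ x : X, (v x : ℚ) * e (fun j => if x = j then (1 : ℚ) else 0) y := by
      rw [LinearMap.pi_apply_eq_sum_univ e (h49z_cast v), Finset.sum_apply]
      refine Finset.sum_congr rfl fun x _ => ?_
      rw [Pi.smul_apply, smul_eq_mul]
      rfl
    change (((∑ x : X, (LinearMap.proj x : (X → ℤ) →ₗ[ℤ] ℤ).smulRight
      (fun y => (b : ℤ) * c (x, y))) v y : ℤ) : ℚ) =
        (((((b : ℤ) * (b : ℤ)).natAbs : ℕ) : ℚ) • e (h49z_cast v)) y
    rw [LinearMap.sum_apply, Finset.sum_apply, Int.cast_sum, Pi.smul_apply, smul_eq_mul, hD,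
      hsum, Finset.mul_sum]
    refine Finset.sum_congr rfl fun x _ => ?_
    rw [LinearMap.smulRight_apply, LinearMap.proj_apply, Pi.smul_apply, smul_eq_mul,
      Int.cast_mul, Int.cast_mul, hc' x y]
    ring

/-! ## BA-ZMAP -/

theorem h49z_cast_P {G : Type} [Group G] {X : Type} [MulAction G X] (g : G) (v : X → ℤ) :
    h49z_cast (h82b_P ℤ G X g v) = h82b_P ℚ G X g (h49z_cast v) := rfl

/-- **BA-ZMAP from BA-QISO.** -/
theorem h49z_zmapOfQIso : H82bZMapOfQIso := by
  intro hQ G _ _ X Y _ _ _ _ hfix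
  obtain ⟨e, he⟩ := hQ G X Y hfix
  obtain ⟨D, f, hD, hf0⟩ := h49z_clear (e : (X → ℚ) →ₗ[ℚ] (Y → ℚ))
  have hf : ∀ v, h49z_cast (f v) = (D : ℚ) • e (h49z_cast v) := hf0
  have hDQ : (D : ℚ) ≠ 0 := Nat.cast_ne_zero.mpr hD
  refine ⟨f, ?_, ?_⟩
  · -- injective
    rw [injective_iff_map_eq_zero]
    intro v hv
    have h1 : (D : ℚ) • e (h49z_cast v) = 0 := by
      have := hf v
      rw [hv] at this
      rw [← this]
      rfl
    have h2 : e (h49z_cast v) = 0 := (smul_eq_zero.mp h1).resolve_left hDQ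
    have h3 : h49z_cast v = 0 := by
      have := e.injective (h2.trans (map_zero e).symm)
      exact this
    exact h49z_cast_injective (h3.trans rfl)
  · -- equivariant
    intro g v
    apply h49z_cast_injective
    rw [hf, h49z_cast_P, h49z_cast_P, hf, he g (h49z_cast v), map_smul]

/-! ## BA-PERMASM -/

theorem h49z_fix_one {G : Type} [Group G] (X : Type) [MulAction G X] :
    h82b_fix X (1 : G) = Nat.card X := by
  unfold h82b_fix
  exact Nat.card_congr
    { toFun := fun x => x.1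
      invFun := fun x => ⟨x, one_smul G x⟩
      left_inv := fun _ => rfl
      right_inv := fun _ => rfl }

/-- **BA-PERM from BA-ZMAP and BA-LATT.** -/
theorem h49z_permAsm : H82bPermAsm := by
  intro hZ hL p _ G _ _ Ψ hΨ X Y _ _ _ _ hfix
  obtain ⟨f, hinj, hf⟩ := hZ G X Y hfix
  have hcard : Nat.card X = Nat.card Y := by
    rw [← h49z_fix_one (G := G) X, ← h49z_fix_one (G := G) Y]
    exact hfix 1
  exact hL p G Ψ hΨ X Y hcard f hinj hf

/-! ## BA-7: the lattice lemma in permutation form -/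

/-- the reduction `ℤ^X → 𝔽_p^X`. -/
def h49z_redHom (p : ℕ) (X : Type) : (X → ℤ) →+ (X → ZMod p) :=
  (Int.castAddHom (ZMod p)).compLeft X

theorem h49z_redHom_apply (p : ℕ) (X : Type) (v : X → ℤ) (x : X) :
    h49z_redHom p X v x = ((v x : ℤ) : ZMod p) := rfl

/-- the reduction `ℤ^X → 𝔽_p^X` is a reduction datum for the permutation representations. -/
theorem h49z_red (p : ℕ) [Fact p.Prime] (G : Type) [Group G] (X : Type) [MulAction G X] :
    h52b_Red p (h10b_perm ℤ G X) (h10b_perm (ZMod p) G X) (h49z_redHom p X) where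
  surj := by
    intro w
    refine ⟨fun x => (ZMod.intCast_surjective (w x)).choose, ?_⟩
    funext x
    exact (ZMod.intCast_surjective (w x)).choose_spec
  equivariant := fun _ _ => rfl
  ker_eq := by
    intro v
    constructor
    · intro h
      have hdvd : ∀ x, (p : ℤ) ∣ v x := fun x =>
        (ZMod.intCast_zmod_eq_zero_iff_dvd (v x) p).mp (congrFun h x)
      choose w hw using hdvd
      refine ⟨w, ?_⟩
      funext x
      rw [Pi.smul_apply, smul_eq_mul]
      exact hw x
    · rintro ⟨w, rfl⟩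
      funext x
      rw [h49z_redHom_apply, Pi.smul_apply, smul_eq_mul, Int.cast_mul, Int.cast_natCast,
        ZMod.natCast_self, zero_mul]
      rfl

theorem h49z_cast_perm {G : Type} [Group G] {X : Type} [MulAction G X] (g : G) (v : X → ℤ) :
    h49z_cast (h10b_perm ℤ G X g v) = h10b_perm ℚ G X g (h49z_cast v) := rfl

/-- **BA-7 (lattice lemma, permutation form).** -/
theorem h49z_lattice : H10Lattice := by
  intro p _ G _ _ Ψ hΨ X₁ X₂ _ _ _ _ e he
  classical
  have hp : p.Prime := Fact.out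
  -- integral maps in both directions
  obtain ⟨D, f, hD, hf0⟩ := h49z_clear (e.symm : (X₂ → ℚ) →ₗ[ℚ] (X₁ → ℚ))
  obtain ⟨D', f', hD', hf0'⟩ := h49z_clear (e : (X₁ → ℚ) →ₗ[ℚ] (X₂ → ℚ))
  have hf : ∀ v, h49z_cast (f v) = (D : ℚ) • e.symm (h49z_cast v) := hf0
  have hf' : ∀ v, h49z_cast (f' v) = (D' : ℚ) • e (h49z_cast v) := hf0'
  have hDQ : (D : ℚ) ≠ 0 := Nat.cast_ne_zero.mpr hD
  have he' : ∀ (g : G) (w : X₂ → ℚ),
      e.symm (h10b_perm ℚ G X₂ g w) = h10b_perm ℚ G X₁ g (e.symm w) := by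
    intro g w
    apply e.injective
    rw [he, e.apply_symm_apply, e.apply_symm_apply]
  have hinj : Function.Injective f.toAddMonoidHom := by
    rw [injective_iff_map_eq_zero]
    intro v hv
    have hv' : f v = 0 := hv
    have h1 : (D : ℚ) • e.symm (h49z_cast v) = 0 := by
      have := hf v
      rw [hv'] at this
      rw [← this]
      rfl
    have h2 : e.symm (h49z_cast v) = 0 := (smul_eq_zero.mp h1).resolve_left hDQ
    have h3 : h49z_cast v = 0 := e.symm.injective (h2.trans (map_zero e.symm).symm)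
    exact h49z_cast_injective (h3.trans rfl)
  have hequiv : ∀ g y, f.toAddMonoidHom (h10b_perm ℤ G X₂ g y) =
      h10b_perm ℤ G X₁ g (f.toAddMonoidHom y) := by
    intro g y
    apply h49z_cast_injective
    change h49z_cast (f (h10b_perm ℤ G X₂ g y)) = h49z_cast (h10b_perm ℤ G X₁ g (f y))
    rw [hf, h49z_cast_perm, h49z_cast_perm, hf, he' g (h49z_cast y), map_smul]
  have hN : ∀ x : X₁ → ℤ, ∃ y, f.toAddMonoidHom y = ((D * D' : ℕ) : ℤ) • x := by
    intro x
    refine ⟨f' x, ?_⟩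
    apply h49z_cast_injective
    change h49z_cast (f (f' x)) = h49z_cast (((D * D' : ℕ) : ℤ) • x)
    rw [hf, hf', map_smul, e.symm_apply_apply, smul_smul]
    funext i
    change ((D : ℚ) * (D' : ℚ)) * (x i : ℚ) = ((((D * D' : ℕ) : ℤ) * x i : ℤ) : ℚ)
    push_cast
    ring
  have htf : ∀ z : X₁ → ℤ, (p : ℤ) • z = 0 → z = 0 := by
    intro z hz
    funext x
    have h := congrFun hz x
    rw [Pi.smul_apply, smul_eq_mul] at h
    rcases mul_eq_zero.mp h with h0 | h0
    · exact absurd (Int.natCast_eq_zero.mp h0) hp.ne_zero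
    · exact h0
  exact h52b_lattice Ψ hΨ (h49z_red p G X₁) (h49z_red p G X₂) htf f.toAddMonoidHom hinj hequiv
    (D * D') (Nat.mul_ne_zero hD hD') hN

end Fermat.Agent.S56G
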