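import Fermat.Agent.S56G.BA.H52LatPerm

/-!
# S56, block BA, leaf LATTICE, part 5 (helper52): from a `ℚ`-isomorphism

* `h52b_clear` : clearing the denominators of a `ℚ`-linear map `ℚ^X → ℚ^Y`;
* `h52b_perm_eq` : `h10b_perm = h82b_P`;
* `h52b_latt_of_qiso` : an equivariant `ℚ`-isomorphism `ℚ^X ≃ ℚ^Y` gives `Ψ(𝔽_p^X) = Ψ(𝔽_p^Y)`;
* `h52b_lattice10 : H10Lattice` (exact frozen Prop of `S56G/BA/H10Iface.lean`).
-/

set_option autoImplicit false
set_option linter.style.haveILetI false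

open Matrix

noncomputable section

namespace Fermat.Agent.S56G

/-- Clearing denominators. -/
theorem h52b_clear (X Y : Type) [Finite X] [Finite Y] (e : (X → ℚ) →ₗ[ℚ] (Y → ℚ)) :
    ∃ (D : ℕ) (f : (X → ℤ) →ₗ[ℤ] (Y → ℤ)), D ≠ 0 ∧
      ∀ (v : X → ℤ) (y : Y), ((f v y : ℤ) : ℚ) = (D : ℚ) * e (fun x => (v x : ℚ)) y := by
  classical
  haveI := Fintype.ofFinite X
  haveI := Fintype.ofFinite Y
  set E : Matrix Y X ℚ := LinearMap.toMatrix' e with hE
  set D : ℕ := ∏ i, ∏ j, (E i j).den with hD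
  have hD0 : D ≠ 0 := by
    rw [hD]
    exact Finset.prod_ne_zero_iff.mpr fun i _ =>
      Finset.prod_ne_zero_iff.mpr fun j _ => (E i j).den_nz
  have hdvd : ∀ i j, (E i j).den ∣ D := fun i j =>
    (Finset.dvd_prod_of_mem (fun j => (E i j).den) (Finset.mem_univ j)).trans
      (Finset.dvd_prod_of_mem (fun i => ∏ j, (E i j).den) (Finset.mem_univ i))
  have hint : ∀ i j, ∃ n : ℤ, (n : ℚ) = (D : ℚ) * E i j := by
    intro i j
    obtain ⟨c, hc⟩ := hdvd i j
    refine ⟨(c : ℤ) * (E i j).num, ?_⟩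
    have h1 : (E i j) * ((E i j).den : ℚ) = ((E i j).num : ℚ) := Rat.mul_den_eq_num _
    push_cast
    rw [← h1, hc]
    push_cast
    ring
  choose Mz hMz using hint
  refine ⟨D, Matrix.toLin' (Matrix.of Mz), hD0, fun v y => ?_⟩
  have h2 : e (fun x => (v x : ℚ)) = E *ᵥ (fun x => (v x : ℚ)) := by
    rw [hE, ← Matrix.toLin'_apply, Matrix.toLin'_toMatrix']
  rw [h2, Matrix.toLin'_apply]
  simp only [Matrix.mulVec, dotProduct, Matrix.of_apply]
  push_cast
  rw [Finset.mul_sum]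
  refine Finset.sum_congr rfl fun x _ => ?_
  rw [hMz, mul_assoc]

/-- the two definitions of the permutation representation agree. -/
theorem h52b_perm_eq (k : Type) [CommRing k] (G : Type) [Group G] (X : Type) [MulAction G X] :
    h10b_perm k G X = h82b_P k G X := by
  ext g f x
  simp

/-- An equivariant `ℚ`-isomorphism of permutation modules gives `Ψ(𝔽_p^X) = Ψ(𝔽_p^Y)`. -/
theorem h52b_latt_of_qiso (p : ℕ) [Fact p.Prime] (G : Type) [Group G] [Finite G]
    (Ψ : ∀ (V : Type) [AddCommGroup V] [Module (ZMod p) V], Representation (ZMod p) G V → ℤ)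
    (hΨ : h47g_IsAdditive (ZMod p) G Ψ)
    (X Y : Type) [Finite X] [Finite Y] [MulAction G X] [MulAction G Y]
    (e : (X → ℚ) ≃ₗ[ℚ] (Y → ℚ))
    (he : ∀ (g : G) (f : X → ℚ), e (h82b_P ℚ G X g f) = h82b_P ℚ G Y g (e f)) :
    Ψ (X → ZMod p) (h82b_P (ZMod p) G X) = Ψ (Y → ZMod p) (h82b_P (ZMod p) G Y) := by
  classical
  haveI := Fintype.ofFinite X
  haveI := Fintype.ofFinite Y
  have hcard : Nat.card X = Nat.card Y := by
    have h1 := e.finrank_eq
    rw [Module.finrank_fintype_fun_eq_card, Module.finrank_fintype_fun_eq_card] at h1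
    rw [Nat.card_eq_fintype_card, Nat.card_eq_fintype_card, h1]
  obtain ⟨D, f, hD0, hf⟩ := h52b_clear X Y e.toLinearMap
  have hD0' : (D : ℚ) ≠ 0 := by exact_mod_cast hD0
  have hcast_inj : ∀ (Z : Type) (u w : Z → ℤ),
      (fun z => ((u z : ℤ) : ℚ)) = (fun z => ((w z : ℤ) : ℚ)) → u = w := by
    intro Z u w h
    funext z
    exact_mod_cast congrFun h z
  have hf' : ∀ v : X → ℤ, (fun y => ((f v y : ℤ) : ℚ)) = (D : ℚ) • e (fun x => (v x : ℚ)) := by
    intro v
    funext y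
    rw [hf v y]
    rfl
  refine h52b_latt p G Ψ hΨ X Y hcard f ?_ ?_
  · -- injective
    rw [injective_iff_map_eq_zero]
    intro v hv
    have h1 := hf' v
    rw [hv] at h1
    have h2 : e (fun x => (v x : ℚ)) = 0 := by
      have : (D : ℚ) • e (fun x => (v x : ℚ)) = 0 := by
        rw [← h1]
        funext y
        simp
      exact (smul_eq_zero.mp this).resolve_left hD0'
    have h3 : (fun x => (v x : ℚ)) = 0 := by
      have := e.injective (h2.trans (map_zero e).symm)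
      exact this
    exact hcast_inj X v 0 (by rw [h3]; funext x; simp)
  · -- equivariant
    intro g v
    apply hcast_inj
    rw [hf']
    have h1 : (fun x => (((h82b_P ℤ G X) g v x : ℤ) : ℚ))
        = h82b_P ℚ G X g (fun x => (v x : ℚ)) := by
      funext x
      simp
    have h2 : (fun y => (((h82b_P ℤ G Y) g (f v) y : ℤ) : ℚ))
        = h82b_P ℚ G Y g (fun y => ((f v y : ℤ) : ℚ)) := by
      funext y
      simp
    rw [h1, h2, he, hf', map_smul]

/-- **BA-7** (exact frozen Prop of `S56G/BA/H10Iface.lean`). -/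
theorem h52b_lattice10 : H10Lattice := by
  intro p _ G _ _ Ψ hΨ X₁ X₂ _ _ _ _ e he
  rw [h52b_perm_eq (ZMod p) G X₁, h52b_perm_eq (ZMod p) G X₂]
  refine h52b_latt_of_qiso p G Ψ hΨ X₁ X₂ e ?_
  intro g f
  have := he g f
  rwa [h52b_perm_eq ℚ G X₁, h52b_perm_eq ℚ G X₂] at this

end Fermat.Agent.S56G
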