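import Fermat.Agent.S56G.BA.H52Periodic

/-!
# S56, block BA (Brauer–Artin squeeze), leaf LATTICE, part 2 (helper52): the lattice lemma

A *reduction datum* `h52b_Red p ρΛ ρV π` : `π : Λ →+ V` is a surjective `G`-equivariant map from
a `ℤ[G]`-module `Λ` onto an `𝔽_p[G]`-module `V` with kernel `p Λ` (so `V = Λ / p Λ`).

* `h52b_desc` : additive maps from `Λ` to an `𝔽_p`-module descend to `V`;
* `h52b_step_p` : `p Λ₁ ⊆ f(Λ₂)` ⟹ `Ψ V₁ = Ψ V₂` (periodic lemma);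
* `h52b_step_coprime` : `m Λ₁ ⊆ f(Λ₂)`, `m` prime to `p` ⟹ `Ψ V₁ = Ψ V₂` (isomorphism);
* `h52b_modN`, `h52b_red_modN` : the reduction datum `Λ → Λ / p Λ` of any `ℤ[G]`-module;
* `h52b_lattice` : **lattice lemma**: `f : Λ₂ → Λ₁` injective equivariant with
  `N Λ₁ ⊆ f(Λ₂)`, `N ≠ 0` ⟹ `Ψ V₁ = Ψ V₂`, for every additive function `Ψ`.
-/

set_option autoImplicit false
set_option linter.style.haveILetI false

noncomputable section

namespace Fermat.Agent.S56G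

variable {p : ℕ} [Fact p.Prime] {G : Type} [Group G]

/-- A reduction datum: `π : Λ → V` is surjective, equivariant, with kernel `p Λ`. -/
structure h52b_Red (p : ℕ) {G : Type} [Group G] {Λ V : Type} [AddCommGroup Λ] [AddCommGroup V]
    [Module (ZMod p) V] (ρΛ : Representation ℤ G Λ) (ρV : Representation (ZMod p) G V)
    (π : Λ →+ V) : Prop where
  surj : Function.Surjective π
  equivariant : ∀ g x, π (ρΛ g x) = ρV g (π x)
  ker_eq : ∀ x, π x = 0 ↔ ∃ y, x = (p : ℤ) • y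

section Desc

variable {Λ V W : Type} [AddCommGroup Λ] [AddCommGroup V] [Module (ZMod p) V]
  [AddCommGroup W] [Module (ZMod p) W]
  {ρΛ : Representation ℤ G Λ} {ρV : Representation (ZMod p) G V} {π : Λ →+ V}

/-- `p • w = 0` in a `ZMod p`-module. -/
lemma h52b_p_smul (w : W) : (p : ℤ) • w = 0 := by
  have h1 : ((p : ℤ) : ZMod p) • w = 0 := by
    have : ((p : ℤ) : ZMod p) = 0 := by simp
    rw [this, zero_smul]
  rw [← h1, Int.cast_smul_eq_zsmul]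

/-- Additive maps from `Λ` to an `𝔽_p`-module descend to `V`. -/
def h52b_desc (hR : h52b_Red p ρΛ ρV π) (φ : Λ →+ W) : V →ₗ[ZMod p] W :=
  (π.liftOfRightInverse (Function.surjInv hR.surj) (Function.rightInverse_surjInv hR.surj)
    ⟨φ, by
      intro x hx
      rw [AddMonoidHom.mem_ker] at hx ⊢
      obtain ⟨y, rfl⟩ := (hR.ker_eq x).mp hx
      rw [map_zsmul, h52b_p_smul]⟩).toZModLinearMap p

@[simp] lemma h52b_desc_apply (hR : h52b_Red p ρΛ ρV π) (φ : Λ →+ W) (x : Λ) :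
    h52b_desc hR φ (π x) = φ x := by
  simp only [h52b_desc, AddMonoidHom.coe_toZModLinearMap]
  exact AddMonoidHom.liftOfRightInverse_comp_apply _ _ _ _ x

end Desc

section Step

variable {Λ₁ Λ₂ V₁ V₂ : Type} [AddCommGroup Λ₁] [AddCommGroup Λ₂]
  [AddCommGroup V₁] [Module (ZMod p) V₁] [AddCommGroup V₂] [Module (ZMod p) V₂]
  {ρΛ₁ : Representation ℤ G Λ₁} {ρV₁ : Representation (ZMod p) G V₁} {π₁ : Λ₁ →+ V₁}
  {ρΛ₂ : Representation ℤ G Λ₂} {ρV₂ : Representation (ZMod p) G V₂} {π₂ : Λ₂ →+ V₂}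

/-- the map `V₂ → V₁` induced by `f : Λ₂ → Λ₁`. -/
def h52b_up (h₂ : h52b_Red p ρΛ₂ ρV₂ π₂) (π₁ : Λ₁ →+ V₁) (f : Λ₂ →+ Λ₁) : V₂ →ₗ[ZMod p] V₁ :=
  h52b_desc h₂ (π₁.comp f)

lemma h52b_up_apply (h₂ : h52b_Red p ρΛ₂ ρV₂ π₂) (f : Λ₂ →+ Λ₁) (y : Λ₂) :
    h52b_up h₂ π₁ f (π₂ y) = π₁ (f y) := by
  simp [h52b_up]

lemma h52b_up_equivariant (h₁ : h52b_Red p ρΛ₁ ρV₁ π₁) (h₂ : h52b_Red p ρΛ₂ ρV₂ π₂)
    (f : Λ₂ →+ Λ₁) (hf : ∀ g y, f (ρΛ₂ g y) = ρΛ₁ g (f y)) (g : G) (v : V₂) :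
    h52b_up h₂ π₁ f (ρV₂ g v) = ρV₁ g (h52b_up h₂ π₁ f v) := by
  obtain ⟨y, rfl⟩ := h₂.surj v
  rw [← h₂.equivariant, h52b_up_apply, h52b_up_apply, hf, h₁.equivariant]

/-- division by `N` composed with `f⁻¹` : `Λ₁ → Λ₂`, for `N Λ₁ ⊆ f(Λ₂)`. -/
def h52b_div (f : Λ₂ →+ Λ₁) (hinj : Function.Injective f) (N : ℤ)
    (hN : ∀ x, ∃ y, f y = N • x) : Λ₁ →+ Λ₂ where
  toFun x := Classical.choose (hN x)
  map_zero' := by
    apply hinj
    rw [Classical.choose_spec (hN 0), smul_zero, map_zero]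
  map_add' x x' := by
    apply hinj
    rw [Classical.choose_spec (hN (x + x')), map_add, Classical.choose_spec (hN x),
      Classical.choose_spec (hN x'), smul_add]

lemma h52b_div_spec (f : Λ₂ →+ Λ₁) (hinj : Function.Injective f) (N : ℤ)
    (hN : ∀ x, ∃ y, f y = N • x) (x : Λ₁) : f (h52b_div f hinj N hN x) = N • x :=
  Classical.choose_spec (hN x)

lemma h52b_div_f (f : Λ₂ →+ Λ₁) (hinj : Function.Injective f) (N : ℤ)
    (hN : ∀ x, ∃ y, f y = N • x) (y : Λ₂) : h52b_div f hinj N hN (f y) = N • y := by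
  apply hinj
  rw [h52b_div_spec, map_zsmul]

lemma h52b_div_equivariant (f : Λ₂ →+ Λ₁) (hinj : Function.Injective f) (N : ℤ)
    (hN : ∀ x, ∃ y, f y = N • x) (hf : ∀ g y, f (ρΛ₂ g y) = ρΛ₁ g (f y)) (g : G) (x : Λ₁) :
    h52b_div f hinj N hN (ρΛ₁ g x) = ρΛ₂ g (h52b_div f hinj N hN x) := by
  apply hinj
  rw [h52b_div_spec, hf, h52b_div_spec, map_zsmul]

/-- the map `V₁ → V₂` induced by `f⁻¹ ∘ N`. -/
def h52b_down (h₁ : h52b_Red p ρΛ₁ ρV₁ π₁) (π₂ : Λ₂ →+ V₂) (f : Λ₂ →+ Λ₁)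
    (hinj : Function.Injective f) (N : ℤ) (hN : ∀ x, ∃ y, f y = N • x) : V₁ →ₗ[ZMod p] V₂ :=
  h52b_desc h₁ (π₂.comp (h52b_div f hinj N hN))

lemma h52b_down_apply (h₁ : h52b_Red p ρΛ₁ ρV₁ π₁) (f : Λ₂ →+ Λ₁)
    (hinj : Function.Injective f) (N : ℤ) (hN : ∀ x, ∃ y, f y = N • x) (x : Λ₁) :
    h52b_down h₁ π₂ f hinj N hN (π₁ x) = π₂ (h52b_div f hinj N hN x) := by
  simp [h52b_down]

lemma h52b_down_equivariant (h₁ : h52b_Red p ρΛ₁ ρV₁ π₁) (h₂ : h52b_Red p ρΛ₂ ρV₂ π₂)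
    (f : Λ₂ →+ Λ₁) (hinj : Function.Injective f) (N : ℤ) (hN : ∀ x, ∃ y, f y = N • x)
    (hf : ∀ g y, f (ρΛ₂ g y) = ρΛ₁ g (f y)) (g : G) (v : V₁) :
    h52b_down h₁ π₂ f hinj N hN (ρV₁ g v) = ρV₂ g (h52b_down h₁ π₂ f hinj N hN v) := by
  obtain ⟨x, rfl⟩ := h₁.surj v
  rw [← h₁.equivariant, h52b_down_apply, h52b_down_apply,
    h52b_div_equivariant f hinj N hN hf, h₂.equivariant]

variable (Ψ : ∀ (V : Type) [AddCommGroup V] [Module (ZMod p) V],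
  Representation (ZMod p) G V → ℤ)

/-- **One step, `p Λ₁ ⊆ f(Λ₂)`.** -/
theorem h52b_step_p (hΨ : h47g_IsAdditive (ZMod p) G Ψ)
    [FiniteDimensional (ZMod p) V₁] [FiniteDimensional (ZMod p) V₂]
    (h₁ : h52b_Red p ρΛ₁ ρV₁ π₁) (h₂ : h52b_Red p ρΛ₂ ρV₂ π₂)
    (htf : ∀ z : Λ₁, (p : ℤ) • z = 0 → z = 0)
    (f : Λ₂ →+ Λ₁) (hinj : Function.Injective f) (hf : ∀ g y, f (ρΛ₂ g y) = ρΛ₁ g (f y))
    (hN : ∀ x, ∃ y, f y = (p : ℤ) • x) : Ψ V₁ ρV₁ = Ψ V₂ ρV₂ := by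
  refine h52b_periodic Ψ hΨ ρV₁ ρV₂ (h52b_down h₁ π₂ f hinj p hN) (h52b_up h₂ π₁ f)
    (h52b_down_equivariant h₁ h₂ f hinj p hN hf) (h52b_up_equivariant h₁ h₂ f hf) ?_ ?_
  · -- range up = ker down
    apply le_antisymm
    · rintro _ ⟨v, rfl⟩
      obtain ⟨y, rfl⟩ := h₂.surj v
      rw [LinearMap.mem_ker, h52b_up_apply, h52b_down_apply, h52b_div_f, h₂.ker_eq]
      exact ⟨y, rfl⟩
    · intro w hw
      obtain ⟨x, rfl⟩ := h₁.surj w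
      rw [LinearMap.mem_ker, h52b_down_apply, h₂.ker_eq] at hw
      obtain ⟨y', hy'⟩ := hw
      have h3 : (p : ℤ) • (x - f y') = 0 := by
        rw [smul_sub, ← h52b_div_spec f hinj p hN x, hy', map_zsmul, sub_self]
      have h4 : x = f y' := sub_eq_zero.mp (htf _ h3)
      exact ⟨π₂ y', by rw [h52b_up_apply, h4]⟩
  · -- range down = ker up
    apply le_antisymm
    · rintro _ ⟨w, rfl⟩
      obtain ⟨x, rfl⟩ := h₁.surj w
      rw [LinearMap.mem_ker, h52b_down_apply, h52b_up_apply, h52b_div_spec, h₁.ker_eq]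
      exact ⟨x, rfl⟩
    · intro v hv
      obtain ⟨y, rfl⟩ := h₂.surj v
      rw [LinearMap.mem_ker, h52b_up_apply, h₁.ker_eq] at hv
      obtain ⟨x, hx⟩ := hv
      refine ⟨π₁ x, ?_⟩
      rw [h52b_down_apply]
      congr 1
      apply hinj
      rw [h52b_div_spec, hx]

/-- **One step, `m Λ₁ ⊆ f(Λ₂)` with `m` prime to `p`.** -/
theorem h52b_step_coprime (hΨ : h47g_IsAdditive (ZMod p) G Ψ)
    [FiniteDimensional (ZMod p) V₁] [FiniteDimensional (ZMod p) V₂]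
    (h₁ : h52b_Red p ρΛ₁ ρV₁ π₁) (h₂ : h52b_Red p ρΛ₂ ρV₂ π₂)
    (f : Λ₂ →+ Λ₁) (hinj : Function.Injective f) (hf : ∀ g y, f (ρΛ₂ g y) = ρΛ₁ g (f y))
    (m : ℕ) (hm : ¬ p ∣ m) (hN : ∀ x, ∃ y, f y = (m : ℤ) • x) : Ψ V₁ ρV₁ = Ψ V₂ ρV₂ := by
  have hm0 : ((m : ℤ) : ZMod p) ≠ 0 := by
    intro h0
    apply hm
    have : ((m : ℕ) : ZMod p) = 0 := by exact_mod_cast h0
    exact (ZMod.natCast_eq_zero_iff m p).mp this
  have hud : ∀ w : V₁, h52b_up h₂ π₁ f (h52b_down h₁ π₂ f hinj m hN w)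
      = ((m : ℤ) : ZMod p) • w := by
    intro w
    obtain ⟨x, rfl⟩ := h₁.surj w
    rw [h52b_down_apply, h52b_up_apply, h52b_div_spec, map_zsmul, Int.cast_smul_eq_zsmul]
  have hdu : ∀ v : V₂, h52b_down h₁ π₂ f hinj m hN (h52b_up h₂ π₁ f v)
      = ((m : ℤ) : ZMod p) • v := by
    intro v
    obtain ⟨y, rfl⟩ := h₂.surj v
    rw [h52b_up_apply, h52b_down_apply, h52b_div_f, map_zsmul, Int.cast_smul_eq_zsmul]
  symm
  refine h52b_iso Ψ hΨ ρV₂ ρV₁ (h52b_up h₂ π₁ f) (h52b_up_equivariant h₁ h₂ f hf) ⟨?_, ?_⟩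
  · intro v v' hvv
    have := congrArg (h52b_down h₁ π₂ f hinj m hN) hvv
    rw [hdu, hdu] at this
    exact smul_right_injective V₂ hm0 this
  · intro w
    refine ⟨(((m : ℤ) : ZMod p))⁻¹ • h52b_down h₁ π₂ f hinj m hN w, ?_⟩
    rw [map_smul, hud, smul_smul, inv_mul_cancel₀ hm0, one_smul]

end Step

end Fermat.Agent.S56G
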