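import Mathlib
import Fermat.Agent.S56G.TateIface

/-!
# S56, block BA (Brauer–Artin squeeze), leaf LATTICE, part 1 (helper52): additive functions

`Φ` an additive function on the finite dimensional representations of `G` over a field `k`
(`h47g_IsAdditive k G Φ`).

* `h52b_sub ρ W hW` : the restriction of `ρ` to a stable subspace `W`;
* `h52b_add_sub` : `Φ V = Φ W + Φ V₃` for `V → V₃` surjective with kernel `W`;
* `h52b_zero` : `Φ = 0` on zero spaces; `h52b_iso` : `Φ` is invariant under isomorphisms;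
* `h52b_periodic` : **periodic lemma**: `a : V → V'`, `b : V' → V` equivariant with
  `ker a = im b`, `ker b = im a` ⟹ `Φ V = Φ V'`.
-/

set_option autoImplicit false
set_option linter.style.haveILetI false

noncomputable section

namespace Fermat.Agent.S56G

variable {k : Type} [Field k] {G : Type} [Group G]

/-- The restriction of a representation to a stable submodule. -/
def h52b_sub {R : Type} [CommRing R] {V : Type} [AddCommGroup V] [Module R V]
    (ρ : Representation R G V)
    (W : Submodule R V) (hW : ∀ g, ∀ v ∈ W, ρ g v ∈ W) : Representation R G ↥W where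
  toFun g := (ρ g).restrict (hW g)
  map_one' := by
    ext v
    simp
  map_mul' g h := by
    ext v
    simp

@[simp] lemma h52b_sub_coe {R : Type} [CommRing R] {V : Type} [AddCommGroup V] [Module R V]
    (ρ : Representation R G V)
    (W : Submodule R V) (hW : ∀ g, ∀ v ∈ W, ρ g v ∈ W) (g : G) (w : ↥W) :
    ((h52b_sub ρ W hW g w : ↥W) : V) = ρ g (w : V) := rfl

variable (Φ : ∀ (V : Type) [AddCommGroup V] [Module k V], Representation k G V → ℤ)

/-- `Φ V = Φ W + Φ V₃` for `ψ : V → V₃` surjective equivariant with kernel `W`. -/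
theorem h52b_add_sub (hΦ : h47g_IsAdditive k G Φ)
    {V V₃ : Type} [AddCommGroup V] [Module k V] [AddCommGroup V₃] [Module k V₃]
    [FiniteDimensional k V] (ρ : Representation k G V) (ρ₃ : Representation k G V₃)
    (W : Submodule k V) (hW : ∀ g, ∀ v ∈ W, ρ g v ∈ W) (ψ : V →ₗ[k] V₃)
    (hψ : ∀ g v, ψ (ρ g v) = ρ₃ g (ψ v)) (hsurj : Function.Surjective ψ)
    (hker : LinearMap.ker ψ = W) :
    Φ V ρ = Φ ↥W (h52b_sub ρ W hW) + Φ V₃ ρ₃ :=
  hΦ ↥W V V₃ (h52b_sub ρ W hW) ρ ρ₃ W.subtype ψ (fun _ _ => rfl) hψ W.injective_subtype hsurj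
    (by rw [Submodule.range_subtype, hker])

/-- **Periodic lemma.** -/
theorem h52b_periodic (hΦ : h47g_IsAdditive k G Φ)
    {V V' : Type} [AddCommGroup V] [Module k V] [AddCommGroup V'] [Module k V']
    [FiniteDimensional k V] [FiniteDimensional k V']
    (ρ : Representation k G V) (ρ' : Representation k G V')
    (a : V →ₗ[k] V') (b : V' →ₗ[k] V)
    (ha : ∀ g v, a (ρ g v) = ρ' g (a v)) (hb : ∀ g v, b (ρ' g v) = ρ g (b v))
    (hab : LinearMap.range b = LinearMap.ker a) (hba : LinearMap.range a = LinearMap.ker b) :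
    Φ V ρ = Φ V' ρ' := by
  have hKa : ∀ g, ∀ v ∈ LinearMap.ker a, ρ g v ∈ LinearMap.ker a := by
    intro g v hv
    rw [LinearMap.mem_ker] at hv ⊢
    rw [ha, hv, map_zero]
  have hKb : ∀ g, ∀ v ∈ LinearMap.ker b, ρ' g v ∈ LinearMap.ker b := by
    intro g v hv
    rw [LinearMap.mem_ker] at hv ⊢
    rw [hb, hv, map_zero]
  -- `V → ker b`
  let ψ₁ : V →ₗ[k] ↥(LinearMap.ker b) :=
    a.codRestrict (LinearMap.ker b) (fun v => by rw [← hba]; exact LinearMap.mem_range_self a v)
  have h1 : Φ V ρ = Φ ↥(LinearMap.ker a) (h52b_sub ρ _ hKa)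
      + Φ ↥(LinearMap.ker b) (h52b_sub ρ' _ hKb) := by
    refine h52b_add_sub Φ hΦ ρ (h52b_sub ρ' _ hKb) (LinearMap.ker a) hKa ψ₁ ?_ ?_ ?_
    · intro g v
      apply Subtype.ext
      exact ha g v
    · rintro ⟨w, hw⟩
      rw [← hba] at hw
      obtain ⟨v, rfl⟩ := hw
      exact ⟨v, Subtype.ext rfl⟩
    · ext v
      simp only [LinearMap.mem_ker, ψ₁]
      constructor
      · intro h
        exact congrArg Subtype.val h
      · intro h
        exact Subtype.ext h
  let ψ₂ : V' →ₗ[k] ↥(LinearMap.ker a) :=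
    b.codRestrict (LinearMap.ker a) (fun v => by rw [← hab]; exact LinearMap.mem_range_self b v)
  have h2 : Φ V' ρ' = Φ ↥(LinearMap.ker b) (h52b_sub ρ' _ hKb)
      + Φ ↥(LinearMap.ker a) (h52b_sub ρ _ hKa) := by
    refine h52b_add_sub Φ hΦ ρ' (h52b_sub ρ _ hKa) (LinearMap.ker b) hKb ψ₂ ?_ ?_ ?_
    · intro g v
      apply Subtype.ext
      exact hb g v
    · rintro ⟨w, hw⟩
      rw [← hab] at hw
      obtain ⟨v, rfl⟩ := hw
      exact ⟨v, Subtype.ext rfl⟩
    · ext v
      simp only [LinearMap.mem_ker, ψ₂]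
      constructor
      · intro h
        exact congrArg Subtype.val h
      · intro h
        exact Subtype.ext h
  rw [h1, h2, add_comm]

/-- `Φ` is invariant under equivariant bijections. -/
theorem h52b_iso (hΦ : h47g_IsAdditive k G Φ)
    {V V' : Type} [AddCommGroup V] [Module k V] [AddCommGroup V'] [Module k V']
    [FiniteDimensional k V] [FiniteDimensional k V']
    (ρ : Representation k G V) (ρ' : Representation k G V')
    (a : V →ₗ[k] V') (ha : ∀ g v, a (ρ g v) = ρ' g (a v)) (hbij : Function.Bijective a) :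
    Φ V ρ = Φ V' ρ' := by
  refine h52b_periodic Φ hΦ ρ ρ' a 0 ha (fun g v => by simp) ?_ ?_
  · rw [LinearMap.range_zero]
    exact (LinearMap.ker_eq_bot.mpr hbij.1).symm
  · rw [LinearMap.range_eq_top.mpr hbij.2, LinearMap.ker_zero]

end Fermat.Agent.S56G
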