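import Fermat.Agent.S56G.BA.Skel

/-!
# S56, block BA, row BA-CYC (helper57): `H82bCycOfStep`

`Φ(Ind_B^G τ) = 0` for every cyclic `B`, from the step `Φ(Ind_{B'} Res τ) = p Φ(Ind_B τ)`
(`B' = ⟨b₀ ^ p⟩ ≤ B = ⟨b₀⟩` when `p ∣ #B`) by strong induction on `#B`.
-/

set_option autoImplicit false

noncomputable section

namespace Fermat.Agent.S56G

/-- the subgroup generated by the `p`-th power of a generator: the data of the step. -/
theorem h57c_chain (p : ℕ) (hp : p.Prime) {G : Type} [Group G] [Finite G] (B : Subgroup G)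
    (b₀ : G) (hb₀ : b₀ ∈ B) (hgen : ∀ b ∈ B, b ∈ Subgroup.zpowers b₀) (hpB : p ∣ Nat.card ↥B) :
    Subgroup.zpowers (b₀ ^ p) ≤ B ∧ b₀ ∉ Subgroup.zpowers (b₀ ^ p) ∧
      b₀ ^ p ∈ Subgroup.zpowers (b₀ ^ p) ∧
      (∀ b' ∈ Subgroup.zpowers (b₀ ^ p), b₀⁻¹ * b' * b₀ ∈ Subgroup.zpowers (b₀ ^ p)) ∧
      (∀ b ∈ B, ∃ j : ℕ, ∃ b' ∈ Subgroup.zpowers (b₀ ^ p), b = b₀ ^ j * b') ∧
      Nat.card ↥(Subgroup.zpowers (b₀ ^ p)) < Nat.card ↥B := by
  have hBeq : B = Subgroup.zpowers b₀ :=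
    le_antisymm hgen ((Subgroup.zpowers_le).mpr hb₀)
  have hcard : Nat.card ↥B = orderOf b₀ := by
    rw [hBeq, Nat.card_zpowers]
  have hfin : IsOfFinOrder b₀ := isOfFinOrder_of_finite b₀
  have hpos : 0 < orderOf b₀ := hfin.orderOf_pos
  have hpo : p ∣ orderOf b₀ := hcard ▸ hpB
  have hord : orderOf (b₀ ^ p) = orderOf b₀ / p := by
    rw [orderOf_pow' b₀ hp.ne_zero, Nat.gcd_eq_right hpo]
  have hlt : Nat.card ↥(Subgroup.zpowers (b₀ ^ p)) < Nat.card ↥B := by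
    rw [Nat.card_zpowers, hord, hcard]
    exact Nat.div_lt_self hpos hp.one_lt
  have hle : Subgroup.zpowers (b₀ ^ p) ≤ B :=
    (Subgroup.zpowers_le).mpr (B.pow_mem hb₀ p)
  refine ⟨hle, ?_, Subgroup.mem_zpowers _, ?_, ?_, hlt⟩
  · intro hmem
    have h1 : Subgroup.zpowers b₀ ≤ Subgroup.zpowers (b₀ ^ p) := (Subgroup.zpowers_le).mpr hmem
    have h2 : B ≤ Subgroup.zpowers (b₀ ^ p) := hBeq ▸ h1
    have h3 : Nat.card ↥B ≤ Nat.card ↥(Subgroup.zpowers (b₀ ^ p)) :=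
      Nat.card_le_card_of_injective (Subgroup.inclusion h2) (Subgroup.inclusion_injective h2)
    omega
  · intro b' hb'
    obtain ⟨n, rfl⟩ := Subgroup.mem_zpowers_iff.mp hb'
    have hc : Commute b₀ ((b₀ ^ p) ^ n) := ((Commute.refl b₀).pow_right p).zpow_right n
    have h1 : b₀⁻¹ * (b₀ ^ p) ^ n * b₀ = (b₀ ^ p) ^ n := by
      rw [mul_assoc, ← hc.eq, inv_mul_cancel_left]
    rw [h1]
    exact Subgroup.mem_zpowers_iff.mpr ⟨n, rfl⟩
  · intro b hb
    have h1 : b ∈ Submonoid.powers b₀ := (hfin.mem_powers_iff_mem_zpowers).mpr (hgen b hb)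
    obtain ⟨j, rfl⟩ := h1
    exact ⟨j, 1, one_mem _, (mul_one _).symm⟩

/-- **BA-CYC from BA-STEP.** -/
theorem h57c_cycOfStep : H82bCycOfStep := by
  intro hStep p _ G _ _ Φ hΦ h0
  have hp : p.Prime := Fact.out
  have key : ∀ n : ℕ, ∀ B : Subgroup G, IsCyclic ↥B → Nat.card ↥B = n →
      ∀ (W : Type) [AddCommGroup W] [Module (ZMod p) W] [FiniteDimensional (ZMod p) W]
        (τ : Representation (ZMod p) ↥B W), Φ ↥(h47g_indSpace B τ) (h47g_ind B τ) = 0 := by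
    intro n
    induction n using Nat.strong_induction_on with
    | _ n ih =>
      intro B hB hn W _ _ _ τ
      by_cases hpB : p ∣ Nat.card ↥B
      · obtain ⟨g, hg⟩ := hB.exists_generator
        have hgen : ∀ b ∈ B, b ∈ Subgroup.zpowers (g : G) := by
          intro b hb
          obtain ⟨z, hz⟩ := Subgroup.mem_zpowers_iff.mp (hg ⟨b, hb⟩)
          refine Subgroup.mem_zpowers_iff.mpr ⟨z, ?_⟩
          have := congrArg Subtype.val hz
          simpa using this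
        obtain ⟨hle, hnot, hpow, hnorm, hdec, hlt⟩ := h57c_chain p hp B (g : G) g.2 hgen hpB
        have h1 := hStep p G Φ hΦ (Subgroup.zpowers ((g : G) ^ p)) B hle (g : G) g.2 hnot hpow
          hnorm hdec W τ
        have hcyc : IsCyclic ↥(Subgroup.zpowers ((g : G) ^ p)) := inferInstance
        have h2 := ih _ (hn ▸ hlt) (Subgroup.zpowers ((g : G) ^ p)) hcyc rfl W
          (τ.comp (Subgroup.inclusion hle))
        rw [h2] at h1
        have hp0 : (p : ℤ) ≠ 0 := by exact_mod_cast hp.ne_zero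
        rcases mul_eq_zero.mp h1.symm with h | h
        · exact absurd h hp0
        · exact h
      · exact h0 B hB hpB W τ
  intro B hB W _ _ _ τ
  exact key _ B hB rfl W τ

end Fermat.Agent.S56G
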