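import Mathlib
import Fermat.Agent.S56G.BA.H82Asm

/-!
# S56, block BA: the glue leaves `H82bPt`, `H82bIndRes`, `H82bHom`
-/

set_option autoImplicit false
set_option linter.style.haveILetI false

noncomputable section

namespace Fermat.Agent.S56G

/-- **BA-PT.** -/
theorem h82b_pt : H82bPt := by
  intro k _ G _ Φ hΦ N _ _ _ ν
  haveI : Subsingleton (G ⧸ (⊤ : Subgroup G)) := QuotientGroup.subsingleton_quotient_top
  haveI : Unique (G ⧸ (⊤ : Subgroup G)) :=
    { default := ((1 : G) : G ⧸ (⊤ : Subgroup G))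
      uniq := fun _ => Subsingleton.elim _ _ }
  refine (h82b_iso k G Φ hΦ).1 _ _ _ _ (LinearEquiv.funUnique (G ⧸ (⊤ : Subgroup G)) k N) ?_
  intro g f
  simp only [LinearEquiv.funUnique_apply, Function.eval, h82b_F_apply]
  congr 2
  exact Subsingleton.elim _ _

/-- the linear equivalence `Ind_C^G Res_C N ≃ F(G / C, N)` -/
def h82b_indResEquiv {k : Type} [Field k] {G : Type} [Group G] {N : Type} [AddCommGroup N]
    [Module k N] (ν : Representation k G N) (C : Subgroup G) :
    ↥(h47g_indSpace C (h82b_res ν C)) ≃ₗ[k] ((G ⧸ C) → N) where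
  toFun f := fun q => Quotient.liftOn' q (fun g => ν g ((f : G → N) g)) (by
    intro a b hab
    have hc : a⁻¹ * b ∈ C := QuotientGroup.leftRel_apply.1 hab
    have h1 := f.2 a ⟨a⁻¹ * b, hc⟩
    have h2 : a * (a⁻¹ * b) = b := by group
    simp only [h2] at h1
    show ν a ((f : G → N) a) = ν b ((f : G → N) b)
    rw [h1]
    simp only [h82b_res_apply, Subgroup.coe_inv]
    rw [← Module.End.mul_apply, ← map_mul]
    have h3 : b * (a⁻¹ * b)⁻¹ = a := by group
    rw [h3])
  map_add' f f' := by
    funext q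
    induction q using Quotient.inductionOn' with
    | h g => simp [Quotient.liftOn'_mk'']
  map_smul' a f := by
    funext q
    induction q using Quotient.inductionOn' with
    | h g => simp [Quotient.liftOn'_mk'']
  invFun F := ⟨fun g => ν g⁻¹ (F (g : G ⧸ C)), by
    intro g c
    simp only [h82b_res_apply, Subgroup.coe_inv]
    have h1 : ((g * (c : G) : G) : G ⧸ C) = (g : G ⧸ C) := by
      rw [QuotientGroup.eq]
      simp
    rw [h1, mul_inv_rev, map_mul]
    rfl⟩
  left_inv f := by
    apply Subtype.ext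
    funext g
    show ν g⁻¹ (ν g ((f : G → N) g)) = (f : G → N) g
    rw [← Module.End.mul_apply, ← map_mul, inv_mul_cancel, map_one]
    rfl
  right_inv F := by
    funext q
    induction q using Quotient.inductionOn' with
    | h g =>
      show ν g (ν g⁻¹ (F (g : G ⧸ C))) = F _
      rw [← Module.End.mul_apply, ← map_mul, mul_inv_cancel, map_one]
      rfl

/-- **BA-INDRES.** -/
theorem h82b_indRes : H82bIndRes := by
  intro k _ G _ _ Φ hΦ N _ _ _ ν C
  refine (h82b_iso k G Φ hΦ).1 _ _ _ _ (h82b_indResEquiv ν C) ?_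
  intro s f
  funext q
  induction q using Quotient.inductionOn' with
  | h g =>
    show ν g ((f : G → N) (s⁻¹ * g)) = ν s (ν (s⁻¹ * g) ((f : G → N) (s⁻¹ * g)))
    rw [← Module.End.mul_apply, ← map_mul]
    have : s * (s⁻¹ * g) = g := by group
    rw [this]

/-- **BA-HOM.** -/
theorem h82b_hom : H82bHom := by
  intro k _ G _ Φ hΦ N _ _ _ ν
  refine ⟨?_, ?_⟩
  · intro V₁ V₂ V₃ _ _ _ _ _ _ _ ρ₁ ρ₂ ρ₃ φ ψ hφ hψ hinj hsurj hex
    have hφ' : ∀ g, φ ∘ₗ ρ₁ g = ρ₂ g ∘ₗ φ := fun g => LinearMap.ext (hφ g)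
    have hψ' : ∀ g, ψ ∘ₗ ρ₂ g = ρ₃ g ∘ₗ ψ := fun g => LinearMap.ext (hψ g)
    have h := hΦ (V₃ →ₗ[k] N) (V₂ →ₗ[k] N) (V₁ →ₗ[k] N) (ρ₃.linHom ν) (ρ₂.linHom ν)
      (ρ₁.linHom ν) (LinearMap.lcomp k N ψ) (LinearMap.lcomp k N φ) ?_ ?_ ?_ ?_ ?_
    · show Φ (V₂ →ₗ[k] N) (ρ₂.linHom ν) = Φ (V₁ →ₗ[k] N) (ρ₁.linHom ν) + Φ (V₃ →ₗ[k] N) (ρ₃.linHom ν)
      rw [h, add_comm]
    · intro g h
      simp only [Representation.linHom_apply, LinearMap.lcomp_apply']
      rw [LinearMap.comp_assoc, LinearMap.comp_assoc, LinearMap.comp_assoc, hψ']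
    · intro g h
      simp only [Representation.linHom_apply, LinearMap.lcomp_apply']
      rw [LinearMap.comp_assoc, LinearMap.comp_assoc, LinearMap.comp_assoc, hφ']
    · intro h h' hh
      ext v
      obtain ⟨w, rfl⟩ := hsurj v
      have := congrArg (fun (t : V₂ →ₗ[k] N) => t w) hh
      simpa using this
    · intro h
      obtain ⟨r, hr⟩ := φ.exists_leftInverse_of_injective (LinearMap.ker_eq_bot.2 hinj)
      refine ⟨h ∘ₗ r, ?_⟩
      simp only [LinearMap.lcomp_apply']
      rw [LinearMap.comp_assoc, hr, LinearMap.comp_id]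
    · ext h
      simp only [LinearMap.mem_range, LinearMap.mem_ker, LinearMap.lcomp_apply']
      constructor
      · rintro ⟨h', rfl⟩
        ext v
        have : ψ (φ v) = 0 := by
          have : φ v ∈ LinearMap.ker ψ := by
            rw [← hex]
            exact LinearMap.mem_range_self _ _
          exact this
        simp [this]
      · intro hh
        obtain ⟨s, hs⟩ := ψ.exists_rightInverse_of_surjective (LinearMap.range_eq_top.2 hsurj)
        refine ⟨h ∘ₗ s, ?_⟩
        ext v
        simp only [LinearMap.comp_apply]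
        have h1 : s (ψ v) - v ∈ LinearMap.ker ψ := by
          rw [LinearMap.mem_ker, map_sub]
          have := congrArg (fun (t : V₃ →ₗ[k] V₃) => t (ψ v)) hs
          simp only [LinearMap.comp_apply, LinearMap.id_apply] at this
          rw [this, sub_self]
        rw [← hex] at h1
        obtain ⟨w, hw⟩ := h1
        have h2 : h (φ w) = 0 := by
          have := congrArg (fun (t : V₁ →ₗ[k] N) => t w) hh
          simpa using this
        rw [hw, map_sub] at h2
        exact sub_eq_zero.1 h2
  · intro X _ _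
    haveI : Fintype X := Fintype.ofFinite X
    haveI : DecidableEq X := Classical.decEq X
    refine (h82b_iso k G Φ hΦ).1 _ _ _ _ ((Pi.basisFun k X).constr k).symm ?_
    intro g h
    funext x
    have e1 : ∀ (t : (X → k) →ₗ[k] N) (y : X),
        ((Pi.basisFun k X).constr k).symm t y = t (Pi.single y 1) := by
      intro t y
      rw [Module.Basis.constr_symm_apply]
      simp [Pi.basisFun_apply]
    rw [e1, h82b_F_apply, e1]
    simp only [Representation.linHom_apply, LinearMap.comp_apply]
    congr 2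
    funext y
    simp only [h82b_P_apply, inv_inv, Pi.single_apply]
    by_cases hy : g • y = x
    · have : y = g⁻¹ • x := by rw [← hy, inv_smul_smul]
      simp [this]
    · have : ¬ y = g⁻¹ • x := fun h0 => hy (by rw [h0, smul_inv_smul])
      simp [hy, this]

end Fermat.Agent.S56G
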