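import Mathlib
import Fermat.Agent.S56G.BA.H82Asm

/-!
# S56, block BA: the leaf `H82bSum`
-/

set_option autoImplicit false
set_option linter.style.haveILetI false

noncomputable section

namespace Fermat.Agent.S56G

/-- the restriction of a representation to a stable submodule -/
def h82b_subRep {k : Type} [CommRing k] {G : Type} [Group G] {V : Type} [AddCommGroup V]
    [Module k V] (ρ : Representation k G V) (W : Submodule k V)
    (hW : ∀ g, ∀ v ∈ W, ρ g v ∈ W) : Representation k G ↥W where
  toFun g := (ρ g).restrict (hW g)
  map_one' := by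
    ext v
    simp
  map_mul' g h := by
    ext v
    simp

@[simp] lemma h82b_subRep_apply {k : Type} [CommRing k] {G : Type} [Group G] {V : Type}
    [AddCommGroup V] [Module k V] (ρ : Representation k G V) (W : Submodule k V)
    (hW : ∀ g, ∀ v ∈ W, ρ g v ∈ W) (g : G) (w : ↥W) :
    ((h82b_subRep ρ W hW g w : ↥W) : V) = ρ g (w : V) := rfl

/-- the functions on a sigma type supported on the fibres over `s` -/
def h82b_supp {k : Type} [CommRing k] {N : Type} [AddCommGroup N] [Module k N] {ι : Type}
    (X : ι → Type) (s : Finset ι) : Submodule k ((Σ i, X i) → N) where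
  carrier := {f | ∀ x : Σ i, X i, x.1 ∉ s → f x = 0}
  add_mem' := by
    intro f f' hf hf' x hx
    simp [hf x hx, hf' x hx]
  zero_mem' := by
    intro x _
    rfl
  smul_mem' := by
    intro a f hf x hx
    simp [hf x hx]

theorem h82b_mem_supp {k : Type} [CommRing k] {N : Type} [AddCommGroup N] [Module k N] {ι : Type}
    {X : ι → Type} {s : Finset ι} {f : (Σ i, X i) → N} :
    f ∈ h82b_supp (k := k) X s ↔ ∀ x : Σ i, X i, x.1 ∉ s → f x = 0 := Iff.rfl

theorem h82b_supp_stable {k : Type} [CommRing k] {G : Type} [Group G] {N : Type}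
    [AddCommGroup N] [Module k N] (ν : Representation k G N) {ι : Type} (X : ι → Type)
    [∀ i, MulAction G (X i)] (s : Finset ι) (g : G) :
    ∀ f ∈ h82b_supp (k := k) (N := N) X s, h82b_F ν (Σ i, X i) g f ∈ h82b_supp (k := k) X s := by
  intro f hf x hx
  rw [h82b_F_apply, hf _ (by obtain ⟨i, a⟩ := x; exact hx), map_zero]

/-- the general form of **BA-SUM** -/
theorem h82b_sum_gen {k : Type} [Field k] {G : Type} [Group G]
    (Φ : ∀ (V : Type) [AddCommGroup V] [Module k V], Representation k G V → ℤ)
    (hΦ : h47g_IsAdditive k G Φ) {N : Type} [AddCommGroup N] [Module k N]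
    [FiniteDimensional k N] (ν : Representation k G N) {ι : Type} [Fintype ι] (X : ι → Type)
    [∀ i, MulAction G (X i)] [∀ i, Finite (X i)] :
    Φ ((Σ i, X i) → N) (h82b_F ν (Σ i, X i)) = ∑ i, Φ ((X i) → N) (h82b_F ν (X i)) := by
  classical
  have key : ∀ s : Finset ι,
      Φ ↥(h82b_supp (k := k) (N := N) X s)
        (h82b_subRep (h82b_F ν (Σ i, X i)) _ (h82b_supp_stable ν X s)) =
      ∑ i ∈ s, Φ ((X i) → N) (h82b_F ν (X i)) := by
    intro s
    induction s using Finset.induction_on with
    | empty =>
      rw [Finset.sum_empty]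
      haveI : Subsingleton ↥(h82b_supp (k := k) (N := N) X ∅) := by
        constructor
        intro a b
        apply Subtype.ext
        funext x
        rw [a.2 x (by simp), b.2 x (by simp)]
      exact (h82b_iso k G Φ hΦ).2 _ _
    | insert i s hi ih =>
      rw [Finset.sum_insert hi, ← ih]
      have hle : h82b_supp (k := k) (N := N) X s ≤ h82b_supp (k := k) X (insert i s) := by
        intro f hf x hx
        exact hf x (fun h0 => hx (Finset.mem_insert_of_mem h0))
      let ψ : ↥(h82b_supp (k := k) (N := N) X (insert i s)) →ₗ[k] ((X i) → N) :=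
        { toFun := fun f x => (f : (Σ i, X i) → N) ⟨i, x⟩
          map_add' := fun f f' => rfl
          map_smul' := fun a f => rfl }
      have h := hΦ _ _ _ (h82b_subRep (h82b_F ν (Σ i, X i)) _ (h82b_supp_stable ν X s))
        (h82b_subRep (h82b_F ν (Σ i, X i)) _ (h82b_supp_stable ν X (insert i s)))
        (h82b_F ν (X i)) (Submodule.inclusion hle) ψ ?_ ?_ ?_ ?_ ?_
      · rw [h, add_comm]
      · intro g v
        rfl
      · intro g v
        rfl
      · exact Submodule.inclusion_injective hle
      · intro F
        refine ⟨⟨fun x => if h : x.1 = i then F (cast (by rw [h]) x.2) else 0, ?_⟩, ?_⟩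
        · intro x hx
          have : ¬ x.1 = i := fun h0 => hx (h0 ▸ Finset.mem_insert_self _ _)
          simp [this]
        · funext x
          show (if h : i = i then F (cast _ x) else 0) = F x
          simp
      · ext f
        simp only [LinearMap.mem_range, LinearMap.mem_ker]
        constructor
        · rintro ⟨f', rfl⟩
          funext x
          exact f'.2 ⟨i, x⟩ hi
        · intro hf
          refine ⟨⟨(f : (Σ i, X i) → N), ?_⟩, ?_⟩
          · intro x hx
            by_cases hxi : x.1 = i
            · obtain ⟨j, y⟩ := x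
              simp only at hxi
              subst hxi
              exact congrFun hf y
            · exact f.2 x (fun h0 => by
                rcases Finset.mem_insert.1 h0 with h1 | h1
                · exact hxi h1
                · exact hx h1)
          · apply Subtype.ext
            rfl
  rw [← key Finset.univ]
  symm
  refine (h82b_iso k G Φ hΦ).1 _ _ _ _
    (LinearEquiv.ofBijective (h82b_supp (k := k) (N := N) X Finset.univ).subtype
      ⟨Subtype.val_injective, fun f => ⟨⟨f, fun x hx => absurd (Finset.mem_univ _) hx⟩, rfl⟩⟩) ?_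
  intro g v
  rfl

/-- **BA-SUM.** -/
theorem h82b_sum : H82bSum := by
  intro k _ G _ _ Φ hΦ N _ _ _ ν ι _ D
  exact h82b_sum_gen Φ hΦ ν (fun i => G ⧸ D i)

end Fermat.Agent.S56G
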